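/-
T14 / CR: a Frobenius element (over `K`) of a prime `𝔔` of `M` which fixes an intermediate field `F`
pointwise: the prime `𝔔 ∩ F` has degree one over `𝔔 ∩ K`, the same automorphism is a Frobenius
element over `F`, and `N_{F/K} (𝔔 ∩ F) = 𝔔 ∩ K`.
-/
import Fermat.Agent.S14.Defs

set_option autoImplicit false
set_option linter.unusedSectionVars false
set_option linter.style.haveILetI false
set_option linter.unusedVariables false

open NumberField nonZeroDivisors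

namespace Fermat.Agent.S14.CR

/-- a finite field all of whose elements satisfy `x ^ n = x` (`2 ≤ n`) has at most `n` elements -/
theorem card_le_of_forall_pow_eq_self (κ : Type*) [Field κ] [Fintype κ] (n : ℕ) (hn : 1 < n)
    (h : ∀ x : κ, x ^ n = x) : Fintype.card κ ≤ n := by
  classical
  have hpoly : (Polynomial.X ^ n - Polynomial.X : Polynomial κ) ≠ 0 :=
    FiniteField.X_pow_card_sub_X_ne_zero _ hn
  have hsub : (Finset.univ : Finset κ) ⊆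
      (Polynomial.X ^ n - Polynomial.X : Polynomial κ).roots.toFinset := by
    intro y _
    rw [Multiset.mem_toFinset, Polynomial.mem_roots hpoly]
    simp only [Polynomial.IsRoot.def, Polynomial.eval_sub, Polynomial.eval_pow,
      Polynomial.eval_X]
    rw [h y, sub_self]
  calc Fintype.card κ = (Finset.univ : Finset κ).card := rfl
    _ ≤ (Polynomial.X ^ n - Polynomial.X : Polynomial κ).roots.toFinset.card :=
        Finset.card_le_card hsub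
    _ ≤ Multiset.card (Polynomial.X ^ n - Polynomial.X : Polynomial κ).roots :=
        Multiset.toFinset_card_le _
    _ ≤ (Polynomial.X ^ n - Polynomial.X : Polynomial κ).natDegree :=
        Polynomial.card_roots' _
    _ = n := FiniteField.X_pow_card_sub_X_natDegree_eq _ hn

variable {K F M : Type*} [Field K] [NumberField K] [Field F] [NumberField F] [Field M]
  [NumberField M] [Algebra K F] [Algebra F M] [Algebra K M] [IsScalarTower K F M]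

theorem under_under_eq (𝔔 : Ideal (𝓞 M)) :
    (𝔔.under (𝓞 F)).under (𝓞 K) = 𝔔.under (𝓞 K) := by
  ext x
  simp only [Ideal.under_def, Ideal.mem_comap]
  rw [← IsScalarTower.algebraMap_apply]

theorem under_ne_bot_of_ne_bot (𝔔 : Ideal (𝓞 M)) (h𝔔 : 𝔔 ≠ ⊥) : 𝔔.under (𝓞 F) ≠ ⊥ := by
  intro h0
  exact h𝔔 (Ideal.eq_bot_of_comap_eq_bot h0)

/-- (FF0) the inertia degree of `𝔔 ∩ F` over `K` is one. -/
theorem inertiaDeg_under_eq_one_of_fixes [IsGalois K M] (s : M ≃ₐ[K] M)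
    (𝔔 : Ideal (𝓞 M)) [𝔔.IsPrime] (h𝔔 : 𝔔 ≠ ⊥) (hs : IsArithFrobAt (𝓞 K) s 𝔔)
    (hfix : ∀ x : F, s (algebraMap F M x) = algebraMap F M x) :
    (𝔔.under (𝓞 F)).inertiaDeg (𝓞 K) = 1 := by
  set 𝔓 := 𝔔.under (𝓞 F) with h𝔓def
  have h𝔓 : 𝔓 ≠ ⊥ := under_ne_bot_of_ne_bot 𝔔 h𝔔
  have h𝔭 : 𝔓.under (𝓞 K) ≠ ⊥ := under_ne_bot_of_ne_bot 𝔓 h𝔓
  haveI : 𝔓.IsPrime := inferInstance
  haveI hlo : 𝔓.LiesOver (𝔓.under (𝓞 K)) := ⟨rfl⟩
  have hpow := Ideal.absNorm_pow_inertiaDeg (𝔓.under (𝓞 K)) 𝔓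
  set n := Ideal.absNorm (𝔓.under (𝓞 K)) with hn
  have hn1 : 1 < n := by
    have h0 : n ≠ 0 := by
      rw [hn, Ne, Ideal.absNorm_eq_zero_iff]
      exact h𝔭
    have h1' : n ≠ 1 := by
      rw [hn, Ne, Ideal.absNorm_eq_one_iff]
      exact Ideal.IsPrime.ne_top inferInstance
    omega
  haveI : 𝔓.IsMaximal := Ideal.IsPrime.isMaximal inferInstance h𝔓
  letI : Field (𝓞 F ⧸ 𝔓) := Ideal.Quotient.field 𝔓
  haveI : Finite (𝓞 F ⧸ 𝔓) := Ideal.finiteQuotientOfFreeOfNeBot _ h𝔓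
  letI : Fintype (𝓞 F ⧸ 𝔓) := Fintype.ofFinite _
  have hcardK : Nat.card (𝓞 K ⧸ 𝔔.under (𝓞 K)) = n := by
    rw [hn, under_under_eq, Ideal.absNorm_apply, Submodule.cardQuot_apply]
  have hle : Fintype.card (𝓞 F ⧸ 𝔓) ≤ n := by
    apply card_le_of_forall_pow_eq_self _ n hn1
    intro y
    obtain ⟨x, rfl⟩ := Ideal.Quotient.mk_surjective y
    have h2 := hs (algebraMap (𝓞 F) (𝓞 M) x)
    rw [hcardK] at h2
    have h3 : (MulSemiringAction.toAlgHom (𝓞 K) (𝓞 M) s) (algebraMap (𝓞 F) (𝓞 M) x) =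
        algebraMap (𝓞 F) (𝓞 M) x := by
      apply Subtype.ext
      exact hfix (x : F)
    rw [h3, ← map_pow, ← map_sub] at h2
    have h4 : x - x ^ n ∈ 𝔓 := by
      rw [h𝔓def, Ideal.under_def, Ideal.mem_comap]
      exact h2
    rw [← map_pow, eq_comm, ← sub_eq_zero, ← map_sub, Ideal.Quotient.eq_zero_iff_mem]
    exact h4
  have hN : Ideal.absNorm 𝔓 ≤ n := by
    rw [Ideal.absNorm_apply, Submodule.cardQuot_apply, Nat.card_eq_fintype_card]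
    exact hle
  have hpos : 0 < 𝔓.inertiaDeg (𝓞 K) := Ideal.inertiaDeg_pos 𝔓 (𝓞 K)
  rw [← hpow] at hN
  by_contra hne
  have h2 : 2 ≤ 𝔓.inertiaDeg (𝓞 K) := by omega
  have : n ^ 2 ≤ n ^ 𝔓.inertiaDeg (𝓞 K) := Nat.pow_le_pow_right (by omega) h2
  nlinarith

/-- (FF1) the primes `𝔔 ∩ F` and `𝔔 ∩ K` have the same absolute norm. -/
theorem absNorm_under_eq_of_fixes [IsGalois K M] (s : M ≃ₐ[K] M)
    (𝔔 : Ideal (𝓞 M)) [𝔔.IsPrime] (h𝔔 : 𝔔 ≠ ⊥) (hs : IsArithFrobAt (𝓞 K) s 𝔔)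
    (hfix : ∀ x : F, s (algebraMap F M x) = algebraMap F M x) :
    Ideal.absNorm (𝔔.under (𝓞 F)) = Ideal.absNorm (𝔔.under (𝓞 K)) := by
  have hf := inertiaDeg_under_eq_one_of_fixes s 𝔔 h𝔔 hs hfix
  haveI hlo : (𝔔.under (𝓞 F)).LiesOver ((𝔔.under (𝓞 F)).under (𝓞 K)) := ⟨rfl⟩
  have hpow := Ideal.absNorm_pow_inertiaDeg ((𝔔.under (𝓞 F)).under (𝓞 K)) (𝔔.under (𝓞 F))
  rw [hf, pow_one, under_under_eq] at hpow
  exact hpow.symm

/-- (FF2) the same automorphism, viewed over `F`, is a Frobenius element at `𝔔`. -/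
theorem isArithFrobAt_of_fixes [IsGalois K M] [IsGalois F M] (s : M ≃ₐ[K] M)
    (𝔔 : Ideal (𝓞 M)) [𝔔.IsPrime] (h𝔔 : 𝔔 ≠ ⊥) (hs : IsArithFrobAt (𝓞 K) s 𝔔)
    (hfix : ∀ x : F, s (algebraMap F M x) = algebraMap F M x)
    (t : M ≃ₐ[F] M) (ht : ∀ x : M, t x = s x) : IsArithFrobAt (𝓞 F) t 𝔔 := by
  intro x
  have h1 := hs x
  have hN : Nat.card (𝓞 F ⧸ 𝔔.under (𝓞 F)) = Nat.card (𝓞 K ⧸ 𝔔.under (𝓞 K)) := by
    have := absNorm_under_eq_of_fixes s 𝔔 h𝔔 hs hfix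
    rwa [Ideal.absNorm_apply, Submodule.cardQuot_apply, Ideal.absNorm_apply,
      Submodule.cardQuot_apply] at this
  rw [hN]
  have h2 : (MulSemiringAction.toAlgHom (𝓞 F) (𝓞 M) t) x =
      (MulSemiringAction.toAlgHom (𝓞 K) (𝓞 M) s) x := by
    apply Subtype.ext
    exact ht (x : M)
  rw [h2]
  exact h1

/-- (FF3) `N_{F/K} (𝔔 ∩ F) = 𝔔 ∩ K`. -/
theorem relNorm_under_eq_of_fixes [IsGalois K M] (s : M ≃ₐ[K] M)
    (𝔔 : Ideal (𝓞 M)) [𝔔.IsPrime] (h𝔔 : 𝔔 ≠ ⊥) (hs : IsArithFrobAt (𝓞 K) s 𝔔)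
    (hfix : ∀ x : F, s (algebraMap F M x) = algebraMap F M x) :
    Ideal.relNorm (𝓞 K) (𝔔.under (𝓞 F)) = 𝔔.under (𝓞 K) := by
  have h𝔓 : 𝔔.under (𝓞 F) ≠ ⊥ := under_ne_bot_of_ne_bot 𝔔 h𝔔
  have h𝔭 : (𝔔.under (𝓞 F)).under (𝓞 K) ≠ ⊥ := under_ne_bot_of_ne_bot _ h𝔓
  haveI : (𝔔.under (𝓞 F)).IsMaximal := Ideal.IsPrime.isMaximal inferInstance h𝔓
  haveI : ((𝔔.under (𝓞 F)).under (𝓞 K)).IsMaximal := Ideal.IsPrime.isMaximal inferInstance h𝔭
  haveI hlo : (𝔔.under (𝓞 F)).LiesOver ((𝔔.under (𝓞 F)).under (𝓞 K)) := ⟨rfl⟩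
  have := Ideal.relNorm_eq_pow_of_isMaximal (𝔔.under (𝓞 F)) ((𝔔.under (𝓞 F)).under (𝓞 K))
  rw [inertiaDeg_under_eq_one_of_fixes s 𝔔 h𝔔 hs hfix, pow_one, under_under_eq] at this
  exact this

end Fermat.Agent.S14.CR
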