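/-
T14 package CR, file FrobTower (helper19): Frobenius elements in towers.

* (AR3) restriction: a Frobenius element of `M/F` at `𝔔` restricts to a Frobenius element of `Ω/F`
  at `𝔔 ∩ 𝓞 Ω` (`F ⊆ Ω ⊆ M`, `Ω/F` normal); consequences for `frobAt` / `artinMap` when `Ω/F` is
  unramified.
* (AR4) change of base field: if `t ∈ Gal(M/F)` is, as an element of `Gal(M/K)`, a Frobenius element
  at `𝔔` over `K` (`K ⊆ F ⊆ M`), then `𝔔 ∩ 𝓞 F` has the same norm as `𝔔 ∩ 𝓞 K` and `t` is a Frobenius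
  element at `𝔔` over `F`; general version with `Frob^f`.
-/
import Fermat.Agent.S14.Artin
import Fermat.Agent.S14.CRCyc

set_option autoImplicit false

open NumberField nonZeroDivisors

namespace Fermat.Agent.S14.CR

section Restriction

variable {F Ω M : Type*} [Field F] [NumberField F] [Field Ω] [NumberField Ω]
  [Field M] [NumberField M] [Algebra F Ω] [Algebra Ω M] [Algebra F M] [IsScalarTower F Ω M]

omit [NumberField F] [NumberField Ω] [NumberField M] in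
/-- The action of `s|_Ω` on `𝓞 Ω` is the restriction of the action of `s` on `𝓞 M`. -/
lemma algebraMap_restrictNormal_smul [Normal F Ω] (s : M ≃ₐ[F] M) (x : 𝓞 Ω) :
    algebraMap (𝓞 Ω) (𝓞 M) (s.restrictNormal Ω • x) = s • algebraMap (𝓞 Ω) (𝓞 M) x := by
  apply RingOfIntegers.coe_injective
  show algebraMap Ω M ((s.restrictNormal Ω) (x : Ω)) = s (algebraMap Ω M (x : Ω))
  exact AlgEquiv.restrictNormal_commutes s Ω (x : Ω)

/-- (AR3) A Frobenius element of `M/F` at `𝔔` restricts to a Frobenius element of `Ω/F` at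
`𝔔 ∩ 𝓞 Ω`. -/
theorem isArithFrobAt_restrictNormal [IsGalois F M] [IsGalois F Ω] {s : M ≃ₐ[F] M}
    {𝔔 : Ideal (𝓞 M)} (hs : IsArithFrobAt (𝓞 F) s 𝔔) :
    IsArithFrobAt (𝓞 F) (s.restrictNormal Ω) (𝔔.under (𝓞 Ω)) := by
  intro x
  have h := hs (algebraMap (𝓞 Ω) (𝓞 M) x)
  rw [MulSemiringAction.toAlgHom_apply] at h ⊢
  rw [Ideal.under_def, Ideal.mem_comap, map_sub, map_pow, algebraMap_restrictNormal_smul,
    ← Ideal.under_def, Ideal.under_under]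
  exact h

/-- (AR3) for `frobAt`, local form: if `Ω/F` is unramified at the primes above `𝔭`, then
`frobAt F M 𝔭` restricts to `frobAt F Ω 𝔭` (no hypothesis on the ramification of `M/F`). -/
theorem restrictNormal_frobAt_of_inertia [IsAbelianGalois F M] [IsAbelianGalois F Ω]
    (𝔭 : Ideal (𝓞 F)) [𝔭.IsPrime] (h𝔭 : 𝔭 ≠ ⊥)
    (hI : ∀ P : Ideal (𝓞 Ω), P.IsPrime → P.under (𝓞 F) = 𝔭 → P.inertia (Ω ≃ₐ[F] Ω) = ⊥) :
    (frobAt F M 𝔭).restrictNormal Ω = frobAt F Ω 𝔭 := by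
  obtain ⟨𝔔, h𝔔prime, -, h𝔔u, hF⟩ := frobAt_spec' F M h𝔭
  have hu : (𝔔.under (𝓞 Ω)).under (𝓞 F) = 𝔭 := by rw [Ideal.under_under, h𝔔u]
  have h0 : 𝔔.under (𝓞 Ω) ≠ ⊥ := by
    intro h
    apply h𝔭
    rw [← hu, h]
    exact Ideal.under_bot (𝓞 F) (𝓞 Ω)
  have h1 := isArithFrobAt_restrictNormal (Ω := Ω) hF
  have h2 := frobAt_eq_of_isArithFrobAt h0 (hI _ inferInstance hu) h1
  rw [hu] at h2
  exact h2.symm

/-- (AR3) for `frobAt`: if `Ω/F` is unramified everywhere, `frobAt F M 𝔭` restricts to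
`frobAt F Ω 𝔭`. -/
theorem restrictNormal_frobAt [IsAbelianGalois F M] [IsAbelianGalois F Ω]
    (hΩ : UnramifiedEverywhere F Ω) (𝔭 : Ideal (𝓞 F)) [𝔭.IsPrime] (h𝔭 : 𝔭 ≠ ⊥) :
    (frobAt F M 𝔭).restrictNormal Ω = frobAt F Ω 𝔭 := by
  refine restrictNormal_frobAt_of_inertia 𝔭 h𝔭 (fun P hP hu => ?_)
  have : P.IsPrime := hP
  refine hΩ.inertia_eq_bot P ?_
  rintro rfl
  apply h𝔭
  rw [← hu]
  exact Ideal.under_bot (𝓞 F) (𝓞 Ω)

/-- (AR3) for the Artin map: if `Ω/F` is unramified everywhere, the Artin map of `M/F` restricts to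
the Artin map of `Ω/F` (on all nonzero ideals; no hypothesis on the ramification of `M/F`). -/
theorem restrictNormalHom_artinMap [IsAbelianGalois F M] [IsAbelianGalois F Ω]
    (hΩ : UnramifiedEverywhere F Ω) (I : (Ideal (𝓞 F))⁰) :
    AlgEquiv.restrictNormalHom Ω (artinMap F M I) = artinMap F Ω I := by
  obtain ⟨I, hI⟩ := I
  have hI0 : I ≠ 0 := nonZeroDivisors.ne_zero hI
  revert hI
  induction I using UniqueFactorizationMonoid.induction_on_prime with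
  | h₁ => exact absurd rfl hI0
  | h₂ J hJu =>
    intro hJ
    have h1 : (⟨J, hJ⟩ : (Ideal (𝓞 F))⁰) = 1 := by
      apply Subtype.ext
      rw [Ideal.isUnit_iff] at hJu
      show J = ((1 : (Ideal (𝓞 F))⁰) : Ideal (𝓞 F))
      rw [hJu, Submonoid.coe_one, Ideal.one_eq_top]
    rw [h1, map_one, map_one, map_one]
  | h₃ J P hJ0 hP ih =>
    intro hPJ
    have hP0 : P ≠ ⊥ := hP.ne_zero
    have hPprime : P.IsPrime := Ideal.isPrime_of_prime hP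
    have hJmem : J ∈ (Ideal (𝓞 F))⁰ := mem_nonZeroDivisors_of_ne_zero hJ0
    have hmul : (⟨P * J, hPJ⟩ : (Ideal (𝓞 F))⁰) =
        ⟨P, mem_nonZeroDivisors_of_ne_zero hP0⟩ * ⟨J, hJmem⟩ := Subtype.ext rfl
    rw [hmul, map_mul, map_mul, map_mul, ih hJ0 hJmem, artinMap_prime F M hP0,
      artinMap_prime F Ω hP0]
    congr 1
    exact restrictNormal_frobAt hΩ P hP0

end Restriction

section BaseChange

variable {K F M : Type*} [Field K] [NumberField K] [Field F] [NumberField F]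
  [Field M] [NumberField M] [Algebra K F] [Algebra F M] [Algebra K M] [IsScalarTower K F M]

/-- (AR4), general form: if `t ∈ Gal(M/F)` equals `s ^ n` in `Gal(M/K)` for a `K`-Frobenius element
`s` at `𝔔`, and `N(𝔔 ∩ 𝓞 F) = N(𝔔 ∩ 𝓞 K) ^ n`, then `t` is an `F`-Frobenius element at `𝔔`. -/
theorem isArithFrobAt_of_restrictScalars_eq_pow [IsGalois K M] [IsGalois F M] {s : M ≃ₐ[K] M}
    {t : M ≃ₐ[F] M} {𝔔 : Ideal (𝓞 M)} [𝔔.IsPrime] (hs : IsArithFrobAt (𝓞 K) s 𝔔) {n : ℕ}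
    (ht : t.restrictScalars K = s ^ n)
    (hN : Ideal.absNorm (𝔔.under (𝓞 F)) = Ideal.absNorm (𝔔.under (𝓞 K)) ^ n) :
    IsArithFrobAt (𝓞 F) t 𝔔 := by
  intro x
  have h := isArithFrobAt_pow_sub hs n x
  rw [MulSemiringAction.toAlgHom_apply]
  rw [CRCyc.natCard_quot_eq_absNorm, ← hN, ← ht] at h
  rw [CRCyc.natCard_quot_eq_absNorm]
  exact h

/-- If an element of `Gal(M/F)` is a `K`-Frobenius element at `𝔔`, then `𝔔 ∩ 𝓞 F` has residue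
degree one over `K`: `N(𝔔 ∩ 𝓞 F) = N(𝔔 ∩ 𝓞 K)`. -/
theorem absNorm_under_eq_of_isArithFrobAt_restrictScalars [IsGalois K M] [IsGalois F M]
    {t : M ≃ₐ[F] M} {𝔔 : Ideal (𝓞 M)} [𝔔.IsPrime] (h𝔔 : 𝔔 ≠ ⊥)
    (ht : IsArithFrobAt (𝓞 K) (t.restrictScalars K) 𝔔) :
    Ideal.absNorm (𝔔.under (𝓞 F)) = Ideal.absNorm (𝔔.under (𝓞 K)) := by
  set 𝔓 := 𝔔.under (𝓞 F) with h𝔓def
  have h𝔓0 : 𝔓 ≠ ⊥ := fun h0 => h𝔔 (Ideal.eq_bot_of_comap_eq_bot h0)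
  have h𝔓max : 𝔓.IsMaximal := Ideal.IsPrime.isMaximal inferInstance h𝔓0
  have hu : 𝔓.under (𝓞 K) = 𝔔.under (𝓞 K) := Ideal.under_under _
  have h𝔭0 : 𝔔.under (𝓞 K) ≠ ⊥ := fun h0 => h𝔔 (Ideal.eq_bot_of_comap_eq_bot h0)
  have h𝔭max : (𝔔.under (𝓞 K)).IsMaximal := Ideal.IsPrime.isMaximal inferInstance h𝔭0
  let _ : Field (𝓞 F ⧸ 𝔓) := Ideal.Quotient.field 𝔓
  have : Finite (𝓞 F ⧸ 𝔓) := Ideal.finiteQuotientOfFreeOfNeBot 𝔓 h𝔓0
  have : Finite (𝓞 K ⧸ 𝔔.under (𝓞 K)) := Ideal.finiteQuotientOfFreeOfNeBot _ h𝔭0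
  have : Nontrivial (𝓞 K ⧸ 𝔔.under (𝓞 K)) := Ideal.Quotient.nontrivial_iff.mpr h𝔭max.ne_top
  set q := Nat.card (𝓞 K ⧸ 𝔔.under (𝓞 K)) with hq
  have hq2 : 2 ≤ q := Finite.one_lt_card
  -- every element of the residue field of `𝔓` is fixed by `x ↦ x ^ q`
  have hall : ∀ x : 𝓞 F ⧸ 𝔓, x ^ q = x := by
    intro x
    obtain ⟨x, rfl⟩ := Ideal.Quotient.mk_surjective x
    have h := ht (algebraMap (𝓞 F) (𝓞 M) x)
    rw [MulSemiringAction.toAlgHom_apply] at h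
    have hfix : (t.restrictScalars K) • algebraMap (𝓞 F) (𝓞 M) x = algebraMap (𝓞 F) (𝓞 M) x := by
      apply RingOfIntegers.coe_injective
      show t (algebraMap F M (x : F)) = algebraMap F M (x : F)
      exact t.commutes _
    rw [hfix, ← map_pow, ← map_sub] at h
    rw [← map_pow, eq_comm, Ideal.Quotient.eq, h𝔓def, Ideal.under_def, Ideal.mem_comap]
    exact h
  have hcard := natCard_le_of_forall_pow_eq hq2 hall
  have h1 : Nat.card (𝓞 F ⧸ 𝔓) = q ^ 𝔓.inertiaDeg (𝓞 K) := by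
    rw [hq, ← hu, ← Submodule.cardQuot_apply, ← Submodule.cardQuot_apply,
      ← Ideal.cardQuot_pow_inertiaDeg (𝔓.under (𝓞 K)) 𝔓]
  rw [← CRCyc.natCard_quot_eq_absNorm, ← CRCyc.natCard_quot_eq_absNorm]
  apply le_antisymm hcard
  rw [h1]
  exact Nat.le_self_pow (Ideal.inertiaDeg_pos 𝔓 (𝓞 K)).ne' q

/-- (AR4) If an element `t` of `Gal(M/F)` is a `K`-Frobenius element at `𝔔`, it is an `F`-Frobenius
element at `𝔔`. -/
theorem isArithFrobAt_of_restrictScalars [IsGalois K M] [IsGalois F M]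
    {t : M ≃ₐ[F] M} {𝔔 : Ideal (𝓞 M)} [𝔔.IsPrime] (h𝔔 : 𝔔 ≠ ⊥)
    (ht : IsArithFrobAt (𝓞 K) (t.restrictScalars K) 𝔔) : IsArithFrobAt (𝓞 F) t 𝔔 :=
  isArithFrobAt_of_restrictScalars_eq_pow (n := 1) ht (pow_one _).symm
    (by rw [pow_one]; exact absNorm_under_eq_of_isArithFrobAt_restrictScalars h𝔔 ht)

/-- (AR4) for `frobAt`, abelian case: if `frobAt K M 𝔭` comes from `t ∈ Gal(M/F)` and `M/F` is
unramified at the primes above the prime `𝔓` of `F` over `𝔭`, then `frobAt F M 𝔓 = t` and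
`N𝔓 = N𝔭` (so `𝔭` splits completely in `F` if moreover `𝔭` is unramified in `F`). -/
theorem frobAt_eq_of_restrictScalars_eq_frobAt [IsAbelianGalois K M] [IsAbelianGalois F M]
    (𝔓 : Ideal (𝓞 F)) [𝔓.IsPrime] (h𝔓 : 𝔓 ≠ ⊥)
    (hI : ∀ P : Ideal (𝓞 M), P.IsPrime → P.under (𝓞 F) = 𝔓 → P.inertia (M ≃ₐ[F] M) = ⊥)
    (t : M ≃ₐ[F] M) (ht : t.restrictScalars K = frobAt K M (𝔓.under (𝓞 K))) :
    frobAt F M 𝔓 = t ∧ Ideal.absNorm 𝔓 = Ideal.absNorm (𝔓.under (𝓞 K)) := by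
  obtain ⟨𝔔, h𝔔prime, h𝔔0, h𝔔u⟩ := exists_prime_over F M h𝔓
  have huK : 𝔔.under (𝓞 K) = 𝔓.under (𝓞 K) := by rw [← h𝔔u, Ideal.under_under]
  have h1 : IsArithFrobAt (𝓞 K) (t.restrictScalars K) 𝔔 := by
    rw [ht, ← huK]
    exact isArithFrobAt_frobAt K M 𝔔 h𝔔0
  have h2 := isArithFrobAt_of_restrictScalars h𝔔0 h1
  have h3 := frobAt_eq_of_isArithFrobAt h𝔔0 (hI 𝔔 h𝔔prime h𝔔u) h2
  have h4 := absNorm_under_eq_of_isArithFrobAt_restrictScalars h𝔔0 h1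
  rw [h𝔔u] at h3 h4
  rw [huK] at h4
  exact ⟨h3, h4⟩

/-- A nonzero prime `𝔓` of `F` with `N𝔓 = N(𝔓 ∩ 𝓞 K)` has relative norm `𝔓 ∩ 𝓞 K`. -/
theorem relNorm_eq_under_of_absNorm_eq (𝔓 : Ideal (𝓞 F)) [𝔓.IsPrime] (h𝔓 : 𝔓 ≠ ⊥)
    (hN : Ideal.absNorm 𝔓 = Ideal.absNorm (𝔓.under (𝓞 K))) :
    Ideal.relNorm (𝓞 K) 𝔓 = 𝔓.under (𝓞 K) := by
  have h𝔓max : 𝔓.IsMaximal := Ideal.IsPrime.isMaximal inferInstance h𝔓
  have h𝔭0 : 𝔓.under (𝓞 K) ≠ ⊥ := fun h0 => h𝔓 (Ideal.eq_bot_of_comap_eq_bot h0)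
  have h𝔭max : (𝔓.under (𝓞 K)).IsMaximal := Ideal.IsPrime.isMaximal inferInstance h𝔭0
  have hf : 𝔓.inertiaDeg (𝓞 K) = 1 := by
    have h1 : Ideal.absNorm 𝔓 = Ideal.absNorm (𝔓.under (𝓞 K)) ^ 𝔓.inertiaDeg (𝓞 K) := by
      rw [Ideal.absNorm_apply, Ideal.absNorm_apply,
        ← Ideal.cardQuot_pow_inertiaDeg (𝔓.under (𝓞 K)) 𝔓]
    have hq2 : 2 ≤ Ideal.absNorm (𝔓.under (𝓞 K)) := by
      have : Finite (𝓞 K ⧸ 𝔓.under (𝓞 K)) := Ideal.finiteQuotientOfFreeOfNeBot _ h𝔭0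
      have : Nontrivial (𝓞 K ⧸ 𝔓.under (𝓞 K)) :=
        Ideal.Quotient.nontrivial_iff.mpr h𝔭max.ne_top
      rw [← CRCyc.natCard_quot_eq_absNorm]
      exact Finite.one_lt_card
    rw [hN] at h1
    conv_lhs at h1 => rw [← pow_one (Ideal.absNorm (𝔓.under (𝓞 K)))]
    exact (Nat.pow_right_injective hq2 h1).symm
  rw [Ideal.relNorm_eq_pow_of_isMaximal 𝔓 (𝔓.under (𝓞 K)), hf, pow_one]

end BaseChange

end Fermat.Agent.S14.CR
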