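/-
T14 package CR, file CycFrob (helper19): the shapes requested by the CR owner (board 656).

* `frob_zeta` (CYC1): a Frobenius element at `𝔔` raises the `m`-th roots of unity (`m ∉ 𝔔`) to the
  power `N(𝔔 ∩ 𝓞 F)`.
* `monoidHom_eq_of_isCoprime` (CYC3): two monoid homs on the nonzero ideals of a Dedekind domain
  which agree on the primes not containing `𝔪` agree on all ideals coprime to `𝔪`.
* `absNormUnit` (CYC4): the absolute norm mod `m` as a unit of `ZMod m`, multiplicative on ideals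
  coprime to `m`.
-/
import Fermat.Agent.S14.CRCyc

set_option autoImplicit false

open NumberField nonZeroDivisors

namespace Fermat.Agent.S14.CR

/-- CYC1 in the shape of board 656. -/
theorem frob_zeta (F M : Type*) [Field F] [NumberField F] [Field M] [NumberField M] [Algebra F M]
    [IsGalois F M] (s : M ≃ₐ[F] M) (𝔔 : Ideal (𝓞 M)) [𝔔.IsPrime] (_h𝔔 : 𝔔 ≠ ⊥)
    (hs : IsArithFrobAt (𝓞 F) s 𝔔) {m : ℕ} (hm : (m : 𝓞 M) ∉ 𝔔) (ζ : M) (hζ : ζ ^ m = 1) :
    s ζ = ζ ^ Ideal.absNorm (𝔔.under (𝓞 F)) :=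
  CRCyc.isArithFrobAt_apply_zeta hs hζ hm

section CYC3

variable {R : Type*} [CommRing R] [IsDedekindDomain R] {A : Type*} [CommMonoid A]

omit [IsDedekindDomain R] in
/-- A prime ideal coprime to `𝔪` does not contain `𝔪`. -/
lemma not_le_of_isCoprime {P 𝔪 : Ideal R} (hP : P.IsPrime) (h : IsCoprime P 𝔪) : ¬ 𝔪 ≤ P := by
  intro hle
  rw [Ideal.isCoprime_iff_sup_eq, sup_eq_left.2 hle] at h
  exact hP.ne_top h

/-- CYC3: two monoid homs on nonzero ideals agreeing on the primes not containing `𝔪` agree on all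
ideals coprime to `𝔪`. -/
theorem monoidHom_eq_of_isCoprime (f g : (Ideal R)⁰ →* A) (𝔪 : Ideal R)
    (hfg : ∀ (P : Ideal R) (_hP : P.IsPrime) (h0 : P ≠ ⊥), ¬ 𝔪 ≤ P →
      f ⟨P, mem_nonZeroDivisors_of_ne_zero h0⟩ = g ⟨P, mem_nonZeroDivisors_of_ne_zero h0⟩) :
    ∀ I : (Ideal R)⁰, IsCoprime (I : Ideal R) 𝔪 → f I = g I := by
  have key : ∀ J : Ideal R, ∀ hJ : J ∈ (Ideal R)⁰, IsCoprime J 𝔪 → f ⟨J, hJ⟩ = g ⟨J, hJ⟩ := by
    intro J
    induction J using UniqueFactorizationMonoid.induction_on_prime with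
    | h₁ =>
      intro hJ
      exact absurd rfl (nonZeroDivisors.ne_zero hJ)
    | h₂ J hJu =>
      intro hJ _
      have h1 : (⟨J, hJ⟩ : (Ideal R)⁰) = 1 := by
        apply Subtype.ext
        rw [Ideal.isUnit_iff] at hJu
        show J = ((1 : (Ideal R)⁰) : Ideal R)
        rw [hJu, Submonoid.coe_one, Ideal.one_eq_top]
      rw [h1, map_one, map_one]
    | h₃ J P hJ0 hP ih =>
      intro hPJ hcop
      have hP0 : P ≠ ⊥ := hP.ne_zero
      have hPprime : P.IsPrime := Ideal.isPrime_of_prime hP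
      have hJmem : J ∈ (Ideal R)⁰ := mem_nonZeroDivisors_of_ne_zero hJ0
      have hmul : (⟨P * J, hPJ⟩ : (Ideal R)⁰) =
          ⟨P, mem_nonZeroDivisors_of_ne_zero hP0⟩ * ⟨J, hJmem⟩ := Subtype.ext rfl
      rw [hmul, map_mul, map_mul, ih hJmem hcop.of_mul_left_right,
        hfg P hPprime hP0 (not_le_of_isCoprime hPprime hcop.of_mul_left_left)]
  intro I hI
  exact key I.1 I.2 hI

end CYC3

section CYC4

variable {F : Type*} [Field F] [NumberField F]

/-- CYC4: the absolute norm of an ideal coprime to `(m)` is prime to `m`. -/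
theorem coprime_absNorm_of_isCoprime {m : ℕ} (I : Ideal (𝓞 F))
    (hI : IsCoprime I (Ideal.span {(m : 𝓞 F)})) : Nat.Coprime (Ideal.absNorm I) m := by
  by_contra hcop
  obtain ⟨q, hq, hqI, hqm⟩ := Nat.Prime.not_coprime_iff_dvd.1 hcop
  obtain ⟨P, hPmax, hPq, hPI⟩ := Ideal.exists_isMaximal_dvd_of_dvd_absNorm' hq I hqI
  have hqP : (q : 𝓞 F) ∈ P := by
    have h1 : (q : ℤ) ∈ P.under ℤ := by
      rw [hPq]; exact Ideal.mem_span_singleton_self _
    rw [Ideal.under_def, Ideal.mem_comap] at h1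
    simpa using h1
  have hmP : (m : 𝓞 F) ∈ P := by
    obtain ⟨k, rfl⟩ := hqm
    rw [Nat.cast_mul]
    exact Ideal.mul_mem_right _ _ hqP
  rw [Ideal.isCoprime_iff_sup_eq] at hI
  apply hPmax.ne_top
  rw [eq_top_iff, ← hI]
  exact sup_le (Ideal.le_of_dvd hPI) ((Ideal.span_singleton_le_iff_mem _).2 hmP)

/-- CYC4: the absolute norm mod `m` of an ideal coprime to `(m)`, as a unit of `ZMod m`. -/
noncomputable def absNormUnit (m : ℕ) (I : Ideal (𝓞 F))
    (hI : IsCoprime I (Ideal.span {(m : 𝓞 F)})) : (ZMod m)ˣ :=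
  ZMod.unitOfCoprime (Ideal.absNorm I) (coprime_absNorm_of_isCoprime I hI)

@[simp] lemma coe_absNormUnit (m : ℕ) (I : Ideal (𝓞 F))
    (hI : IsCoprime I (Ideal.span {(m : 𝓞 F)})) :
    ((absNormUnit m I hI : (ZMod m)ˣ) : ZMod m) = ((Ideal.absNorm I : ℕ) : ZMod m) :=
  ZMod.coe_unitOfCoprime _ _

lemma absNormUnit_mul (m : ℕ) (I J : Ideal (𝓞 F))
    (hI : IsCoprime I (Ideal.span {(m : 𝓞 F)})) (hJ : IsCoprime J (Ideal.span {(m : 𝓞 F)})) :
    absNormUnit m (I * J) (hI.mul_left hJ) = absNormUnit m I hI * absNormUnit m J hJ := by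
  apply Units.ext
  rw [Units.val_mul, coe_absNormUnit, coe_absNormUnit, coe_absNormUnit, map_mul, Nat.cast_mul]

lemma absNormUnit_top (m : ℕ) :
    absNormUnit m (⊤ : Ideal (𝓞 F)) (by rw [Ideal.isCoprime_iff_sup_eq]; exact top_sup_eq _) =
      1 := by
  apply Units.ext
  rw [coe_absNormUnit, Ideal.absNorm_top, Nat.cast_one, Units.val_one]

end CYC4

end Fermat.Agent.S14.CR
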