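/-
T14 package CR-tower (helper72): functoriality of the norm-class subgroups `normClasses` in towers.

* `classNorm K F : ClassGroup (𝓞 F) →* ClassGroup (𝓞 K)`, the norm map on ideal classes, with
  `classNorm_mk0 : classNorm K F (mk0 I) = mk0 (relNorm0 K F I)`.
* `exists_eq_mk0_relNorm0_of_mem_normClasses`: every element of `normClasses K L` is the class of the
  norm of ONE nonzero integral ideal of `L`.
* `classNorm_mem_normClasses` / `mk0_relNorm0_mem_normClasses`: for towers `K → F → Ω`, `K → L → Ω`,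
  the class norm maps `normClasses F Ω` into `normClasses K L`.
* `mk0_pow_finrank_mem_normClasses`: `[J] ^ [L:K] ∈ normClasses K L`.
-/
import Fermat.Agent.S14.Defs

set_option autoImplicit false

open NumberField nonZeroDivisors

namespace Fermat.Agent.S14.CR

section Basic

variable (K F : Type*) [Field K] [NumberField K] [Field F] [NumberField F] [Algebra K F]

/-- Classes of two nonzero ideals agree, then so do the classes of their relative norms. -/
theorem mk0_relNorm0_eq_of_mk0_eq {I J : (Ideal (𝓞 F))⁰}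
    (h : ClassGroup.mk0 I = ClassGroup.mk0 J) :
    ClassGroup.mk0 (relNorm0 K F I) = ClassGroup.mk0 (relNorm0 K F J) := by
  obtain ⟨x, y, hx, hy, hxy⟩ := ClassGroup.mk0_eq_mk0_iff.mp h
  refine ClassGroup.mk0_eq_mk0_iff.mpr
    ⟨Algebra.intNorm (𝓞 K) (𝓞 F) x, Algebra.intNorm (𝓞 K) (𝓞 F) y, ?_, ?_, ?_⟩
  · simpa [Algebra.intNorm_eq_zero] using hx
  · simpa [Algebra.intNorm_eq_zero] using hy
  · have := congrArg (Ideal.relNorm (𝓞 K)) hxy
    simpa [map_mul, Ideal.relNorm_singleton] using this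

/-- The norm map on ideal class groups. -/
noncomputable def classNorm : ClassGroup (𝓞 F) →* ClassGroup (𝓞 K) where
  toFun c := ClassGroup.mk0 (relNorm0 K F (Classical.choose (ClassGroup.mk0_surjective c)))
  map_one' := by
    have h1 : ClassGroup.mk0 (Classical.choose (ClassGroup.mk0_surjective (1 : ClassGroup (𝓞 F))))
        = ClassGroup.mk0 (1 : (Ideal (𝓞 F))⁰) := by
      rw [Classical.choose_spec (ClassGroup.mk0_surjective (1 : ClassGroup (𝓞 F))), map_one]
    rw [mk0_relNorm0_eq_of_mk0_eq K F h1, map_one, map_one]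
  map_mul' c d := by
    have h1 : ClassGroup.mk0 (Classical.choose (ClassGroup.mk0_surjective (c * d)))
        = ClassGroup.mk0 (Classical.choose (ClassGroup.mk0_surjective c) *
            Classical.choose (ClassGroup.mk0_surjective d)) := by
      rw [Classical.choose_spec (ClassGroup.mk0_surjective (c * d)), map_mul,
        Classical.choose_spec (ClassGroup.mk0_surjective c),
        Classical.choose_spec (ClassGroup.mk0_surjective d)]
    rw [mk0_relNorm0_eq_of_mk0_eq K F h1, map_mul, map_mul]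

@[simp]
theorem classNorm_mk0 (I : (Ideal (𝓞 F))⁰) :
    classNorm K F (ClassGroup.mk0 I) = ClassGroup.mk0 (relNorm0 K F I) := by
  refine mk0_relNorm0_eq_of_mk0_eq K F ?_
  exact Classical.choose_spec (ClassGroup.mk0_surjective (ClassGroup.mk0 I))

/-- `normClasses K F` is the range of `classNorm K F`. -/
theorem normClasses_eq_range : normClasses K F = (classNorm K F).range := by
  apply le_antisymm
  · rw [normClasses, Subgroup.closure_le]
    rintro _ ⟨I, rfl⟩
    exact ⟨ClassGroup.mk0 I, by simp⟩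
  · rintro _ ⟨c, rfl⟩
    obtain ⟨I, rfl⟩ := ClassGroup.mk0_surjective c
    rw [classNorm_mk0]
    exact Subgroup.subset_closure ⟨I, rfl⟩

/-- Every element of `normClasses K F` is the class of the norm of one nonzero integral ideal. -/
theorem exists_eq_mk0_relNorm0_of_mem_normClasses {c : ClassGroup (𝓞 K)}
    (hc : c ∈ normClasses K F) : ∃ 𝔇 : (Ideal (𝓞 F))⁰, c = ClassGroup.mk0 (relNorm0 K F 𝔇) := by
  rw [normClasses_eq_range] at hc
  obtain ⟨d, rfl⟩ := hc
  obtain ⟨𝔇, rfl⟩ := ClassGroup.mk0_surjective d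
  exact ⟨𝔇, classNorm_mk0 K F 𝔇⟩

theorem mk0_relNorm0_mem_normClasses (𝔇 : (Ideal (𝓞 F))⁰) :
    ClassGroup.mk0 (relNorm0 K F 𝔇) ∈ normClasses K F :=
  Subgroup.subset_closure ⟨𝔇, rfl⟩

/-- `[J] ^ [F:K]` is a norm class. -/
theorem mk0_pow_finrank_mem_normClasses (J : (Ideal (𝓞 K))⁰) :
    ClassGroup.mk0 J ^ Module.finrank K F ∈ normClasses K F := by
  have hJ : (J : Ideal (𝓞 K)) ≠ ⊥ := by
    simpa [Ideal.zero_eq_bot] using nonZeroDivisors.ne_zero J.2
  have hmap : Ideal.map (algebraMap (𝓞 K) (𝓞 F)) (J : Ideal (𝓞 K)) ≠ ⊥ := by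
    rw [Ne, Ideal.map_eq_bot_iff_of_injective (FaithfulSMul.algebraMap_injective (𝓞 K) (𝓞 F))]
    exact hJ
  let J' : (Ideal (𝓞 F))⁰ := ⟨Ideal.map (algebraMap (𝓞 K) (𝓞 F)) (J : Ideal (𝓞 K)),
    mem_nonZeroDivisors_of_ne_zero (by simpa [Ideal.zero_eq_bot] using hmap)⟩
  have hfr : Module.finrank (𝓞 K) (𝓞 F) = Module.finrank K F :=
    (IsFractionRing.finrank_eq (𝓞 K) K (𝓞 F) F).symm
  have key : relNorm0 K F J' = J ^ Module.finrank K F := by
    ext1
    rw [coe_relNorm0]
    simp only [J', SubmonoidClass.coe_pow]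
    rw [Ideal.relNorm_algebraMap, hfr]
  rw [← map_pow, ← key]
  exact mk0_relNorm0_mem_normClasses K F J'

end Basic

section Tower

variable (K F L Ω : Type*) [Field K] [NumberField K] [Field F] [NumberField F]
  [Field L] [NumberField L] [Field Ω] [NumberField Ω]
  [Algebra K F] [Algebra F Ω] [Algebra K L] [Algebra L Ω] [Algebra K Ω]
  [IsScalarTower K F Ω] [IsScalarTower K L Ω]

/-- Transitivity of `relNorm0` in a tower. -/
theorem relNorm0_relNorm0 (𝔇 : (Ideal (𝓞 Ω))⁰) :
    relNorm0 K F (relNorm0 F Ω 𝔇) = relNorm0 K Ω 𝔇 := by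
  ext1
  simp only [coe_relNorm0]
  exact Ideal.relNorm_relNorm (𝓞 K) (𝓞 F) (𝔇 : Ideal (𝓞 Ω))

/-- Transitivity of `classNorm` in a tower. -/
theorem classNorm_classNorm (c : ClassGroup (𝓞 Ω)) :
    classNorm K F (classNorm F Ω c) = classNorm K Ω c := by
  obtain ⟨𝔇, rfl⟩ := ClassGroup.mk0_surjective c
  rw [classNorm_mk0, classNorm_mk0, classNorm_mk0, relNorm0_relNorm0]

/-- In towers `K → F → Ω` and `K → L → Ω`, the class norm `Cl(F) → Cl(K)` maps `N_{Ω/F} Cl(Ω)`
into `N_{L/K} Cl(L)`. -/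
theorem classNorm_mem_normClasses {c : ClassGroup (𝓞 F)} (hc : c ∈ normClasses F Ω) :
    classNorm K F c ∈ normClasses K L := by
  rw [normClasses_eq_range] at hc
  obtain ⟨d, rfl⟩ := hc
  rw [classNorm_classNorm K F Ω d, ← classNorm_classNorm K L Ω d, normClasses_eq_range]
  exact ⟨_, rfl⟩

/-- Ideal version of `classNorm_mem_normClasses`. -/
theorem mk0_relNorm0_mem_normClasses_of_tower (I : (Ideal (𝓞 F))⁰)
    (hI : ClassGroup.mk0 I ∈ normClasses F Ω) :
    ClassGroup.mk0 (relNorm0 K F I) ∈ normClasses K L := by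
  rw [← classNorm_mk0]
  exact classNorm_mem_normClasses K F L Ω hI

/-- `N_{Ω/K} Cl(Ω) ⊆ N_{L/K} Cl(L)` for a tower `K → L → Ω`. -/
theorem normClasses_le_of_tower : normClasses K Ω ≤ normClasses K L := by
  intro c hc
  rw [normClasses_eq_range] at hc
  obtain ⟨d, rfl⟩ := hc
  rw [← classNorm_classNorm K L Ω d, normClasses_eq_range]
  exact ⟨_, rfl⟩

end Tower

end Fermat.Agent.S14.CR
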