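/-
T14 / CR + SI: every ideal class of a Dedekind domain contains an integral ideal coprime to a
given nonzero ideal.
(R1) `I ≠ ⊥`, `𝔪 ≠ ⊥` ⟹ `∃ a ≠ 0, J, (a) = I * J ∧ IsCoprime J 𝔪`.
(R2) every class is `mk0 J` with `J` coprime to `𝔪`.
-/
import Mathlib

set_option autoImplicit false

open nonZeroDivisors

namespace Fermat.Agent.S14.CR

variable {R : Type*} [CommRing R] [IsDedekindDomain R]

/-- (R1) -/
theorem exists_span_singleton_eq_mul_coprime (I 𝔪 : Ideal R) (hI : I ≠ ⊥) (h𝔪 : 𝔪 ≠ ⊥) :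
    ∃ (a : R) (J : Ideal R), a ≠ 0 ∧ Ideal.span {a} = I * J ∧ IsCoprime J 𝔪 := by
  have hI𝔪 : I * 𝔪 ≠ 0 := by
    rw [Ideal.zero_eq_bot]
    exact mul_ne_zero hI h𝔪
  obtain ⟨a, ha⟩ := IsDedekindDomain.exists_sup_span_eq (Ideal.mul_le_left (I := I) (J := 𝔪)) hI𝔪
  have haI : Ideal.span {a} ≤ I := by rw [← ha]; exact le_sup_right
  obtain ⟨J, hJ⟩ := Ideal.dvd_iff_le.mpr haI
  have hcop : 𝔪 ⊔ J = ⊤ := by
    have h1 : I * (𝔪 ⊔ J) = I * ⊤ := by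
      rw [Ideal.mul_sup, ← hJ, ha, Ideal.mul_top]
    exact mul_left_cancel₀ hI h1
  by_cases ha0 : a = 0
  · -- then `J = ⊥` and `𝔪 = ⊤`; choose any nonzero element of `I`
    subst ha0
    have hJbot : J = ⊥ := by
      have : I * J = ⊥ := by rw [← hJ]; simp
      rcases mul_eq_zero.mp this with h | h
      · exact absurd h hI
      · exact h
    have h𝔪top : 𝔪 = ⊤ := by simpa [hJbot] using hcop
    obtain ⟨b, hbI, hb0⟩ := Submodule.exists_mem_ne_zero_of_ne_bot hI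
    obtain ⟨J', hJ'⟩ := Ideal.dvd_iff_le.mpr ((Ideal.span_singleton_le_iff_mem I).mpr hbI)
    refine ⟨b, J', hb0, hJ', ?_⟩
    rw [h𝔪top, Ideal.isCoprime_iff_sup_eq]
    simp
  · refine ⟨a, J, ha0, hJ, ?_⟩
    rw [Ideal.isCoprime_iff_sup_eq, sup_comm]
    exact hcop

/-- (R2) every ideal class contains an integral ideal coprime to `𝔪`. -/
theorem exists_mk0_eq_coprime (𝔪 : Ideal R) (h𝔪 : 𝔪 ≠ ⊥) (c : ClassGroup R) :
    ∃ J : (Ideal R)⁰, ClassGroup.mk0 J = c ∧ IsCoprime (J : Ideal R) 𝔪 := by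
  obtain ⟨I, hI⟩ := ClassGroup.mk0_surjective c⁻¹
  have hI0 : (I : Ideal R) ≠ ⊥ := nonZeroDivisors.ne_zero I.2
  obtain ⟨a, J, ha, haJ, hcop⟩ := exists_span_singleton_eq_mul_coprime (I : Ideal R) 𝔪 hI0 h𝔪
  have hJ0 : J ≠ ⊥ := by
    rintro rfl
    apply ha
    have : Ideal.span {a} = ⊥ := by rw [haJ]; simp
    simpa [Ideal.span_singleton_eq_bot] using this
  refine ⟨⟨J, mem_nonZeroDivisors_of_ne_zero hJ0⟩, ?_, hcop⟩
  have hprod : ClassGroup.mk0 (I * ⟨J, mem_nonZeroDivisors_of_ne_zero hJ0⟩) = 1 := by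
    rw [ClassGroup.mk0_eq_one_iff]
    refine ⟨⟨a, ?_⟩⟩
    simp only [Submonoid.coe_mul]
    exact haJ.symm
  rw [map_mul, hI] at hprod
  exact (inv_mul_eq_one.mp hprod).symm ▸ rfl

end Fermat.Agent.S14.CR
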