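/-
T14 package CR (helper22): the "coprime to a rational prime `m`" predicate via absolute norms,
on top of the coprime representatives (R1), (R2) of `CR/CoprimeRep.lean` (helper80).
-/
import Mathlib
import Fermat.Agent.S14.CR.CoprimeRep

set_option autoImplicit false

open nonZeroDivisors

namespace Fermat.Agent.S14.CR



section NumberField

open NumberField

variable {F : Type*} [Field F] [NumberField F]

/-- An ideal whose absolute norm is prime to `m` is coprime to `(m)`. -/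
theorem isCoprime_span_natCast_of_coprime_absNorm {I : Ideal (𝓞 F)} {m : ℕ}
    (h : (Ideal.absNorm I).Coprime m) : IsCoprime I (Ideal.span {(m : 𝓞 F)}) := by
  rw [Ideal.isCoprime_iff_sup_eq, Ideal.eq_top_iff_one]
  have hb : (Ideal.absNorm I : ℤ) * Nat.gcdA (Ideal.absNorm I) m + (m : ℤ) * Nat.gcdB (Ideal.absNorm I) m = 1 := by
    have := Nat.gcd_eq_gcd_ab (Ideal.absNorm I) m
    rw [h] at this
    exact_mod_cast this.symm
  have h1 : ((Ideal.absNorm I : ℤ) * Nat.gcdA (Ideal.absNorm I) m : 𝓞 F) ∈ I := by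
    apply Ideal.mul_mem_right
    exact_mod_cast Ideal.absNorm_mem I
  have h2 : (((m : ℤ) * Nat.gcdB (Ideal.absNorm I) m : ℤ) : 𝓞 F) ∈ Ideal.span {(m : 𝓞 F)} := by
    push_cast
    apply Ideal.mul_mem_right
    exact Ideal.mem_span_singleton_self _
  have h3 : (1 : 𝓞 F) = ((Ideal.absNorm I : ℤ) * Nat.gcdA (Ideal.absNorm I) m : 𝓞 F)
      + (((m : ℤ) * Nat.gcdB (Ideal.absNorm I) m : ℤ) : 𝓞 F) := by
    have := congrArg (fun z : ℤ => (z : 𝓞 F)) hb
    simp only [Int.cast_add, Int.cast_mul, Int.cast_natCast, Int.cast_one] at this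
    rw [← this]
    push_cast
    ring
  rw [h3]
  exact Submodule.add_mem_sup h1 h2

/-- Conversely, a nonzero ideal coprime to `(m)` has absolute norm prime to `m`. -/
theorem coprime_absNorm_of_isCoprime_span_natCast {I : Ideal (𝓞 F)} (hI : I ≠ ⊥) {m : ℕ}
    (h : IsCoprime I (Ideal.span {(m : 𝓞 F)})) : (Ideal.absNorm I).Coprime m := by
  by_contra hnc
  obtain ⟨q, hq, hqI, hqm⟩ := Nat.Prime.not_coprime_iff_dvd.mp hnc
  haveI : Finite (𝓞 F ⧸ I) := Ideal.finiteQuotientOfFreeOfNeBot I hI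
  haveI : Fintype (𝓞 F ⧸ I) := Fintype.ofFinite _
  haveI : Fact q.Prime := ⟨hq⟩
  have hcard : q ∣ Fintype.card (𝓞 F ⧸ I) := by
    rw [Fintype.card_eq_nat_card]
    rw [Ideal.absNorm_apply, Submodule.cardQuot_apply] at hqI
    exact hqI
  obtain ⟨x, hx⟩ := exists_prime_addOrderOf_dvd_card q hcard
  have hmx : m • x = 0 := by
    rw [← addOrderOf_dvd_iff_nsmul_eq_zero, hx]
    exact hqm
  obtain ⟨i, hi, j, hj, hij⟩ := Submodule.mem_sup.mp
    ((Ideal.eq_top_iff_one _).mp (Ideal.isCoprime_iff_sup_eq.mp h))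
  obtain ⟨t, rfl⟩ := Ideal.mem_span_singleton'.mp hj
  have h1 : (Ideal.Quotient.mk I (t * (m : 𝓞 F))) = 1 := by
    rw [← map_one (Ideal.Quotient.mk I), ← hij, map_add, Ideal.Quotient.eq_zero_iff_mem.mpr hi,
      zero_add]
  have hx0 : x = 0 := by
    calc x = 1 * x := (one_mul x).symm
      _ = Ideal.Quotient.mk I (t * (m : 𝓞 F)) * x := by rw [h1]
      _ = Ideal.Quotient.mk I t * ((m : 𝓞 F ⧸ I) * x) := by
          rw [map_mul, map_natCast, mul_assoc]
      _ = Ideal.Quotient.mk I t * (m • x) := by rw [nsmul_eq_mul]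
      _ = 0 := by rw [hmx, mul_zero]
  rw [hx0, addOrderOf_zero] at hx
  exact hq.one_lt.ne hx

theorem coprime_absNorm_iff {I : Ideal (𝓞 F)} (hI : I ≠ ⊥) {m : ℕ} :
    (Ideal.absNorm I).Coprime m ↔ IsCoprime I (Ideal.span {(m : 𝓞 F)}) :=
  ⟨isCoprime_span_natCast_of_coprime_absNorm, coprime_absNorm_of_isCoprime_span_natCast hI⟩

/-- Every ideal class of a number field contains an integral ideal of norm prime to `m ≠ 0`. -/
theorem exists_mk0_eq_coprime_absNorm {m : ℕ} (hm : m ≠ 0) (c : ClassGroup (𝓞 F)) :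
    ∃ J : (Ideal (𝓞 F))⁰, ClassGroup.mk0 J = c ∧ (Ideal.absNorm (J : Ideal (𝓞 F))).Coprime m := by
  have h𝔪 : Ideal.span {(m : 𝓞 F)} ≠ ⊥ := by
    rw [Ne, Ideal.span_singleton_eq_bot]
    exact_mod_cast hm
  obtain ⟨J, hJc, hJ⟩ := exists_mk0_eq_coprime (Ideal.span {(m : 𝓞 F)}) h𝔪 c
  exact ⟨J, hJc, coprime_absNorm_of_isCoprime_span_natCast (nonZeroDivisors.ne_zero J.2) hJ⟩

/-- A prime ideal of norm prime to `m` does not contain `m`. -/
theorem natCast_not_mem_of_coprime_absNorm {P : Ideal (𝓞 F)} (hP : P ≠ ⊤) {m : ℕ}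
    (h : (Ideal.absNorm P).Coprime m) : (m : 𝓞 F) ∉ P := by
  intro hm
  have := isCoprime_span_natCast_of_coprime_absNorm h
  rw [Ideal.isCoprime_iff_sup_eq] at this
  apply hP
  rw [← this]
  refine (sup_eq_left.mpr ?_).symm
  rw [Ideal.span_singleton_le_iff_mem]
  exact hm

end NumberField

end Fermat.Agent.S14.CR
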