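/-
T14 / CR (G): generic Galois facts for a cyclotomic extension `M = L(ζ_m)` on top of a Galois
extension `L/K`.  Mathlib only.
-/
import Mathlib

set_option autoImplicit false

namespace Fermat.Agent.S14.CR

open IntermediateField

/-- If `L/K` is Galois (char. zero) and `M = L(ζ_m)`, then `M/K` is Galois. -/
theorem isGalois_of_isCyclotomicExtension_tower (K L M : Type*) [Field K] [Field L] [Field M]
    [Algebra K L] [Algebra L M] [Algebra K M] [IsScalarTower K L M] [CharZero K] (m : ℕ) [NeZero m]
    [IsGalois K L] [IsCyclotomicExtension {m} L M] : IsGalois K M := by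
  obtain ⟨ζ, hζ⟩ := IsCyclotomicExtension.exists_isPrimitiveRoot L M (Set.mem_singleton m)
    (NeZero.ne m)
  have : Algebra.IsAlgebraic L M := by
    have : FiniteDimensional L M := IsCyclotomicExtension.finiteDimensional {m} L M
    infer_instance
  have : Algebra.IsAlgebraic K M := Algebra.IsAlgebraic.trans K L M
  have htop : Algebra.adjoin L ({ζ} : Set M) = ⊤ :=
    IsCyclotomicExtension.adjoin_primitive_root_eq_top hζ
  set S : Set M := Set.range (algebraMap L M) ∪ {ζ} with hS
  -- every generator has a minimal polynomial over `K` splitting in `M`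
  have hsplit : ∀ x ∈ S, IsIntegral K x ∧ ((minpoly K x).map (algebraMap K M)).Splits := by
    intro x hx
    refine ⟨Algebra.IsIntegral.isIntegral x, ?_⟩
    rcases hx with ⟨l, rfl⟩ | hx
    · have h1 : ((minpoly K l).map (algebraMap K L)).Splits := Normal.splits inferInstance l
      have h2 : minpoly K (algebraMap L M l) = minpoly K l :=
        minpoly.algebraMap_eq (algebraMap L M).injective l
      rw [h2, IsScalarTower.algebraMap_eq K L M, ← Polynomial.map_map]
      exact h1.map _
    · rw [Set.mem_singleton_iff] at hx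
      subst hx
      have hdvd : minpoly K x ∣ Polynomial.X ^ m - 1 := by
        apply minpoly.dvd
        simp [hζ.pow_eq_one]
      have hsp : ((Polynomial.X ^ m - 1 : Polynomial K).map (algebraMap K M)).Splits := by
        have : (Polynomial.X ^ m - 1 : Polynomial K).map (algebraMap K M) =
            Polynomial.X ^ m - 1 := by simp
        rw [this]
        exact Polynomial.X_pow_sub_one_splits hζ
      exact Polynomial.Splits.of_dvd hsp
        (Polynomial.map_ne_zero (Polynomial.X_pow_sub_C_ne_zero (NeZero.pos m) 1))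
        (Polynomial.map_dvd _ hdvd)
  have hmem : ∀ x : M, x ∈ IntermediateField.adjoin K S := by
    intro x
    have hx : x ∈ Algebra.adjoin L ({ζ} : Set M) := htop ▸ Algebra.mem_top
    induction hx using Algebra.adjoin_induction with
    | mem y hy =>
      exact IntermediateField.subset_adjoin K S (Or.inr hy)
    | algebraMap l =>
      exact IntermediateField.subset_adjoin K S (Or.inl ⟨l, rfl⟩)
    | add y z _ _ hy hz => exact add_mem hy hz
    | mul y z _ _ hy hz => exact mul_mem hy hz
  have : Normal K M := normal_iff.mpr fun x =>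
    ⟨Algebra.IsIntegral.isIntegral x, IntermediateField.splits_of_mem_adjoin K M hsplit (hmem x)⟩
  exact ⟨⟩

section

variable (K L M : Type*) [Field K] [Field L] [Field M] [Algebra K L] [Algebra L M] [Algebra K M]
  [IsScalarTower K L M] [Normal K L] {m : ℕ} [NeZero m] [IsCyclotomicExtension {m} L M] {ζ : M}
  (hζ : IsPrimitiveRoot ζ m)

theorem autToPow_eq_of_apply (s : M ≃ₐ[K] M) (a : ℕ) (hs : s ζ = ζ ^ a) :
    ((hζ.autToPow K s : (ZMod m)ˣ) : ZMod m) = a := by
  have h1 := hζ.autToPow_spec K s
  rw [hs] at h1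
  have hfin : IsOfFinOrder ζ :=
    isOfFinOrder_iff_pow_eq_one.mpr ⟨m, NeZero.pos m, hζ.pow_eq_one⟩
  have h2 := hfin.pow_eq_pow_iff_modEq.mp h1
  rw [← hζ.eq_orderOf] at h2
  have h3 := (ZMod.natCast_eq_natCast_iff _ _ m).mpr h2
  rwa [ZMod.natCast_zmod_val] at h3

theorem eq_one_of_restrictNormal_of_autToPow (s : M ≃ₐ[K] M) (h1 : s.restrictNormal L = 1)
    (h2 : hζ.autToPow K s = 1) : s = 1 := by
  have hL : ∀ l : L, s (algebraMap L M l) = algebraMap L M l := by
    intro l
    have := AlgEquiv.restrictNormal_commutes s L l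
    rw [h1] at this
    simpa using this.symm
  have hz : s ζ = ζ := by
    have h3 := hζ.autToPow_spec K s
    rw [h2] at h3
    have hfin : IsOfFinOrder ζ :=
      isOfFinOrder_iff_pow_eq_one.mpr ⟨m, NeZero.pos m, hζ.pow_eq_one⟩
    have h4 : ζ ^ ((1 : (ZMod m)ˣ) : ZMod m).val = ζ ^ 1 := by
      rw [hfin.pow_eq_pow_iff_modEq, ← hζ.eq_orderOf, Units.val_one, ZMod.val_one_eq_one_mod]
      exact Nat.mod_modEq 1 m
    rw [← h3, h4, pow_one]
  have htop : Algebra.adjoin L ({ζ} : Set M) = ⊤ :=
    IsCyclotomicExtension.adjoin_primitive_root_eq_top hζ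
  ext x
  have hx : x ∈ Algebra.adjoin L ({ζ} : Set M) := htop ▸ Algebra.mem_top
  rw [AlgEquiv.one_apply]
  induction hx using Algebra.adjoin_induction with
  | mem y hy =>
    rw [Set.mem_singleton_iff] at hy
    rw [hy, hz]
  | algebraMap l => exact hL l
  | add y z _ _ hy hz => rw [map_add, hy, hz]
  | mul y z _ _ hy hz => rw [map_mul, hy, hz]

end

end Fermat.Agent.S14.CR
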