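/-
T14 package CR (helper22): the generic Galois-theoretic setup of the crossing step.

`K ⊆ L ⊆ M` number fields, `L/K` and `M/K` Galois, `H ≤ Gal(M/K)`.
* `galF H := M^H` (an `IntermediateField K M`),
* `galRho H : Gal(M/F) →* Gal(L/K)` the restriction map,
* `galOmega H := M^(ker ρ)` (an `IntermediateField F M`; it is `F·L`),
* `Algebra L Ω`, scalar towers,
* `galRhoBar H : Gal(Ω/F) →* Gal(L/K)`, injective, `ρ̄ (s|_Ω) = s|_L`,
* `Ω/F` is unramified everywhere (abelian) as soon as `L/K` is.
-/
import Fermat.Agent.S14.Defs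
import Fermat.Agent.S14.Artin
import Fermat.Agent.S14.CR.FrobTower

set_option autoImplicit false

open NumberField nonZeroDivisors

namespace Fermat.Agent.S14.CR

section Setup

variable {K L M : Type*} [Field K] [NumberField K] [Field L] [NumberField L]
  [Field M] [NumberField M] [Algebra K L] [Algebra L M] [Algebra K M] [IsScalarTower K L M]
  [IsGalois K L] [IsGalois K M] (H : Subgroup (M ≃ₐ[K] M))

/-- `F := M^H`. -/
abbrev galF : IntermediateField K M := IntermediateField.fixedField H

variable (L) in
/-- The restriction `Gal(M/F) → Gal(L/K)`. -/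
noncomputable def galRho : (M ≃ₐ[galF H] M) →* (L ≃ₐ[K] L) :=
  (AlgEquiv.restrictNormalHom L).comp (AlgEquiv.restrictScalarsHom K)

theorem galRho_apply (s : M ≃ₐ[galF H] M) :
    galRho L H s = (s.restrictScalars K).restrictNormal L := rfl

theorem algebraMap_galRho_apply (s : M ≃ₐ[galF H] M) (x : L) :
    algebraMap L M (galRho L H s x) = s (algebraMap L M x) := by
  rw [galRho_apply]
  exact AlgEquiv.restrictNormal_commutes (s.restrictScalars K) L x

variable (L) in
/-- `Ω := M^(ker ρ) = F·L`. -/
noncomputable abbrev galOmega : IntermediateField (galF H) M :=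
  IntermediateField.fixedField (galRho L H).ker

theorem algebraMap_mem_galOmega (x : L) : algebraMap L M x ∈ galOmega L H := by
  rw [IntermediateField.mem_fixedField_iff]
  intro s hs
  rw [MonoidHom.mem_ker] at hs
  rw [← algebraMap_galRho_apply, hs, AlgEquiv.one_apply]

/-- `L → Ω`. -/
noncomputable instance galOmegaAlgebra : Algebra L (galOmega L H) :=
  ((algebraMap L M).codRestrict (galOmega L H).toSubfield.toSubring
    (algebraMap_mem_galOmega H)).toAlgebra

theorem coe_algebraMap_galOmega (x : L) :
    ((algebraMap L (galOmega L H) x : galOmega L H) : M) = algebraMap L M x := rfl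

instance : IsScalarTower L (galOmega L H) M :=
  IsScalarTower.of_algebraMap_eq (fun _ => rfl)

instance : IsScalarTower K L (galOmega L H) :=
  IsScalarTower.of_algebraMap_eq (fun x => by
    apply Subtype.ext
    rw [coe_algebraMap_galOmega, ← IsScalarTower.algebraMap_apply K L M]
    rfl)

/-- `ρ̄ : Gal(Ω/F) → Gal(L/K)`, restriction to `L`. -/
noncomputable def galRhoBar : ((galOmega L H) ≃ₐ[galF H] (galOmega L H)) →* (L ≃ₐ[K] L) :=
  (QuotientGroup.kerLift (galRho L H)).comp
    (IsGalois.normalAutEquivQuotient (galRho L H).ker).symm.toMonoidHom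

theorem galRhoBar_injective : Function.Injective (galRhoBar (L := L) H) := by
  intro x y hxy
  have := QuotientGroup.kerLift_injective (galRho L H) hxy
  exact (IsGalois.normalAutEquivQuotient (galRho L H).ker).symm.injective this

theorem galRhoBar_restrictNormalHom (s : M ≃ₐ[galF H] M) :
    galRhoBar H (AlgEquiv.restrictNormalHom (galOmega L H) s) = galRho L H s := by
  have h1 : (IsGalois.normalAutEquivQuotient (galRho L H).ker).symm
      (AlgEquiv.restrictNormalHom (galOmega L H) s) = QuotientGroup.mk s := by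
    rw [MulEquiv.symm_apply_eq]
    rfl
  show QuotientGroup.kerLift (galRho L H)
    ((IsGalois.normalAutEquivQuotient (galRho L H).ker).symm
      (AlgEquiv.restrictNormalHom (galOmega L H) s)) = _
  rw [h1]
  rfl

theorem galRhoBar_restrictNormal (s : M ≃ₐ[galF H] M) :
    galRhoBar H (s.restrictNormal (galOmega L H)) = galRho L H s :=
  galRhoBar_restrictNormalHom H s

theorem algebraMap_galRhoBar_apply (g : (galOmega L H) ≃ₐ[galF H] (galOmega L H)) (x : L) :
    algebraMap L (galOmega L H) (galRhoBar H g x) = g (algebraMap L (galOmega L H) x) := by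
  obtain ⟨s, rfl⟩ := AlgEquiv.restrictNormalHom_surjective (F := galF H) (K₁ := galOmega L H) M g
  rw [galRhoBar_restrictNormalHom]
  apply Subtype.ext
  rw [coe_algebraMap_galOmega, algebraMap_galRho_apply]
  exact (AlgEquiv.restrictNormal_commutes s (galOmega L H) (algebraMap L (galOmega L H) x)).symm

/-- Elements of `Gal(M/F)` lie in `H`. -/
theorem restrictScalars_mem_of_galF (s : M ≃ₐ[galF H] M) : s.restrictScalars K ∈ H := by
  have h : s.restrictScalars K ∈ (galF H).fixingSubgroup := by
    rw [IntermediateField.mem_fixingSubgroup_iff]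
    intro x hx
    exact s.commutes ⟨x, hx⟩
  rwa [IntermediateField.fixingSubgroup_fixedField] at h

/-- Elements of `H` as elements of `Gal(M/F)`. -/
noncomputable def galLift (s : M ≃ₐ[K] M) (hs : s ∈ H) : M ≃ₐ[galF H] M :=
  IntermediateField.fixingSubgroupEquiv (galF H)
    ⟨s, by rw [IntermediateField.fixingSubgroup_fixedField]; exact hs⟩

@[simp] theorem galLift_apply (s : M ≃ₐ[K] M) (hs : s ∈ H) (x : M) : galLift H s hs x = s x := rfl

@[simp] theorem galLift_restrictScalars (s : M ≃ₐ[K] M) (hs : s ∈ H) :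
    (galLift H s hs).restrictScalars K = s := by
  ext x
  rfl

theorem galRho_galLift (s : M ≃ₐ[K] M) (hs : s ∈ H) :
    galRho L H (galLift H s hs) = s.restrictNormal L := by
  rw [galRho_apply, galLift_restrictScalars]

/-- Inertia goes down along `ρ̄`. -/
theorem galRhoBar_mem_inertia (g : (galOmega L H) ≃ₐ[galF H] (galOmega L H))
    (P : Ideal (𝓞 (galOmega L H))) (hg : ∀ x : 𝓞 (galOmega L H), g • x - x ∈ P) :
    ∀ x : 𝓞 L, (galRhoBar H g) • x - x ∈ P.under (𝓞 L) := by
  intro x
  rw [Ideal.under_def, Ideal.mem_comap, map_sub]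
  have h := hg (algebraMap (𝓞 L) (𝓞 (galOmega L H)) x)
  convert h using 2
  apply RingOfIntegers.coe_injective
  exact algebraMap_galRhoBar_apply H g (x : L)

/-- `Ω/F` is unramified everywhere if `L/K` is. -/
theorem unramifiedEverywhere_galOmega (hunr : UnramifiedEverywhere K L) :
    UnramifiedEverywhere (galF H) (galOmega L H) := by
  intro P hP hP0 τ hτ
  have : P.IsPrime := hP
  apply galRhoBar_injective H
  rw [map_one]
  refine hunr (P.under (𝓞 L)) inferInstance ?_ _ (galRhoBar_mem_inertia H τ P hτ)
  intro h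
  exact hP0 (Ideal.eq_bot_of_comap_eq_bot h)

/-- `Gal(Ω/F)` is commutative if `Gal(L/K)` is. -/
theorem isMulCommutative_galOmega [IsMulCommutative (L ≃ₐ[K] L)] :
    IsMulCommutative ((galOmega L H) ≃ₐ[galF H] (galOmega L H)) :=
  ⟨⟨fun a b => galRhoBar_injective H (by
    rw [map_mul, map_mul]
    exact IsMulCommutative.is_comm.comm _ _)⟩⟩

/-- `Ω/F` is abelian if `L/K` is. -/
theorem isAbelianGalois_galOmega [IsMulCommutative (L ≃ₐ[K] L)] :
    IsAbelianGalois (galF H) (galOmega L H) :=
  { toIsGalois := inferInstance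
    toIsMulCommutative := isMulCommutative_galOmega H }

/-- `[Ω:F] = p` as soon as `[L:K] = p` is prime and `ρ̄` is nontrivial. -/
theorem finrank_galOmega {p : ℕ} (hp : p.Prime) (hdeg : Module.finrank K L = p)
    (g : (galOmega L H) ≃ₐ[galF H] (galOmega L H)) (hg : galRhoBar H g ≠ 1) :
    Module.finrank (galF H) (galOmega L H) = p := by
  have hcard : Nat.card (L ≃ₐ[K] L) = p := by rw [IsGalois.card_aut_eq_finrank, hdeg]
  have : Fact (Nat.card (L ≃ₐ[K] L)).Prime := ⟨by rw [hcard]; exact hp⟩
  have hrange : (galRhoBar (L := L) H).range = ⊤ := by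
    rcases Subgroup.eq_bot_or_eq_top_of_prime_card ((galRhoBar (L := L) H).range) with hb | ht
    · exfalso
      apply hg
      have hmem : galRhoBar H g ∈ (galRhoBar (L := L) H).range := ⟨g, rfl⟩
      rwa [hb, Subgroup.mem_bot] at hmem
    · exact ht
  have hsurj : Function.Surjective (galRhoBar (L := L) H) := MonoidHom.range_eq_top.mp hrange
  rw [← IsGalois.card_aut_eq_finrank, ← hcard]
  exact Nat.card_congr (Equiv.ofBijective _ ⟨galRhoBar_injective H, hsurj⟩)

end Setup

end Fermat.Agent.S14.CR
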