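/-
T14 / CR (Z): the group `(ℤ/m)ˣ` modulo `p`-th powers for primes `m ≡ 1 mod p`, and the element `τ`
of the crossing step.  Mathlib only.
-/
import Mathlib

set_option autoImplicit false

namespace Fermat.Agent.S14.CR

/-- the subgroup of `p`-th powers in `(ℤ/m)ˣ` -/
abbrev Pm (m p : ℕ) : Subgroup (ZMod m)ˣ := (powMonoidHom p : (ZMod m)ˣ →* (ZMod m)ˣ).range

/-- `(ℤ/m)ˣ` modulo `p`-th powers -/
abbrev Cm (m p : ℕ) : Type := (ZMod m)ˣ ⧸ Pm m p

theorem Cm_pow (m p : ℕ) (c : Cm m p) : c ^ p = 1 := by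
  obtain ⟨u, rfl⟩ := QuotientGroup.mk_surjective c
  rw [← QuotientGroup.mk_pow, QuotientGroup.eq_one_iff]
  exact ⟨u, rfl⟩

theorem p_mul_card_Pm {m p : ℕ} (hm : m.Prime) (hp : p.Prime) (hmp : m % p = 1) :
    p * Nat.card (Pm m p) = m - 1 := by
  have : Fact m.Prime := ⟨hm⟩
  have hcard : Nat.card (ZMod m)ˣ = m - 1 := by
    rw [Nat.card_eq_fintype_card, ZMod.card_units]
  have hdvd : p ∣ m - 1 := by
    have h1 : 1 ≤ m := hm.one_le
    have : (m - 1) % p = 0 := by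
      have h2 : m = p * (m / p) + 1 := by
        have := Nat.div_add_mod m p
        omega
      have h3 : m - 1 = p * (m / p) := by omega
      rw [h3]
      exact Nat.mul_mod_right _ _
    exact Nat.dvd_of_mod_eq_zero this
  rw [Pm, IsCyclic.card_powMonoidHom_range, hcard, Nat.gcd_eq_right hdvd]
  exact Nat.mul_div_cancel' hdvd

theorem exists_tau {m p : ℕ} (hm : m.Prime) (hp : p.Prime) (hmp : m % p = 1) (a b i k : ℕ)
    (ua ub : (ZMod m)ˣ) (hua : (ua : ZMod m) = a) (hub : (ub : ZMod m) = b) (hi : ¬ p ∣ i)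
    (hanp : ¬ ∃ y : ZMod m, y ^ p = (a : ZMod m))
    (hab : ∃ y : ZMod m, (a : ZMod m) ^ k = (b : ZMod m) ^ i * y ^ p) :
    ∃ τ : Cm m p, τ ≠ 1 ∧ τ ^ i = QuotientGroup.mk ua ∧ τ ^ k = QuotientGroup.mk ub := by
  -- `[ua] ≠ 1`
  have hA : (QuotientGroup.mk ua : Cm m p) ≠ 1 := by
    intro h
    rw [QuotientGroup.eq_one_iff] at h
    obtain ⟨y, hy⟩ := h
    apply hanp
    refine ⟨(y : ZMod m), ?_⟩
    rw [← hua, ← hy]
    simp
  -- an inverse `i'` of `i` modulo `p`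
  have hcop : Nat.Coprime i p := ((Nat.Prime.coprime_iff_not_dvd hp).mpr hi).symm
  obtain ⟨i', -, hi'⟩ := Nat.exists_mul_mod_eq_one_of_coprime hcop hp.one_lt
  -- `c ^ (i * i') = c` in `Cm`
  have hpow : ∀ c : Cm m p, c ^ (i * i') = c := by
    intro c
    have h1 : i * i' = p * (i * i' / p) + 1 := by
      have := Nat.div_add_mod (i * i') p
      omega
    rw [h1, pow_succ, pow_mul, Cm_pow, one_pow, one_mul]
  -- `[ua]^k = [ub]^i`
  obtain ⟨y, hy⟩ := hab
  have hyu : IsUnit y := by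
    have h1 : IsUnit ((a : ZMod m) ^ k) := by
      rw [← hua]; exact (ua ^ k).isUnit
    rw [hy] at h1
    have h2 : IsUnit (y ^ p) := isUnit_of_mul_isUnit_right h1
    exact (isUnit_pow_iff hp.ne_zero).mp h2
  obtain ⟨uy, rfl⟩ := hyu
  have hrel : ua ^ k = ub ^ i * uy ^ p := by
    apply Units.ext
    push_cast
    rw [hua, hub]
    exact hy
  have hrel' : (QuotientGroup.mk ua : Cm m p) ^ k = (QuotientGroup.mk ub : Cm m p) ^ i := by
    have h2 : (QuotientGroup.mk (ua ^ k) : Cm m p) = QuotientGroup.mk (ub ^ i) := by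
      rw [QuotientGroup.eq]
      refine ⟨uy⁻¹, ?_⟩
      rw [hrel]
      simp only [powMonoidHom_apply, inv_pow, mul_inv_rev, inv_mul_cancel_right]
    exact h2
  refine ⟨(QuotientGroup.mk ua : Cm m p) ^ i', ?_, ?_, ?_⟩
  · intro h
    apply hA
    have := hpow (QuotientGroup.mk ua)
    rw [mul_comm, pow_mul, h, one_pow] at this
    exact this.symm
  · rw [← pow_mul, mul_comm]
    exact hpow _
  · rw [← pow_mul, mul_comm, pow_mul, hrel', ← pow_mul]
    exact hpow _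

end Fermat.Agent.S14.CR
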