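/-
T14 package CR (helper22): the group `(ℤ/m)ˣ / p-th powers` as a `def` with its own `CommGroup`
instance (`CmG m p`; the `abbrev` version `Cm m p` of `CR/ZModPow.lean` makes instance search on
`G →* Cm m p` very slow), the projection `CmG.mk`, and `exists_tau` in these terms.
-/
import Fermat.Agent.S14.CR.ZModPow

set_option autoImplicit false

namespace Fermat.Agent.S14.CR

/-- `(ℤ/m)ˣ / p-th powers`. -/
def CmG (m p : ℕ) : Type := (ZMod m)ˣ ⧸ Pm m p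

noncomputable instance (m p : ℕ) : CommGroup (CmG m p) :=
  inferInstanceAs (CommGroup ((ZMod m)ˣ ⧸ Pm m p))

/-- The projection `(ℤ/m)ˣ → (ℤ/m)ˣ / p-th powers`. -/
noncomputable def CmG.mk (m p : ℕ) : (ZMod m)ˣ →* CmG m p := QuotientGroup.mk' (Pm m p)

theorem CmG.mk_surjective (m p : ℕ) : Function.Surjective (CmG.mk m p) :=
  QuotientGroup.mk'_surjective (Pm m p)

theorem CmG.mk_eq_one_iff {m p : ℕ} (u : (ZMod m)ˣ) :
    CmG.mk m p u = 1 ↔ ∃ v : (ZMod m)ˣ, v ^ p = u := by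
  show (QuotientGroup.mk u : (ZMod m)ˣ ⧸ Pm m p) = 1 ↔ _
  rw [QuotientGroup.eq_one_iff]
  rfl

theorem CmG.mk_eq_one_iff_mem {m p : ℕ} (u : (ZMod m)ˣ) : CmG.mk m p u = 1 ↔ u ∈ Pm m p := by
  show (QuotientGroup.mk u : (ZMod m)ˣ ⧸ Pm m p) = 1 ↔ _
  rw [QuotientGroup.eq_one_iff]

theorem CmG.mk_pow_self {m p : ℕ} (u : (ZMod m)ˣ) : CmG.mk m p (u ^ p) = 1 :=
  (CmG.mk_eq_one_iff _).mpr ⟨u, rfl⟩

theorem CmG.pow_eq_one {m p : ℕ} (c : CmG m p) : c ^ p = 1 := by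
  obtain ⟨u, rfl⟩ := CmG.mk_surjective m p c
  rw [← map_pow, CmG.mk_pow_self]

/-- `exists_tau` of `CR/ZModPow.lean` in terms of `CmG`. -/
theorem exists_tauG {m p : ℕ} (hm : m.Prime) (hp : p.Prime) (hmp : m % p = 1) (a b i k : ℕ)
    (ua ub : (ZMod m)ˣ) (hua : (ua : ZMod m) = a) (hub : (ub : ZMod m) = b) (hi : ¬ p ∣ i)
    (hanp : ¬ ∃ y : ZMod m, y ^ p = (a : ZMod m))
    (hab : ∃ y : ZMod m, (a : ZMod m) ^ k = (b : ZMod m) ^ i * y ^ p) :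
    ∃ τ : CmG m p, τ ≠ 1 ∧ τ ^ i = CmG.mk m p ua ∧ τ ^ k = CmG.mk m p ub :=
  exists_tau hm hp hmp a b i k ua ub hua hub hi hanp hab

end Fermat.Agent.S14.CR
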