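/-
T14 package CR (helper22): the subgroup `H ≤ Gal(M/K)` of the crossing step.

`K ⊆ L ⊆ M = L(ζ_m)`, `χ : Gal(M/K) → (ℤ/m)ˣ` the cyclotomic character, `C := (ℤ/m)ˣ / p-th powers`,
`θ : Gal(L/K) →* C`.  `galLam s := [χ s] · θ(s|_L)⁻¹` and `galH := ker galLam`.
-/
import Fermat.Agent.S14.CR.GalSetup
import Fermat.Agent.S14.CR.ZModPowDefs

set_option autoImplicit false

open NumberField nonZeroDivisors

namespace Fermat.Agent.S14.CR

section

variable {K L M : Type*} [Field K] [NumberField K] [Field L] [NumberField L]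
  [Field M] [NumberField M] [Algebra K L] [Algebra L M] [Algebra K M] [IsScalarTower K L M]
  [IsGalois K L] [IsGalois K M]
  {m : ℕ} [NeZero m] {ζ : M} (hζ : IsPrimitiveRoot ζ m) {p : ℕ} (θ : (L ≃ₐ[K] L) →* CmG m p)

/-- The cyclotomic character of `M/K`. -/
noncomputable def galChi : (M ≃ₐ[K] M) →* (ZMod m)ˣ := hζ.autToPow K

theorem galChi_spec (s : M ≃ₐ[K] M) : ζ ^ ((galChi (K := K) hζ s : (ZMod m)ˣ) : ZMod m).val = s ζ :=
  hζ.autToPow_spec K s

/-- `s ↦ [χ s] · θ(s|_L)⁻¹`. -/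
noncomputable def galLam : (M ≃ₐ[K] M) →* CmG m p :=
  ((CmG.mk m p).comp (galChi hζ)) * (θ.comp (AlgEquiv.restrictNormalHom L))⁻¹

theorem galLam_apply (s : M ≃ₐ[K] M) :
    galLam hζ θ s = CmG.mk m p (galChi (K := K) hζ s) * (θ (s.restrictNormal L))⁻¹ :=
  rfl

/-- `H := ker (s ↦ [χ s] · θ(s|_L)⁻¹)`. -/
noncomputable def galH : Subgroup (M ≃ₐ[K] M) := (galLam hζ θ).ker

theorem mem_galH_iff (s : M ≃ₐ[K] M) :
    s ∈ galH hζ θ ↔ CmG.mk m p (galChi (K := K) hζ s) = θ (s.restrictNormal L) := by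
  rw [galH, MonoidHom.mem_ker, galLam_apply, mul_inv_eq_one]

end

end Fermat.Agent.S14.CR
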