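/-
T14 package CR: `Gal(M/K)` is abelian when `Gal(L/K)` is (`M = L(ζ_m)`), hence so is `Gal(M/F)`.
-/
import Fermat.Agent.S14.CR.GalChar
import Fermat.Agent.S14.CR.CycGalois

set_option autoImplicit false

open NumberField nonZeroDivisors

namespace Fermat.Agent.S14.CR

section

variable {K L M : Type*} [Field K] [NumberField K] [Field L] [NumberField L]
  [Field M] [NumberField M] [Algebra K L] [Algebra L M] [Algebra K M] [IsScalarTower K L M]
  [IsGalois K L] [IsGalois K M]

/-- `Gal(M/K) ↪ Gal(L/K) × (ℤ/m)ˣ` is abelian.  (`m` has to be an explicit argument: in the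
skeleton it was a section variable that does not occur in the statement, so it was dropped and the
statement was false.) -/
theorem gal_isMulCommutative [IsMulCommutative (L ≃ₐ[K] L)] (m : ℕ) [NeZero m]
    [IsCyclotomicExtension {m} L M] : IsMulCommutative (M ≃ₐ[K] M) := by
  obtain ⟨ζ, hζ⟩ := IsCyclotomicExtension.exists_isPrimitiveRoot L M (Set.mem_singleton m)
    (NeZero.ne m)
  refine ⟨⟨fun s t => ?_⟩⟩
  have hcomm : ∀ a b : L ≃ₐ[K] L, a * b = b * a := fun a b =>
    IsMulCommutative.is_comm.comm a b
  have h1 : (s * t * (t * s)⁻¹).restrictNormal L = 1 := by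
    show AlgEquiv.restrictNormalHom L (s * t * (t * s)⁻¹) = 1
    rw [map_mul, map_mul, map_inv, map_mul, hcomm (AlgEquiv.restrictNormalHom L s)]
    exact mul_inv_cancel _
  have h2 : hζ.autToPow K (s * t * (t * s)⁻¹) = 1 := by
    rw [map_mul, map_mul, map_inv, map_mul, mul_comm (hζ.autToPow K s)]
    exact mul_inv_cancel _
  have h3 := eq_one_of_restrictNormal_of_autToPow K L M hζ _ h1 h2
  exact mul_inv_eq_one.mp h3

/-- Hence `M/F` is abelian for every intermediate field `F`. -/
theorem isAbelianGalois_top [IsMulCommutative (L ≃ₐ[K] L)] (m : ℕ) [NeZero m]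
    [IsCyclotomicExtension {m} L M] (F : IntermediateField K M) :
    IsAbelianGalois F M := by
  have hK : IsMulCommutative (M ≃ₐ[K] M) := gal_isMulCommutative (L := L) m
  refine { toIsGalois := inferInstance, toIsMulCommutative := ⟨⟨fun s t => ?_⟩⟩ }
  apply AlgEquiv.restrictScalars_injective K
  show AlgEquiv.restrictScalarsHom K (s * t) = AlgEquiv.restrictScalarsHom K (t * s)
  rw [map_mul, map_mul]
  exact IsMulCommutative.is_comm.comm _ _

end

end Fermat.Agent.S14.CR
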