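/-
T14 package CR, file CycRecM (helper19): the hypothesis `hκ` of `Kernel.artinMap_span_eq_one_of_isPow`
from the big field `M ∋ ζ_m`.

Tower `F → Ω → M` of number fields, `M/F` abelian (ramified at `m` is fine), `Ω/F` abelian and
unramified everywhere, `ζ ∈ M` with `ζ ^ m = 1`.  If every `s ∈ Gal(M/F)` acting on `ζ` as a `p`-th
power (`s ζ = ζ ^ (k ^ p)`) restricts trivially to `Ω`, then every ideal `I` of `F` coprime to `m`
whose absolute norm is a `p`-th power mod `m` has trivial Artin symbol in `Ω/F`.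
-/
import Fermat.Agent.S14.CR.FrobTower
import Fermat.Agent.S14.CR.CycFrob

set_option autoImplicit false

open NumberField nonZeroDivisors

namespace Fermat.Agent.S14.CR

variable {F Ω M : Type*} [Field F] [NumberField F] [Field Ω] [NumberField Ω]
  [Field M] [NumberField M] [Algebra F Ω] [Algebra Ω M] [Algebra F M] [IsScalarTower F Ω M]

omit [NumberField M] in
/-- If `ζ ^ m = 1` and `(n : ZMod m) = y ^ p` then `ζ ^ n = ζ ^ (k ^ p)` for some `k`. -/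
lemma exists_pow_eq_of_natCast_eq_pow {ζ : M} {m p : ℕ} [NeZero m] (hζ : ζ ^ m = 1) (n : ℕ)
    (y : ZMod m) (hy : (n : ZMod m) = y ^ p) : ∃ k : ℕ, ζ ^ n = ζ ^ (k ^ p) := by
  refine ⟨y.val, ?_⟩
  apply pow_eq_pow_of_modEq _ hζ
  rw [← ZMod.natCast_eq_natCast_iff, hy]
  simp

omit [NumberField M] in
/-- Exponents of a primitive `m`-th root of unity are determined mod `m`. -/
lemma modEq_of_pow_eq {ζ : M} {m a b : ℕ} [NeZero m] (hζ : IsPrimitiveRoot ζ m)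
    (h : ζ ^ a = ζ ^ b) : a ≡ b [MOD m] := by
  have h0 : ζ ≠ 0 := hζ.ne_zero (NeZero.ne m)
  have h1 : ζ ^ ((a : ℤ) - (b : ℤ)) = 1 := by
    rw [zpow_sub₀ h0, zpow_natCast, zpow_natCast, h, div_self (pow_ne_zero _ h0)]
  have h2 := (hζ.zpow_eq_one_iff_dvd _).1 h1
  exact (Int.natCast_modEq_iff.1 ((Int.modEq_iff_dvd).2 h2)).symm

/-- The Artin symbol in `M/F` of an ideal coprime to `m` whose norm is a `p`-th power mod `m` acts on
the `m`-th roots of unity as a `p`-th power. -/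
theorem artinMap_apply_zeta_of_absNorm_isPow [IsAbelianGalois F M] {m p : ℕ} [NeZero m] {ζ : M}
    (hζ : ζ ^ m = 1) (I : (Ideal (𝓞 F))⁰)
    (hI : IsCoprime (I : Ideal (𝓞 F)) (Ideal.span {(m : 𝓞 F)}))
    (hy : ∃ y : ZMod m, ((Ideal.absNorm (I : Ideal (𝓞 F)) : ℕ) : ZMod m) = y ^ p) :
    ∃ k : ℕ, artinMap F M I ζ = ζ ^ (k ^ p) := by
  obtain ⟨y, hy⟩ := hy
  obtain ⟨k, hk⟩ := exists_pow_eq_of_natCast_eq_pow hζ _ y hy
  refine ⟨k, ?_⟩
  rw [← hk]
  exact CRCyc.artinMap_apply_zeta_of_sup_eq_top I hζ ((Ideal.isCoprime_iff_sup_eq).1 hI)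

/-- **`hκ` from the big field.**  If every `s ∈ Gal(M/F)` with `s ζ = ζ ^ (k ^ p)` restricts
trivially to `Ω`, then the ideals coprime to `m` with norm a `p`-th power mod `m` have trivial Artin
symbol in the unramified extension `Ω/F`. -/
theorem artinMap_eq_one_of_absNorm_isPow [IsAbelianGalois F M] [IsAbelianGalois F Ω]
    (hΩ : UnramifiedEverywhere F Ω) {m p : ℕ} [NeZero m] {ζ : M} (hζ : ζ ^ m = 1)
    (hker : ∀ s : M ≃ₐ[F] M, (∃ k : ℕ, s ζ = ζ ^ (k ^ p)) → s.restrictNormal Ω = 1)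
    (I : (Ideal (𝓞 F))⁰) (hI : IsCoprime (I : Ideal (𝓞 F)) (Ideal.span {(m : 𝓞 F)}))
    (hy : ∃ y : ZMod m, ((Ideal.absNorm (I : Ideal (𝓞 F)) : ℕ) : ZMod m) = y ^ p) :
    artinMap F Ω I = 1 := by
  rw [← restrictNormalHom_artinMap (M := M) hΩ I]
  exact hker _ (artinMap_apply_zeta_of_absNorm_isPow hζ I hI hy)

/-- Variant: the same with the kernel condition stated through a character
`χ : Gal(M/F) →* (ZMod m)ˣ` describing the action on `ζ` (e.g. `IsPrimitiveRoot.autToPow` or the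
modular cyclotomic character): if `s ζ = ζ ^ (χ s).val` for all `s`, `ζ` is a primitive `m`-th root
of unity, and every `s` with `χ s` a `p`-th power restricts trivially to `Ω`. -/
theorem artinMap_eq_one_of_absNorm_isPow' [IsAbelianGalois F M] [IsAbelianGalois F Ω]
    (hΩ : UnramifiedEverywhere F Ω) {m p : ℕ} [NeZero m] {ζ : M} (hζ : IsPrimitiveRoot ζ m)
    (χ : (M ≃ₐ[F] M) →* (ZMod m)ˣ) (hχ : ∀ s : M ≃ₐ[F] M, s ζ = ζ ^ ((χ s : (ZMod m)ˣ) : ZMod m).val)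
    (hker : ∀ s : M ≃ₐ[F] M, (∃ u : (ZMod m)ˣ, χ s = u ^ p) → s.restrictNormal Ω = 1)
    (I : (Ideal (𝓞 F))⁰) (hI : IsCoprime (I : Ideal (𝓞 F)) (Ideal.span {(m : 𝓞 F)}))
    (hy : ∃ y : ZMod m, ((Ideal.absNorm (I : Ideal (𝓞 F)) : ℕ) : ZMod m) = y ^ p) :
    artinMap F Ω I = 1 := by
  refine artinMap_eq_one_of_absNorm_isPow hΩ hζ.pow_eq_one (fun s hs => hker s ?_) I hI hy
  obtain ⟨k, hk⟩ := hs
  -- `χ s = k ^ p` in `ZMod m`, and `k` is a unit since `χ s` is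
  have h1 : ζ ^ ((χ s : (ZMod m)ˣ) : ZMod m).val = ζ ^ (k ^ p) := by rw [← hχ s, hk]
  have h2 : ((χ s : (ZMod m)ˣ) : ZMod m).val ≡ k ^ p [MOD m] := modEq_of_pow_eq hζ h1
  have h3 : ((χ s : (ZMod m)ˣ) : ZMod m) = (k : ZMod m) ^ p := by
    have := (ZMod.natCast_eq_natCast_iff _ _ _).2 h2
    rwa [ZMod.natCast_val, ZMod.cast_id', id, Nat.cast_pow] at this
  rcases Nat.eq_zero_or_pos p with hp0 | hp0
  · subst hp0
    exact ⟨1, Units.ext (by rw [h3]; simp)⟩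
  · have hku : IsUnit (k : ZMod m) := by
      have : IsUnit ((k : ZMod m) ^ p) := h3 ▸ (χ s).isUnit
      exact (isUnit_pow_iff hp0.ne').1 this
    obtain ⟨u, hu⟩ := hku
    exact ⟨u, Units.ext (by rw [h3, Units.val_pow_eq_pow_val, hu])⟩

end Fermat.Agent.S14.CR
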