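/-
T14 package CR, hedge for `CR/GalKappa.lean` (helper19): same statement as the skeleton `galKappa`,
under the primed name `galKappa'`.  It is `CycRecM.artinMap_eq_one_of_absNorm_isPow'` instantiated
at `F = M^H`, `Ω = M^(ker ρ)`.
-/
import Fermat.Agent.S14.CR.GalChar
import Fermat.Agent.S14.CR.GalAbelian
import Fermat.Agent.S14.CR.CycFrob
import Fermat.Agent.S14.CR.CycRecM

set_option autoImplicit false

open NumberField nonZeroDivisors

namespace Fermat.Agent.S14.CR

section

variable {K L M : Type*} [Field K] [NumberField K] [Field L] [NumberField L]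
  [Field M] [NumberField M] [Algebra K L] [Algebra L M] [Algebra K M] [IsScalarTower K L M]
  [IsGalois K L] [IsGalois K M]
  {m : ℕ} [NeZero m] [IsCyclotomicExtension {m} L M] {ζ : M} (hζ : IsPrimitiveRoot ζ m)
  {p : ℕ} (θ : (L ≃ₐ[K] L) →* CmG m p)

/-- If `N I` is a `p`-th power mod `m` (and `I` is prime to `m`) then `Art_{Ω/F}(I) = 1`. -/
theorem galKappa' [IsMulCommutative (L ≃ₐ[K] L)] (hunr : UnramifiedEverywhere K L)
    (hθ : Function.Injective θ)
    [IsAbelianGalois (galF (galH hζ θ)) (galOmega L (galH hζ θ))]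
    (I : (Ideal (𝓞 (galF (galH hζ θ))))⁰)
    (hI : IsCoprime (I : Ideal (𝓞 (galF (galH hζ θ))))
      (Ideal.span {(m : 𝓞 (galF (galH hζ θ)))}))
    (hpow : ∃ y : ZMod m,
      ((Ideal.absNorm (I : Ideal (𝓞 (galF (galH hζ θ)))) : ℕ) : ZMod m) = y ^ p) :
    artinMap (galF (galH hζ θ)) (galOmega L (galH hζ θ)) I = 1 := by
  have hFM : IsAbelianGalois (galF (galH hζ θ)) M :=
    isAbelianGalois_top (L := L) m (galF (galH hζ θ))
  have hΩ := unramifiedEverywhere_galOmega (L := L) (galH hζ θ) hunr
  refine artinMap_eq_one_of_absNorm_isPow' (M := M) hΩ hζ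
    ((galChi (K := K) hζ).comp (AlgEquiv.restrictScalarsHom K)) ?_ ?_ I hI hpow
  · -- the character describes the action on `ζ`
    intro s
    exact (galChi_spec (K := K) hζ (s.restrictScalars K)).symm
  · -- `χ s` a `p`-th power ⟹ `s|_Ω = 1`
    rintro s ⟨u, hu⟩
    have hsH : s.restrictScalars K ∈ galH hζ θ := restrictScalars_mem_of_galF (galH hζ θ) s
    rw [mem_galH_iff] at hsH
    have hχ : galChi (K := K) hζ (s.restrictScalars K) = u ^ p := hu
    have h1 : θ ((s.restrictScalars K).restrictNormal L) = 1 := by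
      rw [← hsH, hχ, map_pow]
      exact CmG.pow_eq_one _
    have h2 : galRho L (galH hζ θ) s = 1 := by
      rw [galRho_apply]
      exact hθ (h1.trans (map_one θ).symm)
    apply galRhoBar_injective (L := L) (galH hζ θ)
    rw [galRhoBar_restrictNormal, h2, map_one]

end

end Fermat.Agent.S14.CR
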