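/-
T14 package CR: cyclotomic-lift reciprocity for `Ω/F` (the hypothesis `hκ` of
`Kernel.artinMap_span_eq_one_of_isPow`).
-/
import Fermat.Agent.S14.CR.GalChar
import Fermat.Agent.S14.CR.GalAbelian
import Fermat.Agent.S14.CR.CycFrob
import Fermat.Agent.S14.CR.GalKappa_helper19

set_option autoImplicit false

open NumberField nonZeroDivisors

namespace Fermat.Agent.S14.CR

section

variable {K L M : Type*} [Field K] [NumberField K] [Field L] [NumberField L]
  [Field M] [NumberField M] [Algebra K L] [Algebra L M] [Algebra K M] [IsScalarTower K L M]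
  [IsGalois K L] [IsGalois K M]
  {m : ℕ} [NeZero m] [IsCyclotomicExtension {m} L M] {ζ : M} (hζ : IsPrimitiveRoot ζ m)
  {p : ℕ} (θ : (L ≃ₐ[K] L) →* CmG m p)

/-- If `N I` is a `p`-th power mod `m` (and `I` is prime to `m`) then `Art_{Ω/F}(I) = 1`. -/
theorem galKappa [IsMulCommutative (L ≃ₐ[K] L)] (hunr : UnramifiedEverywhere K L)
    (hθ : Function.Injective θ)
    [IsAbelianGalois (galF (galH hζ θ)) (galOmega L (galH hζ θ))]
    (I : (Ideal (𝓞 (galF (galH hζ θ))))⁰)
    (hI : IsCoprime (I : Ideal (𝓞 (galF (galH hζ θ))))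
      (Ideal.span {(m : 𝓞 (galF (galH hζ θ)))}))
    (hpow : ∃ y : ZMod m,
      ((Ideal.absNorm (I : Ideal (𝓞 (galF (galH hζ θ)))) : ℕ) : ZMod m) = y ^ p) :
    artinMap (galF (galH hζ θ)) (galOmega L (galH hζ θ)) I = 1 :=
  galKappa' hζ θ hunr hθ I hI hpow

end

end Fermat.Agent.S14.CR
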