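/-
T14 / CR-ram (helper97): `p ∣ e` above `m`.

`F ⊆ M` number fields, `M/F` Galois, `ζ ∈ M` a primitive `m`-th root of unity (`m` prime), `𝔐` a prime
of `𝓞 M` above `m`.  If the inertia group of `𝔐` in `Gal(M/F)` has order `d` with `p * d ∣ m - 1`, then
`p ∣ e(𝔐 ∩ 𝓞 F | m)`.
Proof: `ℚ(ζ) ⊆ M` is totally ramified at `m` (`e = m - 1`, Mathlib), so `(m-1) ∣ e(𝔐 | m)` by the tower
law; `e(𝔐 | m) = e(𝔐 ∩ F | m) * e(𝔐 | 𝔐 ∩ F)` and `e(𝔐 | 𝔐 ∩ F) = d` (Galois).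
-/
import Mathlib

set_option autoImplicit false

open NumberField

namespace Fermat.Agent.S14.CR

section

variable {M : Type*} [Field M] [NumberField M]

/-- `(m - 1) ∣ e(𝔐 | m)` when `M` contains a primitive `m`-th root of unity. -/
theorem sub_one_dvd_ramificationIdx {m : ℕ} (hm : m.Prime) (ζ : M) (hζ : IsPrimitiveRoot ζ m)
    (𝔐 : Ideal (𝓞 M)) [𝔐.IsPrime] (h𝔐 : (m : 𝓞 M) ∈ 𝔐) :
    m - 1 ∣ 𝔐.ramificationIdx ℤ := by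
  have : Fact m.Prime := ⟨hm⟩
  have : NeZero m := ⟨hm.ne_zero⟩
  let E : IntermediateField ℚ M := IntermediateField.adjoin ℚ {ζ}
  have hcyc : IsCyclotomicExtension {m} ℚ E :=
    hζ.intermediateField_adjoin_isCyclotomicExtension ℚ
  set 𝔐E : Ideal (𝓞 E) := 𝔐.under (𝓞 E) with h𝔐E
  have : 𝔐.LiesOver 𝔐E := ⟨rfl⟩
  have : 𝔐E.IsPrime := Ideal.IsPrime.under (𝓞 E) 𝔐
  have : 𝔐E.LiesOver (Ideal.span {(m : ℤ)}) := by
    have h1 : (m : 𝓞 E) ∈ 𝔐E := by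
      rw [h𝔐E, Ideal.under_def, Ideal.mem_comap, map_natCast]
      exact h𝔐
    have hmprime : Prime (m : ℤ) := Nat.prime_iff_prime_int.mp hm
    exact (Ideal.liesOver_span_iff (Ideal.IsPrime.ne_top') hmprime).mpr (by simpa using h1)
  have h3 : 𝔐E.ramificationIdx ℤ = m - 1 :=
    IsCyclotomicExtension.Rat.ramificationIdx_eq_of_prime m E 𝔐E
  have h4 : 𝔐.ramificationIdx ℤ = 𝔐E.ramificationIdx ℤ * 𝔐.ramificationIdx (𝓞 E) :=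
    Ideal.ramificationIdx_tower 𝔐E 𝔐
  rw [h4, h3]
  exact dvd_mul_right _ _

end

variable {F M : Type*} [Field F] [NumberField F] [Field M] [NumberField M] [Algebra F M]
  [IsGalois F M]

/-- `e(𝔐 | 𝔐 ∩ 𝓞 F)` is the order of the inertia group. -/
theorem ramificationIdx_eq_card_inertia (𝔐 : Ideal (𝓞 M)) [𝔐.IsPrime] (h0 : 𝔐 ≠ ⊥) :
    𝔐.ramificationIdx (𝓞 F) = Nat.card (𝔐.inertia (M ≃ₐ[F] M)) := by
  set P : Ideal (𝓞 F) := 𝔐.under (𝓞 F) with hP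
  have : 𝔐.LiesOver P := ⟨rfl⟩
  have : P.IsPrime := Ideal.IsPrime.under (𝓞 F) 𝔐
  have hP0 : P ≠ ⊥ := by
    intro h
    exact h0 (Ideal.eq_bot_of_comap_eq_bot h)
  have : P.IsMaximal := Ring.DimensionLEOne.maximalOfPrime hP0 inferInstance
  have : Finite (𝓞 F ⧸ P) := Ideal.finiteQuotientOfFreeOfNeBot P hP0
  rw [Ideal.card_inertia_eq_ramificationIdxIn P 𝔐,
    Ideal.ramificationIdxIn_eq_ramificationIdx P 𝔐 (M ≃ₐ[F] M)]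

/-- **CR-ram**. -/
theorem dvd_ramificationIdx_of_card_inertia {p m : ℕ} (hm : m.Prime) (ζ : M)
    (hζ : IsPrimitiveRoot ζ m) (𝔐 : Ideal (𝓞 M)) [𝔐.IsPrime] (h𝔐 : (m : 𝓞 M) ∈ 𝔐)
    (hI : p * Nat.card (𝔐.inertia (M ≃ₐ[F] M)) ∣ m - 1) :
    p ∣ (𝔐.under (𝓞 F)).ramificationIdx ℤ := by
  have h0 : 𝔐 ≠ ⊥ := by
    rintro rfl
    have : (m : 𝓞 M) = 0 := by simpa using h𝔐
    exact hm.ne_zero (by exact_mod_cast this)
  have h1 := sub_one_dvd_ramificationIdx hm ζ hζ 𝔐 h𝔐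
  have : 𝔐.LiesOver (𝔐.under (𝓞 F)) := ⟨rfl⟩
  have h2 : 𝔐.ramificationIdx ℤ =
      (𝔐.under (𝓞 F)).ramificationIdx ℤ * 𝔐.ramificationIdx (𝓞 F) :=
    Ideal.ramificationIdx_tower (𝔐.under (𝓞 F)) 𝔐
  rw [h2, ramificationIdx_eq_card_inertia 𝔐 h0] at h1
  have hd : 0 < Nat.card (𝔐.inertia (M ≃ₐ[F] M)) := Nat.card_pos
  have h3 : p * Nat.card (𝔐.inertia (M ≃ₐ[F] M)) ∣
      (𝔐.under (𝓞 F)).ramificationIdx ℤ * Nat.card (𝔐.inertia (M ≃ₐ[F] M)) := hI.trans h1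
  exact Nat.dvd_of_mul_dvd_mul_right hd h3

/-- Version quantifying over the primes of `F` above `m`. -/
theorem dvd_ramificationIdx_of_forall_card_inertia {p m : ℕ} (hm : m.Prime) (ζ : M)
    (hζ : IsPrimitiveRoot ζ m)
    (hI : ∀ 𝔐 : Ideal (𝓞 M), 𝔐.IsPrime → (m : 𝓞 M) ∈ 𝔐 →
      p * Nat.card (𝔐.inertia (M ≃ₐ[F] M)) ∣ m - 1)
    (P : Ideal (𝓞 F)) [P.IsPrime] (hP : (m : 𝓞 F) ∈ P) :
    p ∣ P.ramificationIdx ℤ := by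
  obtain ⟨⟨𝔐, h𝔐prime, h𝔐over⟩⟩ := Ideal.nonempty_primesOver (S := 𝓞 M) P
  have hund : 𝔐.under (𝓞 F) = P := ((Ideal.liesOver_iff _ _).mp h𝔐over).symm
  have hmem : (m : 𝓞 M) ∈ 𝔐 := by
    have : (m : 𝓞 F) ∈ 𝔐.under (𝓞 F) := hund ▸ hP
    rw [Ideal.under_def, Ideal.mem_comap, map_natCast] at this
    exact this
  have := dvd_ramificationIdx_of_card_inertia (F := F) hm ζ hζ 𝔐 hmem (hI 𝔐 h𝔐prime hmem)
  rwa [hund] at this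

end Fermat.Agent.S14.CR
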