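/-
T14 package CR: the inertia groups of `M/F` above `m` have order dividing `(m-1)/p`
(the hypothesis of `RamDiv.dvd_ramificationIdx_of_forall_card_inertia`).
-/
import Fermat.Agent.S14.CR.GalChar
import Fermat.Agent.S14.CR.RamDiv
import Fermat.Agent.S14.CR.CycGalois

set_option autoImplicit false

open NumberField nonZeroDivisors

namespace Fermat.Agent.S14.CR

section

variable {K L M : Type*} [Field K] [NumberField K] [Field L] [NumberField L]
  [Field M] [NumberField M] [Algebra K L] [Algebra L M] [Algebra K M] [IsScalarTower K L M]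
  [IsGalois K L] [IsGalois K M]
  {m : ℕ} [NeZero m] [IsCyclotomicExtension {m} L M] {ζ : M} (hζ : IsPrimitiveRoot ζ m)
  {p : ℕ} (θ : (L ≃ₐ[K] L) →* CmG m p)

/-- `p · |p-th powers of (ℤ/m)ˣ| = m - 1` (local copy; `CR/ZModPow.lean` cannot be imported together
with `CR/ZModPowDefs.lean`). -/
theorem galRam_p_mul_card_Pm {m p : ℕ} (hm : m.Prime) (hmp : m % p = 1) :
    p * Nat.card (Pm m p) = m - 1 := by
  have : Fact m.Prime := ⟨hm⟩
  have hcard : Nat.card (ZMod m)ˣ = m - 1 := by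
    rw [Nat.card_eq_fintype_card, ZMod.card_units]
  have hdvd : p ∣ m - 1 := by
    have h1 : 1 ≤ m := hm.one_le
    have h2 := Nat.div_add_mod m p
    have h3 : m - 1 = p * (m / p) := by omega
    rw [h3]
    exact dvd_mul_right _ _
  rw [Pm, IsCyclic.card_powMonoidHom_range, hcard, Nat.gcd_eq_right hdvd]
  exact Nat.mul_div_cancel' hdvd

omit [IsCyclotomicExtension {m} L M] [NeZero m] [NumberField K] [NumberField L] [NumberField M]
  [IsGalois K M] in
/-- An element of the inertia group of `𝔐` in `Gal(M/K)` restricts trivially to the unramified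
extension `L/K`. -/
theorem restrictNormal_eq_one_of_mem_inertia (hunr : UnramifiedEverywhere K L)
    (𝔐 : Ideal (𝓞 M)) [𝔐.IsPrime] (h0 : 𝔐 ≠ ⊥) (s : M ≃ₐ[K] M)
    (hs : ∀ x : 𝓞 M, s • x - x ∈ 𝔐) : s.restrictNormal L = 1 := by
  refine hunr (𝔐.under (𝓞 L)) inferInstance ?_ _ ?_
  · intro h
    exact h0 (Ideal.eq_bot_of_comap_eq_bot h)
  · intro x
    rw [Ideal.under_def, Ideal.mem_comap, map_sub, algebraMap_restrictNormal_smul]
    exact hs _

theorem galRam (hm : m.Prime) (hp : p.Prime) (hmp : m % p = 1) (hunr : UnramifiedEverywhere K L)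
    (𝔐 : Ideal (𝓞 M)) [𝔐.IsPrime] (h𝔐 : (m : 𝓞 M) ∈ 𝔐) :
    p * Nat.card (𝔐.inertia (M ≃ₐ[galF (galH hζ θ)] M)) ∣ m - 1 := by
  set H := galH hζ θ with hH
  have h0 : 𝔐 ≠ ⊥ := by
    rintro rfl
    have : (m : 𝓞 M) = 0 := by simpa using h𝔐
    exact hm.ne_zero (by exact_mod_cast this)
  -- the character on `Gal(M/F)`
  let ψ : (M ≃ₐ[galF H] M) →* (ZMod m)ˣ :=
    (galChi (K := K) hζ).comp (AlgEquiv.restrictScalarsHom K)
  have hψ : ∀ s : M ≃ₐ[galF H] M, ψ s = galChi (K := K) hζ (s.restrictScalars K) := fun _ => rfl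
  -- restriction to `L` is trivial on inertia
  have hres : ∀ s ∈ 𝔐.inertia (M ≃ₐ[galF H] M), (s.restrictScalars K).restrictNormal L = 1 := by
    intro s hs
    apply restrictNormal_eq_one_of_mem_inertia hunr 𝔐 h0
    intro x
    exact AddSubgroup.mem_inertia.mp hs x
  have hPm : ∀ s ∈ 𝔐.inertia (M ≃ₐ[galF H] M), ψ s ∈ Pm m p := by
    intro s hs
    have h1 : s.restrictScalars K ∈ galH hζ θ := restrictScalars_mem_of_galF H s
    rw [mem_galH_iff, hres s hs, map_one, CmG.mk_eq_one_iff] at h1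
    obtain ⟨v, hv⟩ := h1
    exact ⟨v, hv⟩
  let φ : (𝔐.inertia (M ≃ₐ[galF H] M)) →* Pm m p :=
    (ψ.comp (𝔐.inertia (M ≃ₐ[galF H] M)).subtype).codRestrict (Pm m p) (fun s => hPm s.1 s.2)
  have hφ : Function.Injective φ := by
    rw [injective_iff_map_eq_one]
    intro s hs
    have h1 : ψ s.1 = 1 := by
      have := congrArg Subtype.val hs
      exact this
    rw [hψ] at h1
    have h2 := eq_one_of_restrictNormal_of_autToPow K L M hζ (s.1.restrictScalars K)
      (hres s.1 s.2) h1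
    apply Subtype.ext
    ext x
    have := DFunLike.congr_fun h2 x
    exact this
  have hdvd : Nat.card (𝔐.inertia (M ≃ₐ[galF H] M)) ∣ Nat.card (Pm m p) :=
    Subgroup.card_dvd_of_injective φ hφ
  rw [← galRam_p_mul_card_Pm hm hmp]
  exact Nat.mul_dvd_mul_left p hdvd

end

end Fermat.Agent.S14.CR
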