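/-
T14 package CR-cyc, arithmetic core (helper52).

LEMMA A.  `F` a number field, `m` a rational prime, `p ≥ 1` such that `(m) = 𝔞 ^ p` for some ideal
`𝔞` of `𝓞 F` (e.g. `p ∣ e(P|m)` for every prime `P` above `m`).  Then for every `x : 𝓞 F` the
residue of `N_{F/ℚ}(x)` modulo `m` is a `p`-th power in `ZMod m`.

Proof.  `N(x) mod m` is the determinant of multiplication by `x` on the `𝔽_m`-vector space
`𝓞 F / m`.  The `𝔽_m`-valued determinant `D(I) := det (x | 𝓞 F / I)` (`m ∈ I`) is multiplicative in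
`I` (exact sequence `0 → S/J → S/IJ → S/I → 0`, first map = multiplication by `t` with
`I = IJ + (t)`), hence `D(𝔞 ^ p) = D(𝔞) ^ p`.
-/
import Mathlib

set_option autoImplicit false
set_option linter.style.haveILetI false

namespace Fermat.Agent.S14.CR

section LinAlg

variable {k : Type*} [Field k]
variable {M₁ M₂ M₃ : Type*} [AddCommGroup M₁] [AddCommGroup M₂] [AddCommGroup M₃]
  [Module k M₁] [Module k M₂] [Module k M₃]

/-- Conjugate endomorphisms have the same determinant. -/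
theorem det_eq_of_equiv (φ : M₁ ≃ₗ[k] M₂) (e₁ : M₁ →ₗ[k] M₁) (e₂ : M₂ →ₗ[k] M₂)
    (h : ∀ v, φ (e₁ v) = e₂ (φ v)) : LinearMap.det e₁ = LinearMap.det e₂ := by
  have : e₂ = (φ : M₁ →ₗ[k] M₂) ∘ₗ e₁ ∘ₗ (φ.symm : M₂ →ₗ[k] M₁) := by
    ext v
    simp [h]
  rw [this, LinearMap.det_conj]

/-- The determinant is multiplicative in short exact sequences. -/
theorem det_mul_of_exact [FiniteDimensional k M₂]
    (f : M₁ →ₗ[k] M₂) (g : M₂ →ₗ[k] M₃) (hf : Function.Injective f)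
    (hg : Function.Surjective g) (hfg : LinearMap.range f = LinearMap.ker g)
    (e₁ : M₁ →ₗ[k] M₁) (e₂ : M₂ →ₗ[k] M₂) (e₃ : M₃ →ₗ[k] M₃)
    (h₁ : ∀ v, f (e₁ v) = e₂ (f v)) (h₂ : ∀ v, g (e₂ v) = e₃ (g v)) :
    LinearMap.det e₂ = LinearMap.det e₁ * LinearMap.det e₃ := by
  set W := LinearMap.range f with hW
  have he : W ≤ W.comap e₂ := by
    rintro _ ⟨v, rfl⟩
    exact ⟨e₁ v, h₁ v⟩
  rw [LinearMap.det_eq_det_mul_det W e₂ he]
  congr 1
  · symm
    refine det_eq_of_equiv (LinearEquiv.ofInjective f hf) e₁ (e₂.restrict he) ?_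
    intro v
    ext
    simp [LinearMap.restrict_apply, h₁]
  · refine det_eq_of_equiv ((Submodule.quotEquivOfEq _ _ hfg).trans
      (g.quotKerEquivOfSurjective hg)) (W.mapQ W e₂ he) e₃ ?_
    intro v
    induction v using Submodule.Quotient.induction_on with
    | H v =>
      simp [Submodule.mapQ_apply, h₂]

end LinAlg

section Torsion

variable (m : ℕ) [Fact m.Prime]

/-- The `𝔽_m`-valued determinant of an additive endomorphism of a group killed by `m`. -/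
noncomputable def tdet {M : Type*} [AddCommGroup M] (h : ∀ v : M, m • v = 0) (e : M →+ M) :
    ZMod m :=
  letI := AddCommGroup.zmodModule h
  LinearMap.det (e.toZModLinearMap m)

variable {m}
variable {M₁ M₂ M₃ : Type*} [AddCommGroup M₁] [AddCommGroup M₂] [AddCommGroup M₃]

theorem tdet_eq_of_equiv (h₁ : ∀ v : M₁, m • v = 0) (h₂ : ∀ v : M₂, m • v = 0)
    (φ : M₁ ≃+ M₂) (e₁ : M₁ →+ M₁) (e₂ : M₂ →+ M₂) (h : ∀ v, φ (e₁ v) = e₂ (φ v)) :
    tdet m h₁ e₁ = tdet m h₂ e₂ := by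
  letI := AddCommGroup.zmodModule h₁
  letI := AddCommGroup.zmodModule h₂
  unfold tdet
  refine det_eq_of_equiv
    { (φ.toAddMonoidHom.toZModLinearMap m) with
      invFun := φ.symm
      left_inv := φ.left_inv
      right_inv := φ.right_inv } _ _ ?_
  intro v
  exact h v

theorem tdet_mul_of_exact [Finite M₂] (h₁ : ∀ v : M₁, m • v = 0) (h₂ : ∀ v : M₂, m • v = 0)
    (h₃ : ∀ v : M₃, m • v = 0) (f : M₁ →+ M₂) (g : M₂ →+ M₃) (hf : Function.Injective f)
    (hg : Function.Surjective g) (hfg : ∀ v, g v = 0 ↔ ∃ u, f u = v)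
    (e₁ : M₁ →+ M₁) (e₂ : M₂ →+ M₂) (e₃ : M₃ →+ M₃)
    (c₁ : ∀ v, f (e₁ v) = e₂ (f v)) (c₂ : ∀ v, g (e₂ v) = e₃ (g v)) :
    tdet m h₂ e₂ = tdet m h₁ e₁ * tdet m h₃ e₃ := by
  letI := AddCommGroup.zmodModule h₁
  letI := AddCommGroup.zmodModule h₂
  letI := AddCommGroup.zmodModule h₃
  haveI : FiniteDimensional (ZMod m) M₂ := Module.Finite.of_finite
  unfold tdet
  have key := @det_mul_of_exact (ZMod m) _ M₁ M₂ M₃ _ _ _ _ _ _ this
    (f.toZModLinearMap m) (g.toZModLinearMap m) hf hg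
  refine key ?_ _ _ _ c₁ c₂
  ext v
  simp only [LinearMap.mem_range, AddMonoidHom.coe_toZModLinearMap, LinearMap.mem_ker]
  exact (hfg v).symm

end Torsion

section Ideals

variable {S : Type*} [CommRing S] (m : ℕ) [Fact m.Prime]

omit [Fact m.Prime] in
theorem nsmul_quot_eq_zero {I : Ideal S} (hI : (m : S) ∈ I) (v : S ⧸ I) : m • v = 0 := by
  obtain ⟨s, rfl⟩ := Ideal.Quotient.mk_surjective v
  rw [← map_nsmul, Ideal.Quotient.eq_zero_iff_mem, nsmul_eq_mul]
  exact I.mul_mem_right _ hI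

/-- `D(I)`: the `𝔽_m`-determinant of multiplication by `x` on `S ⧸ I` (where `m ∈ I`). -/
noncomputable def qdet (I : Ideal S) (hI : (m : S) ∈ I) (x : S) : ZMod m :=
  tdet m (nsmul_quot_eq_zero m hI) (AddMonoidHom.mulLeft (Ideal.Quotient.mk I x))

omit [Fact m.Prime] in
theorem qdet_congr {I I' : Ideal S} (h : I = I') (hI : (m : S) ∈ I) (hI' : (m : S) ∈ I') (x : S) :
    qdet m I hI x = qdet m I' hI' x := by
  subst h
  rfl

variable [IsDedekindDomain S]

theorem mem_of_mul_mem_mul {I J : Ideal S} {t : S} (h0 : I * J ≠ ⊥)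
    (ht : I * J ⊔ Ideal.span {t} = I) {s : S} (hs : t * s ∈ I * J) : s ∈ J := by
  have hI0 : I ≠ ⊥ := fun h => h0 (by simp [h])
  have htI : t ∈ I := ht ▸ Ideal.mem_sup_right (Ideal.mem_span_singleton_self t)
  obtain ⟨K, hK⟩ : I ∣ Ideal.span {t} :=
    Ideal.dvd_iff_le.mpr ((Ideal.span_singleton_le_iff_mem _).mpr htI)
  have hcop : J ⊔ K = ⊤ := by
    have h1 : I * (J ⊔ K) = I * ⊤ := by
      rw [Ideal.mul_sup, ← hK, ht, Ideal.mul_top]
    exact mul_left_cancel₀ hI0 h1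
  have hKs : K * Ideal.span {s} ≤ J := by
    have h1 : I * (K * Ideal.span {s}) ≤ I * J := by
      rw [← mul_assoc, ← hK, Ideal.span_singleton_mul_span_singleton,
        Ideal.span_singleton_le_iff_mem]
      exact hs
    have h2 : I * J ∣ I * (K * Ideal.span {s}) := Ideal.dvd_iff_le.mpr h1
    exact Ideal.dvd_iff_le.mp ((mul_dvd_mul_iff_left hI0).mp h2)
  have h1 : (1 : S) ∈ J ⊔ K := by rw [hcop]; trivial
  obtain ⟨j, hj, k, hk, hjk⟩ := Submodule.mem_sup.mp h1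
  have : s = j * s + k * s := by rw [← add_mul, hjk, one_mul]
  rw [this]
  exact J.add_mem (J.mul_mem_right _ hj)
    (hKs (Ideal.mul_mem_mul hk (Ideal.mem_span_singleton_self s)))

theorem qdet_mul (I J : Ideal S) (hIJ : (m : S) ∈ I * J) (h0 : I * J ≠ ⊥)
    [Finite (S ⧸ I * J)] (x : S) :
    qdet m (I * J) hIJ x =
      qdet m J ((Ideal.mul_le_right : I * J ≤ J) hIJ) x *
        qdet m I ((Ideal.mul_le_left : I * J ≤ I) hIJ) x := by
  obtain ⟨t, ht⟩ := IsDedekindDomain.exists_sup_span_eq (Ideal.mul_le_left : I * J ≤ I) h0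
  have htI : t ∈ I := ht ▸ Ideal.mem_sup_right (Ideal.mem_span_singleton_self t)
  let f : S ⧸ J →+ S ⧸ I * J :=
    (Submodule.mapQ J (I * J) (LinearMap.mulLeft S t)
      (fun s hs => Ideal.mul_mem_mul htI hs)).toAddMonoidHom
  let g : S ⧸ I * J →+ S ⧸ I :=
    (Ideal.Quotient.factor (Ideal.mul_le_left : I * J ≤ I)).toAddMonoidHom
  have hf_mk : ∀ s : S, f (Ideal.Quotient.mk J s) = Ideal.Quotient.mk (I * J) (t * s) :=
    fun s => rfl
  have hg_mk : ∀ s : S, g (Ideal.Quotient.mk (I * J) s) = Ideal.Quotient.mk I s :=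
    fun s => rfl
  unfold qdet
  refine tdet_mul_of_exact _ _ _ f g ?_ ?_ ?_ _ _ _ ?_ ?_
  · rw [injective_iff_map_eq_zero]
    intro v hv
    obtain ⟨s, rfl⟩ := Ideal.Quotient.mk_surjective v
    rw [hf_mk, Ideal.Quotient.eq_zero_iff_mem] at hv
    rw [Ideal.Quotient.eq_zero_iff_mem]
    exact mem_of_mul_mem_mul h0 ht hv
  · exact Ideal.Quotient.factor_surjective (Ideal.mul_le_left : I * J ≤ I)
  · intro v
    obtain ⟨s, rfl⟩ := Ideal.Quotient.mk_surjective v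
    rw [hg_mk, Ideal.Quotient.eq_zero_iff_mem]
    constructor
    · intro hs
      rw [← ht] at hs
      obtain ⟨a, ha, b, hb, hab⟩ := Submodule.mem_sup.mp hs
      obtain ⟨c, rfl⟩ := Ideal.mem_span_singleton'.mp hb
      refine ⟨Ideal.Quotient.mk J c, ?_⟩
      rw [hf_mk, Ideal.Quotient.eq, ← hab]
      have : t * c - (a + c * t) = -a := by ring
      rw [this]
      exact (I * J).neg_mem ha
    · rintro ⟨u, hu⟩
      obtain ⟨c, rfl⟩ := Ideal.Quotient.mk_surjective u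
      rw [hf_mk, Ideal.Quotient.eq] at hu
      have h1 : t * c - s ∈ I := (Ideal.mul_le_left : I * J ≤ I) hu
      have h2 : t * c ∈ I := I.mul_mem_right _ htI
      have : s = t * c - (t * c - s) := by ring
      rw [this]
      exact I.sub_mem h2 h1
  · intro v
    obtain ⟨s, rfl⟩ := Ideal.Quotient.mk_surjective v
    simp only [AddMonoidHom.coe_mulLeft, ← map_mul, hf_mk]
    congr 1
    ring
  · intro v
    obtain ⟨s, rfl⟩ := Ideal.Quotient.mk_surjective v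
    simp only [AddMonoidHom.coe_mulLeft, ← map_mul, hg_mk]

theorem qdet_pow (𝔞 : Ideal S) (h𝔞 : 𝔞 ≠ ⊥) (hfin : ∀ I : Ideal S, I ≠ ⊥ → Finite (S ⧸ I))
    (x : S) (h1 : (m : S) ∈ 𝔞) :
    ∀ (i : ℕ) (h : (m : S) ∈ 𝔞 ^ (i + 1)), qdet m (𝔞 ^ (i + 1)) h x = qdet m 𝔞 h1 x ^ (i + 1) := by
  intro i
  induction i with
  | zero =>
    intro h
    have e : 𝔞 ^ (0 + 1) = 𝔞 := by rw [zero_add, pow_one]
    rw [qdet_congr m e h h1 x, zero_add, pow_one]
  | succ i ih =>
    intro h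
    have hle : 𝔞 ^ (i + 1 + 1) ≤ 𝔞 ^ (i + 1) := Ideal.pow_le_pow_right (Nat.le_succ _)
    have h' : (m : S) ∈ 𝔞 ^ (i + 1) * 𝔞 := by rwa [← pow_succ]
    have hne : 𝔞 ^ (i + 1) * 𝔞 ≠ ⊥ := by
      rw [← pow_succ]
      exact pow_ne_zero _ h𝔞
    haveI := hfin _ hne
    rw [qdet_congr m (pow_succ 𝔞 (i + 1)) h h' x, qdet_mul m _ _ h' hne x, ih (hle h),
      pow_succ _ (i + 1), mul_comm]

end Ideals

section Norm

variable {S : Type*} [CommRing S] (m : ℕ) [Fact m.Prime]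

/-- The additive equivalence between `S / mS` in its two incarnations. -/
noncomputable def modNEquiv : ModN S m ≃+ S ⧸ Ideal.span {(m : S)} :=
  AddEquiv.ofBijective
    ((LinearMap.range (LinearMap.lsmul ℤ S m)).liftQ
      ((Ideal.Quotient.mk (Ideal.span {(m : S)})).toAddMonoidHom.toIntLinearMap) (by
        rintro _ ⟨s, rfl⟩
        simp only [LinearMap.lsmul_apply, LinearMap.mem_ker, AddMonoidHom.coe_toIntLinearMap,
          RingHom.toAddMonoidHom_eq_coe, AddMonoidHom.coe_coe]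
        rw [Ideal.Quotient.eq_zero_iff_mem, Ideal.mem_span_singleton]
        exact ⟨s, by simp⟩)).toAddMonoidHom
    (by
      constructor
      · rw [injective_iff_map_eq_zero]
        intro v hv
        induction v using Submodule.Quotient.induction_on with
        | H s =>
          have hs : Ideal.Quotient.mk (Ideal.span {(m : S)}) s = 0 := hv
          rw [Ideal.Quotient.eq_zero_iff_mem, Ideal.mem_span_singleton] at hs
          obtain ⟨c, rfl⟩ := hs
          rw [Submodule.Quotient.mk_eq_zero]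
          exact ⟨c, by simp⟩
      · intro v
        obtain ⟨s, rfl⟩ := Ideal.Quotient.mk_surjective v
        exact ⟨Submodule.Quotient.mk s, rfl⟩)

omit [Fact m.Prime] in
theorem modNEquiv_mk (s : S) :
    modNEquiv m (Submodule.Quotient.mk s) = Ideal.Quotient.mk (Ideal.span {(m : S)}) s := rfl

theorem modN_basis_repr {ι : Type*} [Fintype ι] (b : Module.Basis ι ℤ S) (s : S) (i : ι) :
    (ModN.basis (n := m) b).repr (ModN.mkQ m s) i = ((b.repr s i : ℤ) : ZMod m) := by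
  have h1 : ModN.mkQ m s = ∑ j, ((b.repr s j : ℤ) : ZMod m) • (ModN.basis (n := m) b) j := by
    conv_lhs => rw [← b.sum_repr s]
    rw [map_sum]
    refine Finset.sum_congr rfl fun j _ => ?_
    rw [map_zsmul, ModN.basis_apply_eq_mkQ, Int.cast_smul_eq_zsmul]
  rw [h1, Module.Basis.repr_sum_self]

/-- multiplication by `x` on `S / mS`. -/
noncomputable def modNMul (x : S) : ModN S m →+ ModN S m :=
  (Submodule.mapQ _ _ (LinearMap.mulLeft ℤ x) (by
    rintro _ ⟨s, rfl⟩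
    exact ⟨x * s, by simp [mul_left_comm]⟩)).toAddMonoidHom

omit [Fact m.Prime] in
theorem modNMul_mkQ (x s : S) : modNMul m x (ModN.mkQ m s) = ModN.mkQ m (x * s) := rfl

theorem det_modNMul [Module.Free ℤ S] [Module.Finite ℤ S] (x : S) :
    LinearMap.det ((modNMul m x).toZModLinearMap m) = ((Algebra.norm ℤ x : ℤ) : ZMod m) := by
  classical
  let b := Module.Free.chooseBasis ℤ S
  rw [Algebra.norm_eq_matrix_det b x, ← LinearMap.det_toMatrix (ModN.basis (n := m) b)]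
  have := RingHom.map_det (Int.castRingHom (ZMod m)) (Algebra.leftMulMatrix b x)
  rw [eq_intCast] at this
  rw [this]
  congr 1
  ext i j
  rw [LinearMap.toMatrix_apply, ModN.basis_apply_eq_mkQ, AddMonoidHom.coe_toZModLinearMap,
    modNMul_mkQ, modN_basis_repr, RingHom.mapMatrix_apply, Matrix.map_apply,
    Algebra.leftMulMatrix_eq_repr_mul]
  rfl

omit [Fact m.Prime] in
theorem nsmul_modN_eq_zero (v : ModN S m) : m • v = 0 := by
  induction v using Submodule.Quotient.induction_on with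
  | H s =>
    rw [← Submodule.Quotient.mk_smul, Submodule.Quotient.mk_eq_zero]
    exact ⟨s, by simp⟩

theorem qdet_span_eq_norm [Module.Free ℤ S] [Module.Finite ℤ S] (x : S) :
    qdet m (Ideal.span {(m : S)}) (Ideal.mem_span_singleton_self _) x =
      ((Algebra.norm ℤ x : ℤ) : ZMod m) := by
  rw [← det_modNMul]
  have h := tdet_eq_of_equiv (m := m) (nsmul_modN_eq_zero m) (nsmul_quot_eq_zero m
    (Ideal.mem_span_singleton_self (m : S))) (modNEquiv m) (modNMul m x)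
    (AddMonoidHom.mulLeft (Ideal.Quotient.mk (Ideal.span {(m : S)}) x)) (by
      intro v
      induction v using Submodule.Quotient.induction_on with
      | H s =>
        change modNEquiv m (Submodule.Quotient.mk (x * s)) = _
        rw [modNEquiv_mk, modNEquiv_mk, AddMonoidHom.coe_mulLeft, map_mul])
  unfold qdet
  rw [← h]
  rfl

end Norm

section Main

/-- **Lemma A, abstract form.**  If `(m) = 𝔞 ^ p` in a Dedekind domain `S` that is finite free over
`ℤ`, then `N(x) mod m` is a `p`-th power for every `x : S`. -/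
theorem norm_isPow_of_span_eq_pow {S : Type*} [CommRing S] [IsDedekindDomain S]
    [Module.Free ℤ S] [Module.Finite ℤ S] (hfin : ∀ I : Ideal S, I ≠ ⊥ → Finite (S ⧸ I))
    (m : ℕ) [Fact m.Prime] (hm0 : (m : S) ≠ 0) (p : ℕ) (hp : 0 < p) (𝔞 : Ideal S)
    (h : Ideal.span {(m : S)} = 𝔞 ^ p) (x : S) :
    ∃ y : ZMod m, ((Algebra.norm ℤ x : ℤ) : ZMod m) = y ^ p := by
  obtain ⟨i, rfl⟩ : ∃ i, p = i + 1 := ⟨p - 1, by omega⟩
  have hmem : (m : S) ∈ 𝔞 ^ (i + 1) := h ▸ Ideal.mem_span_singleton_self _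
  have h𝔞 : 𝔞 ≠ ⊥ := by
    rintro rfl
    rw [Ideal.bot_pow (Nat.succ_ne_zero i), Ideal.span_singleton_eq_bot] at h
    exact hm0 h
  have h1 : (m : S) ∈ 𝔞 := Ideal.pow_le_self (Nat.succ_ne_zero i) hmem
  refine ⟨qdet m 𝔞 h1 x, ?_⟩
  rw [← qdet_span_eq_norm, qdet_congr m h _ hmem x, qdet_pow m 𝔞 h𝔞 hfin x h1 i hmem]

open NumberField in
/-- **Lemma A.**  `F` a number field, `m` a prime with `(m) = 𝔞 ^ p` in `𝓞 F`: the norm of every
`x : 𝓞 F` is a `p`-th power modulo `m`. -/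
theorem norm_isPow_mod_of_eq_pow (F : Type*) [Field F] [NumberField F] (m : ℕ) [Fact m.Prime] (p : ℕ)
    (hp : 0 < p) (𝔞 : Ideal (𝓞 F)) (h : Ideal.span {(m : 𝓞 F)} = 𝔞 ^ p) (x : 𝓞 F) :
    ∃ y : ZMod m, ((Algebra.norm ℤ x : ℤ) : ZMod m) = y ^ p := by
  refine norm_isPow_of_span_eq_pow (fun I hI => Ideal.finiteQuotientOfFreeOfNeBot I hI) m ?_ p hp
    𝔞 h x
  exact_mod_cast (Fact.out : m.Prime).ne_zero

open NumberField in
/-- If `p` divides all ramification indices above `m`, then `(m)` is a `p`-th power. -/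
theorem exists_pow_eq_span (F : Type*) [Field F] [NumberField F] (m : ℕ) [Fact m.Prime] (p : ℕ)
    (hram : ∀ P : Ideal (𝓞 F), P.IsPrime → (m : 𝓞 F) ∈ P → p ∣ P.ramificationIdx ℤ) :
    ∃ 𝔞 : Ideal (𝓞 F), Ideal.span {(m : 𝓞 F)} = 𝔞 ^ p := by
  classical
  have hmax : (Ideal.span {(m : ℤ)}).IsMaximal :=
    Int.ideal_span_isMaximal_of_prime m
  have hne : Ideal.span {(m : ℤ)} ≠ 0 := by
    rw [Ne, Ideal.zero_eq_bot, Ideal.span_singleton_eq_bot]
    exact_mod_cast (Fact.out : m.Prime).ne_zero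
  have hfac := Ideal.map_algebraMap_eq_finsetProd_pow (R := 𝓞 F) hne
  rw [Ideal.map_span, Set.image_singleton, map_natCast] at hfac
  refine ⟨∏ P ∈ (Ideal.span {(m : ℤ)}).primesOver (𝓞 F), P ^ (P.ramificationIdx ℤ / p), ?_⟩
  rw [hfac, ← Finset.prod_pow]
  refine Finset.prod_congr rfl fun P hP => ?_
  rw [← pow_mul, Nat.div_mul_cancel]
  rw [Set.mem_toFinset] at hP
  obtain ⟨hP1, hP2⟩ := hP
  refine hram P hP1 ?_
  have : (m : ℤ) ∈ P.under ℤ := by
    rw [← hP2.over]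
    exact Ideal.mem_span_singleton_self _
  simpa using this

open NumberField in
/-- **Lemma A, ramification form.** -/
theorem norm_isPow_mod_of_ramificationIdx (F : Type*) [Field F] [NumberField F] (m : ℕ)
    [Fact m.Prime] (p : ℕ) (hp : 0 < p)
    (hram : ∀ P : Ideal (𝓞 F), P.IsPrime → (m : 𝓞 F) ∈ P → p ∣ P.ramificationIdx ℤ) (x : 𝓞 F) :
    ∃ y : ZMod m, ((Algebra.norm ℤ x : ℤ) : ZMod m) = y ^ p := by
  obtain ⟨𝔞, h𝔞⟩ := exists_pow_eq_span F m p hram
  exact norm_isPow_mod_of_eq_pow F m p hp 𝔞 h𝔞 x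

open NumberField in
/-- **Lemma A for ideals** (`p` odd, so the sign of the norm does not matter): the absolute norm
of a principal ideal `(x)` of `𝓞 F` is a `p`-th power modulo `m` when `(m) = 𝔞 ^ p`. -/
theorem absNorm_span_isPow_mod_of_eq_pow (F : Type*) [Field F] [NumberField F] (m : ℕ) [Fact m.Prime]
    (p : ℕ) (hp : Odd p) (𝔞 : Ideal (𝓞 F)) (h : Ideal.span {(m : 𝓞 F)} = 𝔞 ^ p) (x : 𝓞 F) :
    ∃ y : ZMod m, ((Ideal.absNorm (Ideal.span {x}) : ℕ) : ZMod m) = y ^ p := by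
  obtain ⟨y, hy⟩ := norm_isPow_mod_of_eq_pow F m p hp.pos 𝔞 h x
  rw [Ideal.absNorm_span_singleton]
  have hcast : (((Algebra.norm ℤ x).natAbs : ℕ) : ZMod m) =
      (((Algebra.norm ℤ x).natAbs : ℤ) : ZMod m) := by
    rw [Int.cast_natCast]
  rw [hcast]
  rcases Int.natAbs_eq (Algebra.norm ℤ x) with h1 | h1
  · exact ⟨y, by rw [← h1, hy]⟩
  · refine ⟨-y, ?_⟩
    have h2 : ((Algebra.norm ℤ x).natAbs : ℤ) = -Algebra.norm ℤ x := by omega
    rw [h2, Int.cast_neg, hy, hp.neg_pow]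

open NumberField in
/-- **Lemma A for ideals, ramification form.** -/
theorem absNorm_span_isPow_mod_of_ramificationIdx (F : Type*) [Field F] [NumberField F] (m : ℕ)
    [Fact m.Prime] (p : ℕ) (hp : Odd p)
    (hram : ∀ P : Ideal (𝓞 F), P.IsPrime → (m : 𝓞 F) ∈ P → p ∣ P.ramificationIdx ℤ) (x : 𝓞 F) :
    ∃ y : ZMod m, ((Ideal.absNorm (Ideal.span {x}) : ℕ) : ZMod m) = y ^ p := by
  obtain ⟨𝔞, h𝔞⟩ := exists_pow_eq_span F m p hram
  exact absNorm_span_isPow_mod_of_eq_pow F m p hp 𝔞 h𝔞 x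

open NumberField in
/-- There is a prime of `𝓞 F` above every rational prime, so `p ∣ e` for all of them forces
`p ≠ 0`. -/
theorem pos_of_dvd_ramificationIdx (F : Type*) [Field F] [NumberField F] {m p : ℕ} (hm : m.Prime)
    (hram : ∀ 𝔐 : Ideal (𝓞 F), 𝔐.IsPrime → (m : 𝓞 F) ∈ 𝔐 → p ∣ 𝔐.ramificationIdx ℤ) : 0 < p := by
  haveI : Fact m.Prime := ⟨hm⟩
  haveI : (Ideal.span {(m : ℤ)}).IsMaximal := Int.ideal_span_isMaximal_of_prime m
  obtain ⟨Q, hQmax, hQ⟩ := Ideal.exists_ideal_over_maximal_of_isIntegral (S := 𝓞 F)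
    (Ideal.span {(m : ℤ)}) (by
      rw [(RingHom.injective_iff_ker_eq_bot _).mp (FaithfulSMul.algebraMap_injective ℤ (𝓞 F))]
      exact bot_le)
  haveI := hQmax.isPrime
  have hmQ : (m : 𝓞 F) ∈ Q := by
    have : (m : ℤ) ∈ Q.comap (algebraMap ℤ (𝓞 F)) := by
      rw [hQ]
      exact Ideal.mem_span_singleton_self _
    simpa using this
  have h1 := hram Q hQmax.isPrime hmQ
  have h2 : 0 < Q.ramificationIdx ℤ := Ideal.ramificationIdx_pos Q ℤ
  rcases Nat.eq_zero_or_pos p with rfl | h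
  · rw [zero_dvd_iff] at h1
    omega
  · exact h

open NumberField in
/-- **CR-norm (Lemma A)** in the shape requested by the CR owner.  The coprimality hypothesis `hx`
is not needed (see `norm_isPow_mod_of_ramificationIdx`). -/
theorem norm_isPow_mod (F : Type*) [Field F] [NumberField F] {m p : ℕ} (hm : m.Prime)
    (hram : ∀ 𝔐 : Ideal (𝓞 F), 𝔐.IsPrime → (m : 𝓞 F) ∈ 𝔐 → p ∣ 𝔐.ramificationIdx ℤ)
    (x : 𝓞 F) (_hx : IsCoprime (Ideal.span {x}) (Ideal.span {(m : 𝓞 F)})) :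
    ∃ y : ZMod m, ((Algebra.norm ℤ x : ℤ) : ZMod m) = y ^ p := by
  haveI : Fact m.Prime := ⟨hm⟩
  exact norm_isPow_mod_of_ramificationIdx F m p (pos_of_dvd_ramificationIdx F hm hram) hram x

open NumberField in
/-- **CR-norm for ideals** in the shape requested by the CR owner. -/
theorem absNorm_span_isPow_mod (F : Type*) [Field F] [NumberField F] {m p : ℕ} (hm : m.Prime)
    (hram : ∀ 𝔐 : Ideal (𝓞 F), 𝔐.IsPrime → (m : 𝓞 F) ∈ 𝔐 → p ∣ 𝔐.ramificationIdx ℤ)
    (x : 𝓞 F) (_hx : IsCoprime (Ideal.span {x}) (Ideal.span {(m : 𝓞 F)})) (hp : Odd p) :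
    ∃ y : ZMod m, ((Ideal.absNorm (Ideal.span {x}) : ℕ) : ZMod m) = y ^ p := by
  haveI : Fact m.Prime := ⟨hm⟩
  exact absNorm_span_isPow_mod_of_ramificationIdx F m p hp hram x

open NumberField in
/-- Variant of `norm_isPow_mod` with the older ramification index `Ideal.ramificationIdx'`. -/
theorem norm_isPow_mod' (F : Type*) [Field F] [NumberField F] {m p : ℕ} (hm : m.Prime)
    (hram : ∀ 𝔐 : Ideal (𝓞 F), 𝔐.IsPrime → (m : 𝓞 F) ∈ 𝔐 →
      p ∣ Ideal.ramificationIdx' (Ideal.span {(m : ℤ)}) 𝔐)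
    (x : 𝓞 F) : ∃ y : ZMod m, ((Algebra.norm ℤ x : ℤ) : ZMod m) = y ^ p := by
  have hne : Ideal.span {(m : ℤ)} ≠ ⊥ := by
    rw [Ne, Ideal.span_singleton_eq_bot]
    exact_mod_cast hm.ne_zero
  haveI : Fact m.Prime := ⟨hm⟩
  haveI : (Ideal.span {(m : ℤ)}).IsMaximal := Int.ideal_span_isMaximal_of_prime m
  have hram' : ∀ 𝔐 : Ideal (𝓞 F), 𝔐.IsPrime → (m : 𝓞 F) ∈ 𝔐 → p ∣ 𝔐.ramificationIdx ℤ := by
    intro 𝔐 h𝔐 hm𝔐
    haveI := h𝔐
    haveI : 𝔐.LiesOver (Ideal.span {(m : ℤ)}) := by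
      constructor
      refine (Ideal.IsMaximal.eq_of_le inferInstance ?_ ?_)
      · exact (Ideal.IsPrime.under ℤ 𝔐).ne_top
      · rw [Ideal.span_singleton_le_iff_mem, Ideal.under_def, Ideal.mem_comap]
        simpa using hm𝔐
    rw [← Ideal.ramificationIdx'_eq_ramificationIdx (Ideal.span {(m : ℤ)}) 𝔐 hne]
    exact hram 𝔐 h𝔐 hm𝔐
  exact norm_isPow_mod_of_ramificationIdx F m p (pos_of_dvd_ramificationIdx F hm hram') hram' x

open NumberField in
/-- Variant of `absNorm_span_isPow_mod` with the older ramification index. -/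
theorem absNorm_span_isPow_mod' (F : Type*) [Field F] [NumberField F] {m p : ℕ} (hm : m.Prime)
    (hram : ∀ 𝔐 : Ideal (𝓞 F), 𝔐.IsPrime → (m : 𝓞 F) ∈ 𝔐 →
      p ∣ Ideal.ramificationIdx' (Ideal.span {(m : ℤ)}) 𝔐)
    (x : 𝓞 F) (hp : Odd p) :
    ∃ y : ZMod m, ((Ideal.absNorm (Ideal.span {x}) : ℕ) : ZMod m) = y ^ p := by
  obtain ⟨y, hy⟩ := norm_isPow_mod' F hm hram x
  rw [Ideal.absNorm_span_singleton]
  have hcast : (((Algebra.norm ℤ x).natAbs : ℕ) : ZMod m) =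
      (((Algebra.norm ℤ x).natAbs : ℤ) : ZMod m) := by
    rw [Int.cast_natCast]
  rw [hcast]
  rcases Int.natAbs_eq (Algebra.norm ℤ x) with h1 | h1
  · exact ⟨y, by rw [← h1, hy]⟩
  · refine ⟨-y, ?_⟩
    have h2 : ((Algebra.norm ℤ x).natAbs : ℤ) = -Algebra.norm ℤ x := by omega
    rw [h2, Int.cast_neg, hy, hp.neg_pow]

end Main

end Fermat.Agent.S14.CR
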