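/-
T14 / CR-ker (helper97): cyclotomic-lift reciprocity pins the kernel of the Artin map.

`F ⊆ Ω` number fields, `Ω/F` abelian of prime degree `p`, unramified everywhere, `μ_p ⊆ F`;
`𝔪 ≠ 0` an ideal of `𝓞 F`.  If the Artin map of `Ω/F` is trivial on the principal ideals coprime to `𝔪`
and nontrivial on some ideal coprime to `𝔪`, then for every ideal `I` coprime to `𝔪`:
`artinMap F Ω I = 1 → [I] ∈ N_{Ω/F} Cl(Ω)`.

Proof.  (R1/R2) every ideal class contains an integral ideal coprime to `𝔪` (Mathlib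
`IsDedekindDomain.exists_sup_span_eq`).  (b) `artinMap` is constant on the classes of ideals coprime to
`𝔪`.  Hence it induces `ā : Cl(F) →* Gal(Ω/F)`, onto a group of prime order `p`, and `ā` kills
`N Cl(Ω)` (`artinMap_relNorm0` + norms of ideals coprime to `𝔪` are coprime to `𝔪`).  The second
inequality `[Cl(F) : N Cl(Ω)] ≤ p` forces `ker ā = N Cl(Ω)`.
-/
import Fermat.Agent.S14.Defs
import Fermat.Agent.S14.SecondInequality
import Fermat.Agent.S14.Artin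
import Fermat.Agent.S14.CR.NormPow
import Fermat.Agent.S14.CR.NormTower

set_option autoImplicit false

open NumberField nonZeroDivisors

namespace Fermat.Agent.S14.CR

section Dedekind

variable {R : Type*} [CommRing R] [IsDedekindDomain R]

/-- (R1) For nonzero ideals `I`, `𝔪` there is `a ≠ 0` with `(a) = I * J`, `J` coprime to `𝔪`. -/
theorem ker_exists_span_eq_mul_coprime (I 𝔪 : Ideal R) (hI : I ≠ ⊥) (h𝔪 : 𝔪 ≠ ⊥) :
    ∃ (a : R) (J : Ideal R), a ≠ 0 ∧ Ideal.span {a} = I * J ∧ IsCoprime J 𝔪 := by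
  have hI𝔪 : I * 𝔪 ≠ 0 := mul_ne_zero hI h𝔪
  obtain ⟨a, ha⟩ := IsDedekindDomain.exists_sup_span_eq (Ideal.mul_le_left : I * 𝔪 ≤ I) hI𝔪
  have haI : Ideal.span {a} ≤ I := by rw [← ha]; exact le_sup_right
  obtain ⟨J, hJ⟩ := Ideal.dvd_iff_le.mpr haI
  have hcop : 𝔪 ⊔ J = ⊤ := by
    have h1 : I * (𝔪 ⊔ J) = I * ⊤ := by
      rw [Ideal.mul_sup, ← hJ, ha, Ideal.mul_top]
    exact mul_left_cancel₀ hI h1
  by_cases ha0 : a = 0
  · -- then `𝔪 = ⊤`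
    have hJ0 : J = ⊥ := by
      have : I * J = ⊥ := by rw [← hJ, ha0]; simp
      rcases mul_eq_zero.mp this with h | h
      · exact absurd h hI
      · exact h
    have h𝔪top : 𝔪 = ⊤ := by simpa [hJ0] using hcop
    obtain ⟨b, hbI, hb0⟩ := Submodule.exists_mem_ne_zero_of_ne_bot hI
    obtain ⟨J', hJ'⟩ := Ideal.dvd_iff_le.mpr ((Ideal.span_singleton_le_iff_mem I).mpr hbI)
    refine ⟨b, J', hb0, hJ', ?_⟩
    rw [h𝔪top, Ideal.isCoprime_iff_sup_eq]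
    simp
  · refine ⟨a, J, ha0, hJ, ?_⟩
    rw [Ideal.isCoprime_iff_sup_eq, sup_comm]
    exact hcop

/-- (R2) Every ideal class contains an integral ideal coprime to a given nonzero ideal. -/
theorem ker_exists_mk0_eq_coprime (c : ClassGroup R) (𝔪 : Ideal R) (h𝔪 : 𝔪 ≠ ⊥) :
    ∃ J : (Ideal R)⁰, ClassGroup.mk0 J = c ∧ IsCoprime (J : Ideal R) 𝔪 := by
  obtain ⟨I, hI⟩ := ClassGroup.mk0_surjective c⁻¹
  have hI0 : (I : Ideal R) ≠ ⊥ := nonZeroDivisors.ne_zero I.2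
  obtain ⟨a, J, ha, haJ, hcop⟩ := ker_exists_span_eq_mul_coprime (I : Ideal R) 𝔪 hI0 h𝔪
  have hJ0 : J ≠ ⊥ := by
    rintro rfl
    apply ha
    have : Ideal.span {a} = ⊥ := by rw [haJ]; simp
    simpa using this
  refine ⟨⟨J, mem_nonZeroDivisors_of_ne_zero hJ0⟩, ?_, hcop⟩
  have h1 : ClassGroup.mk0 (I * ⟨J, mem_nonZeroDivisors_of_ne_zero hJ0⟩) = 1 := by
    have hmem : (I : Ideal R) * J ∈ (Ideal R)⁰ :=
      mem_nonZeroDivisors_of_ne_zero (mul_ne_zero hI0 hJ0)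
    have : (I * ⟨J, mem_nonZeroDivisors_of_ne_zero hJ0⟩ : (Ideal R)⁰) = ⟨(I : Ideal R) * J, hmem⟩ :=
      rfl
    rw [this, ClassGroup.mk0_eq_one_iff hmem, ← haJ]
    exact ⟨⟨a, rfl⟩⟩
  rw [map_mul, hI] at h1
  exact (inv_mul_eq_one.mp h1).symm ▸ rfl

end Dedekind

variable {F Ω : Type*} [Field F] [NumberField F] [Field Ω] [NumberField Ω] [Algebra F Ω]

/-- If `N_{Ω/F} 𝔇 ⊆ 𝔓` (`𝔓` prime) then some prime `𝔔 ⊇ 𝔇` of `Ω` lies over `𝔓`. -/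
theorem ker_exists_prime_ge_of_relNorm_le (𝔇 : Ideal (𝓞 Ω)) (h𝔇 : 𝔇 ≠ ⊥) (𝔓 : Ideal (𝓞 F))
    [h𝔓 : 𝔓.IsPrime] (h : Ideal.relNorm (𝓞 F) 𝔇 ≤ 𝔓) :
    ∃ 𝔔 : Ideal (𝓞 Ω), 𝔔.IsPrime ∧ 𝔇 ≤ 𝔔 ∧ 𝔔.under (𝓞 F) = 𝔓 := by
  revert h
  induction 𝔇 using UniqueFactorizationMonoid.induction_on_prime with
  | h₁ => exact absurd rfl h𝔇
  | h₂ x hx =>
    intro h
    exfalso
    rw [Ideal.isUnit_iff.mp hx, Ideal.relNorm_top] at h
    exact h𝔓.ne_top (top_le_iff.mp h)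
  | h₃ a q ha hq ih =>
    intro h
    have hq0 : q ≠ ⊥ := hq.ne_zero
    have hqP : q.IsPrime := Ideal.isPrime_of_prime hq
    rw [map_mul] at h
    rcases (Ideal.IsPrime.mul_le h𝔓).mp h with h1 | h1
    · have hqmax : q.IsMaximal := Ideal.IsPrime.isMaximal hqP hq0
      have hu0 : q.under (𝓞 F) ≠ ⊥ := fun h0 => hq0 (Ideal.eq_bot_of_comap_eq_bot h0)
      have humax : (q.under (𝓞 F)).IsMaximal := Ideal.IsPrime.isMaximal inferInstance hu0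
      rw [Ideal.relNorm_eq_pow_of_isMaximal q (q.under (𝓞 F))] at h1
      have h2 : q.under (𝓞 F) ≤ 𝔓 := Ideal.IsPrime.le_of_pow_le h1
      exact ⟨q, hqP, Ideal.mul_le_left, humax.eq_of_le h𝔓.ne_top h2⟩
    · obtain ⟨𝔔, h𝔔, hle, hu⟩ := ih ha h1
      exact ⟨𝔔, h𝔔, Ideal.mul_le_right.trans hle, hu⟩

/-- The relative norm of an ideal coprime to `𝔪 𝓞_Ω` is coprime to `𝔪`. -/
theorem ker_isCoprime_relNorm (𝔇 : Ideal (𝓞 Ω)) (h𝔇 : 𝔇 ≠ ⊥) (𝔪 : Ideal (𝓞 F))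
    (h : IsCoprime 𝔇 (𝔪.map (algebraMap (𝓞 F) (𝓞 Ω)))) :
    IsCoprime (Ideal.relNorm (𝓞 F) 𝔇) 𝔪 := by
  rw [Ideal.isCoprime_iff_sup_eq] at h ⊢
  by_contra hne
  obtain ⟨𝔓, hmax, hle⟩ := Ideal.exists_le_maximal _ hne
  have : 𝔓.IsPrime := hmax.isPrime
  obtain ⟨𝔔, h𝔔, h𝔇𝔔, hu⟩ := ker_exists_prime_ge_of_relNorm_le 𝔇 h𝔇 𝔓 (le_sup_left.trans hle)
  have h𝔪𝔔 : 𝔪.map (algebraMap (𝓞 F) (𝓞 Ω)) ≤ 𝔔 := by
    rw [Ideal.map_le_iff_le_comap]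
    have : 𝔪 ≤ 𝔔.under (𝓞 F) := hu ▸ (le_sup_right.trans hle)
    exact this
  apply h𝔔.ne_top
  rw [eq_top_iff, ← h]
  exact sup_le h𝔇𝔔 h𝔪𝔔

section Main

variable [IsAbelianGalois F Ω]

open scoped IsMulCommutative in
/-- (b) The Artin map is constant on the classes of the ideals coprime to `𝔪`. -/
theorem artinMap_eq_of_mk0_eq (𝔪 : Ideal (𝓞 F)) (h𝔪 : 𝔪 ≠ ⊥)
    (hprin : ∀ (x : 𝓞 F) (hx : Ideal.span {x} ∈ (Ideal (𝓞 F))⁰),
      IsCoprime (Ideal.span {x}) 𝔪 → artinMap F Ω ⟨Ideal.span {x}, hx⟩ = 1)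
    (I J : (Ideal (𝓞 F))⁰) (hI : IsCoprime (I : Ideal (𝓞 F)) 𝔪)
    (hJ : IsCoprime (J : Ideal (𝓞 F)) 𝔪) (hIJ : ClassGroup.mk0 I = ClassGroup.mk0 J) :
    artinMap F Ω I = artinMap F Ω J := by
  have hI0 : (I : Ideal (𝓞 F)) ≠ ⊥ := nonZeroDivisors.ne_zero I.2
  have hJ0 : (J : Ideal (𝓞 F)) ≠ ⊥ := nonZeroDivisors.ne_zero J.2
  obtain ⟨a, I', ha, haI, hcop⟩ := ker_exists_span_eq_mul_coprime (I : Ideal (𝓞 F)) 𝔪 hI0 h𝔪
  have hI'0 : I' ≠ ⊥ := by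
    rintro rfl
    apply ha
    have : Ideal.span {a} = ⊥ := by rw [haI]; simp
    simpa using this
  set I'' : (Ideal (𝓞 F))⁰ := ⟨I', mem_nonZeroDivisors_of_ne_zero hI'0⟩ with hI''
  -- `I * I'' = (a)`
  have hmemI : (I : Ideal (𝓞 F)) * I' ∈ (Ideal (𝓞 F))⁰ :=
    mem_nonZeroDivisors_of_ne_zero (mul_ne_zero hI0 hI'0)
  have e1 : I * I'' = ⟨(I : Ideal (𝓞 F)) * I', hmemI⟩ := rfl
  have hmema : Ideal.span {a} ∈ (Ideal (𝓞 F))⁰ := haI ▸ hmemI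
  have e1' : (⟨(I : Ideal (𝓞 F)) * I', hmemI⟩ : (Ideal (𝓞 F))⁰) = ⟨Ideal.span {a}, hmema⟩ :=
    Subtype.ext haI.symm
  have hA1 : artinMap F Ω I * artinMap F Ω I'' = 1 := by
    rw [← map_mul, e1, e1']
    apply hprin a hmema
    rw [haI]
    exact IsCoprime.mul_left hI hcop
  -- `J * I''` is principal
  have hmemJ : (J : Ideal (𝓞 F)) * I' ∈ (Ideal (𝓞 F))⁰ :=
    mem_nonZeroDivisors_of_ne_zero (mul_ne_zero hJ0 hI'0)
  have e2 : J * I'' = ⟨(J : Ideal (𝓞 F)) * I', hmemJ⟩ := rfl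
  have hcls : ClassGroup.mk0 (J * I'') = 1 := by
    rw [map_mul, ← hIJ, ← map_mul, e1, ClassGroup.mk0_eq_one_iff hmemI, ← haI]
    exact ⟨⟨a, rfl⟩⟩
  rw [e2, ClassGroup.mk0_eq_one_iff hmemJ] at hcls
  obtain ⟨⟨b, hb⟩⟩ := hcls
  have hb' : (J : Ideal (𝓞 F)) * I' = Ideal.span {b} := hb
  have hmemb : Ideal.span {b} ∈ (Ideal (𝓞 F))⁰ := hb' ▸ hmemJ
  have e2' : (⟨(J : Ideal (𝓞 F)) * I', hmemJ⟩ : (Ideal (𝓞 F))⁰) = ⟨Ideal.span {b}, hmemb⟩ :=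
    Subtype.ext hb'
  have hA2 : artinMap F Ω J * artinMap F Ω I'' = 1 := by
    rw [← map_mul, e2, e2']
    apply hprin b hmemb
    rw [← hb']
    exact IsCoprime.mul_left hJ hcop
  exact mul_right_cancel (hA1.trans hA2.symm)

open scoped IsMulCommutative in
/-- **CR-ker**: the classes of the ideals coprime to `𝔪` with trivial Artin symbol are norm
classes. -/
theorem mk0_mem_normClasses_of_artinMap_eq_one {p : ℕ} (hp : p.Prime) (hp2 : p ≠ 2)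
    (hdeg : Module.finrank F Ω = p) (ζ : F) (hζ : IsPrimitiveRoot ζ p)
    (hunr : UnramifiedEverywhere F Ω) (𝔪 : Ideal (𝓞 F)) (h𝔪 : 𝔪 ≠ ⊥)
    (hprin : ∀ (x : 𝓞 F) (hx : Ideal.span {x} ∈ (Ideal (𝓞 F))⁰),
      IsCoprime (Ideal.span {x}) 𝔪 → artinMap F Ω ⟨Ideal.span {x}, hx⟩ = 1)
    (hsurj : ∃ I₀ : (Ideal (𝓞 F))⁰, IsCoprime (I₀ : Ideal (𝓞 F)) 𝔪 ∧ artinMap F Ω I₀ ≠ 1)
    (I : (Ideal (𝓞 F))⁰) (hI : IsCoprime (I : Ideal (𝓞 F)) 𝔪) (h1 : artinMap F Ω I = 1) :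
    ClassGroup.mk0 I ∈ normClasses F Ω := by
  classical
  -- representatives coprime to `𝔪`
  choose rep hrep hrepc using fun c : ClassGroup (𝓞 F) => ker_exists_mk0_eq_coprime c 𝔪 h𝔪
  have hb := artinMap_eq_of_mk0_eq (Ω := Ω) 𝔪 h𝔪 hprin
  have hval : ∀ J : (Ideal (𝓞 F))⁰, IsCoprime (J : Ideal (𝓞 F)) 𝔪 →
      artinMap F Ω (rep (ClassGroup.mk0 J)) = artinMap F Ω J := fun J hJ =>
    hb _ _ (hrepc _) hJ (hrep _)
  -- the induced hom on the class group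
  let abar : ClassGroup (𝓞 F) →* (Ω ≃ₐ[F] Ω) :=
    { toFun := fun c => artinMap F Ω (rep c)
      map_one' := by
        have h11 : IsCoprime ((1 : (Ideal (𝓞 F))⁰) : Ideal (𝓞 F)) 𝔪 := by
          rw [Submonoid.coe_one, Ideal.one_eq_top, Ideal.isCoprime_iff_sup_eq]; simp
        have := hval 1 h11
        rw [map_one, map_one] at this
        exact this
      map_mul' := fun c d => by
        have hcd : IsCoprime ((rep c * rep d : (Ideal (𝓞 F))⁰) : Ideal (𝓞 F)) 𝔪 := by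
          rw [Submonoid.coe_mul]
          exact IsCoprime.mul_left (hrepc c) (hrepc d)
        have := hval (rep c * rep d) hcd
        rw [map_mul, hrep, hrep, map_mul] at this
        exact this }
  have habar : ∀ J : (Ideal (𝓞 F))⁰, IsCoprime (J : Ideal (𝓞 F)) 𝔪 →
      abar (ClassGroup.mk0 J) = artinMap F Ω J := hval
  -- `abar` kills the norm classes
  have hN : normClasses F Ω ≤ abar.ker := by
    intro c hc
    obtain ⟨𝔇, rfl⟩ := exists_eq_mk0_relNorm0_of_mem_normClasses F Ω hc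
    have h𝔪Ω : 𝔪.map (algebraMap (𝓞 F) (𝓞 Ω)) ≠ ⊥ := by
      intro h0
      apply h𝔪
      rw [eq_bot_iff]
      intro x hx
      have : algebraMap (𝓞 F) (𝓞 Ω) x ∈ 𝔪.map (algebraMap (𝓞 F) (𝓞 Ω)) := Ideal.mem_map_of_mem _ hx
      rw [h0, Ideal.mem_bot] at this
      exact (Ideal.mem_bot).mpr
        ((injective_iff_map_eq_zero (algebraMap (𝓞 F) (𝓞 Ω))).mp
          (RingOfIntegers.algebraMap.injective F Ω) x this)
    obtain ⟨𝔇', h𝔇', hcop⟩ := ker_exists_mk0_eq_coprime (ClassGroup.mk0 𝔇)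
      (𝔪.map (algebraMap (𝓞 F) (𝓞 Ω))) h𝔪Ω
    have hcls : ClassGroup.mk0 (relNorm0 F Ω 𝔇') = ClassGroup.mk0 (relNorm0 F Ω 𝔇) :=
      mk0_relNorm0_eq_of_mk0_eq F Ω h𝔇'
    have hcopN : IsCoprime ((relNorm0 F Ω 𝔇' : (Ideal (𝓞 F))⁰) : Ideal (𝓞 F)) 𝔪 := by
      rw [coe_relNorm0]
      exact ker_isCoprime_relNorm _ (nonZeroDivisors.ne_zero 𝔇'.2) 𝔪 hcop
    rw [MonoidHom.mem_ker, ← hcls, habar _ hcopN]
    exact artinMap_relNorm0 F Ω hunr 𝔇'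
  -- `abar` is onto a group of prime order
  have : IsGalois F Ω := IsAbelianGalois.toIsGalois
  have hcard : Nat.card (Ω ≃ₐ[F] Ω) = p := by
    rw [IsGalois.card_aut_eq_finrank, hdeg]
  have : Fact (Nat.card (Ω ≃ₐ[F] Ω)).Prime := ⟨hcard ▸ hp⟩
  have hrange : abar.range = ⊤ := by
    obtain ⟨I₀, hI₀c, hI₀⟩ := hsurj
    rcases Subgroup.eq_bot_or_eq_top_of_prime_card abar.range with h | h
    · exfalso
      apply hI₀
      have : abar (ClassGroup.mk0 I₀) ∈ abar.range := ⟨_, rfl⟩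
      rw [h, Subgroup.mem_bot, habar _ hI₀c] at this
      exact this
    · exact h
  have hidx : abar.ker.index = p := by
    rw [Subgroup.index_ker, hrange, Nat.card_congr (Subgroup.topEquiv (G := Ω ≃ₐ[F] Ω)).toEquiv,
      hcard]
  -- second inequality
  have hSI : (normClasses F Ω).index ≤ p :=
    index_normClasses_le F Ω hp hp2 hdeg ζ hζ hunr
  have hfin : (normClasses F Ω).index ≠ 0 := Subgroup.index_ne_zero_of_finite
  have hrel : (normClasses F Ω).relIndex abar.ker * abar.ker.index = (normClasses F Ω).index :=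
    Subgroup.relIndex_mul_index hN
  have hrel1 : (normClasses F Ω).relIndex abar.ker = 1 := by
    rw [hidx] at hrel
    have hle : (normClasses F Ω).relIndex abar.ker * p ≤ 1 * p := by
      rw [hrel, one_mul]; exact hSI
    have h0 : (normClasses F Ω).relIndex abar.ker ≠ 0 := by
      intro h0
      rw [h0, zero_mul] at hrel
      exact hfin hrel.symm
    have := Nat.le_of_mul_le_mul_right hle hp.pos
    omega
  have hker : abar.ker ≤ normClasses F Ω := Subgroup.relIndex_eq_one.mp hrel1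
  apply hker
  rw [MonoidHom.mem_ker, habar I hI, h1]

open scoped IsMulCommutative in
/-- (a) If the ideals coprime to `m` whose absolute norm is a `p`-th power mod `m` have trivial Artin
symbol, and `p ∣ e` for all primes of `F` above `m`, then the principal ideals coprime to `m` have
trivial Artin symbol (helper52's `absNorm_span_isPow_mod`). -/
theorem artinMap_span_eq_one_of_isPow {m p : ℕ} (hm : m.Prime) (hpodd : Odd p)
    (hram : ∀ 𝔐 : Ideal (𝓞 F), 𝔐.IsPrime → (m : 𝓞 F) ∈ 𝔐 → p ∣ 𝔐.ramificationIdx ℤ)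
    (hκ : ∀ I : (Ideal (𝓞 F))⁰, IsCoprime (I : Ideal (𝓞 F)) (Ideal.span {(m : 𝓞 F)}) →
      (∃ y : ZMod m, ((Ideal.absNorm (I : Ideal (𝓞 F)) : ℕ) : ZMod m) = y ^ p) →
      artinMap F Ω I = 1)
    (x : 𝓞 F) (hx : Ideal.span {x} ∈ (Ideal (𝓞 F))⁰)
    (hxm : IsCoprime (Ideal.span {x}) (Ideal.span {(m : 𝓞 F)})) :
    artinMap F Ω ⟨Ideal.span {x}, hx⟩ = 1 :=
  hκ ⟨Ideal.span {x}, hx⟩ hxm (absNorm_span_isPow_mod F hm hram x hxm hpodd)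

open scoped IsMulCommutative in
/-- **Abstract crossing**: in the situation of `mk0_mem_normClasses_of_artinMap_eq_one`, if the
Frobenius elements of two primes `𝔄`, `𝔅` coprime to `𝔪` satisfy `Frob_𝔄 ^ k = Frob_𝔅 ^ i`, then
`[𝔄]^k = [𝔅]^i` modulo `N Cl(Ω)`. -/
theorem mk0_pow_mul_inv_mem_normClasses {p : ℕ} (hp : p.Prime) (hp2 : p ≠ 2)
    (hdeg : Module.finrank F Ω = p) (ζ : F) (hζ : IsPrimitiveRoot ζ p)
    (hunr : UnramifiedEverywhere F Ω) (𝔪 : Ideal (𝓞 F)) (h𝔪 : 𝔪 ≠ ⊥)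
    (hprin : ∀ (x : 𝓞 F) (hx : Ideal.span {x} ∈ (Ideal (𝓞 F))⁰),
      IsCoprime (Ideal.span {x}) 𝔪 → artinMap F Ω ⟨Ideal.span {x}, hx⟩ = 1)
    (𝔄 𝔅 : Ideal (𝓞 F)) [𝔄.IsPrime] [𝔅.IsPrime] (h𝔄 : 𝔄 ≠ ⊥) (h𝔅 : 𝔅 ≠ ⊥)
    (h𝔄m : IsCoprime 𝔄 𝔪) (h𝔅m : IsCoprime 𝔅 𝔪)
    (hne : frobAt F Ω 𝔄 ≠ 1) (k i : ℕ) (hki : frobAt F Ω 𝔄 ^ k = frobAt F Ω 𝔅 ^ i) :
    ClassGroup.mk0 ⟨𝔄, mem_nonZeroDivisors_of_ne_zero h𝔄⟩ ^ k *
      (ClassGroup.mk0 ⟨𝔅, mem_nonZeroDivisors_of_ne_zero h𝔅⟩ ^ i)⁻¹ ∈ normClasses F Ω := by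
  have : IsGalois F Ω := IsAbelianGalois.toIsGalois
  have hcard : Nat.card (Ω ≃ₐ[F] Ω) = p := by
    rw [IsGalois.card_aut_eq_finrank, hdeg]
  set A : (Ideal (𝓞 F))⁰ := ⟨𝔄, mem_nonZeroDivisors_of_ne_zero h𝔄⟩ with hA
  set B : (Ideal (𝓞 F))⁰ := ⟨𝔅, mem_nonZeroDivisors_of_ne_zero h𝔅⟩ with hB
  have hAart : artinMap F Ω A = frobAt F Ω 𝔄 := artinMap_prime F Ω h𝔄
  have hBart : artinMap F Ω B = frobAt F Ω 𝔅 := artinMap_prime F Ω h𝔅
  have hpow : ∀ g : Ω ≃ₐ[F] Ω, g ^ p = 1 := fun g => by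
    rw [← hcard]; exact pow_card_eq_one'
  -- the ideal `𝔄^k 𝔅^((p-1) i)`
  have hcop : IsCoprime ((A ^ k * B ^ ((p - 1) * i) : (Ideal (𝓞 F))⁰) : Ideal (𝓞 F)) 𝔪 := by
    rw [Submonoid.coe_mul, SubmonoidClass.coe_pow, SubmonoidClass.coe_pow]
    exact IsCoprime.mul_left (IsCoprime.pow_left h𝔄m) (IsCoprime.pow_left h𝔅m)
  have hart : artinMap F Ω (A ^ k * B ^ ((p - 1) * i)) = 1 := by
    rw [map_mul, map_pow, map_pow, hAart, hBart, hki, ← pow_add]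
    have : i + (p - 1) * i = p * i := by
      have := hp.one_le
      calc i + (p - 1) * i = (1 + (p - 1)) * i := by ring
        _ = p * i := by rw [Nat.add_sub_cancel' this]
    rw [this, pow_mul, hpow, one_pow]
  have hsurj : ∃ I₀ : (Ideal (𝓞 F))⁰, IsCoprime (I₀ : Ideal (𝓞 F)) 𝔪 ∧ artinMap F Ω I₀ ≠ 1 :=
    ⟨A, h𝔄m, hAart ▸ hne⟩
  have h1 := mk0_mem_normClasses_of_artinMap_eq_one hp hp2 hdeg ζ hζ hunr 𝔪 h𝔪 hprin hsurj
    (A ^ k * B ^ ((p - 1) * i)) hcop hart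
  have h2 : (ClassGroup.mk0 B ^ i) ^ Module.finrank F Ω ∈ normClasses F Ω :=
    pow_finrank_mem_normClasses F Ω _
  rw [map_mul, map_pow, map_pow] at h1
  have h3 := (normClasses F Ω).mul_mem h1 ((normClasses F Ω).inv_mem h2)
  have e : ClassGroup.mk0 A ^ k * ClassGroup.mk0 B ^ ((p - 1) * i) *
      ((ClassGroup.mk0 B ^ i) ^ Module.finrank F Ω)⁻¹ =
      ClassGroup.mk0 A ^ k * (ClassGroup.mk0 B ^ i)⁻¹ := by
    rw [hdeg, mul_assoc]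
    congr 1
    rw [← pow_mul]
    have hp1 := hp.one_le
    have hpi : i * p = (p - 1) * i + i := by
      calc i * p = ((p - 1) + 1) * i := by rw [Nat.sub_add_cancel hp1, mul_comm]
        _ = (p - 1) * i + i := by ring
    rw [hpi, pow_add, mul_inv_rev, ← mul_assoc, mul_comm (ClassGroup.mk0 B ^ ((p - 1) * i)),
      mul_assoc, mul_inv_cancel, mul_one]
  rw [e] at h3
  exact h3

end Main

end Fermat.Agent.S14.CR
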