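/-
T14 package CR (helper22): final assembly of the crossing step.
-/
import Fermat.Agent.S14.RC.Setup
import Fermat.Agent.S14.CR.Coprime
import Fermat.Agent.S14.CR.Kernel
import Fermat.Agent.S14.CR.NormTower
import Fermat.Agent.S14.CR.RamDiv
import Fermat.Agent.S14.CR.CycGalois
import Fermat.Agent.S14.CR.GalSetup
import Fermat.Agent.S14.CR.GalChar
import Fermat.Agent.S14.CR.GalKappa
import Fermat.Agent.S14.CR.GalRam
import Fermat.Agent.S14.CR.GalPrimes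

set_option autoImplicit false

open NumberField nonZeroDivisors

namespace Fermat.Agent.S14.CR

section Theta

variable {G : Type*} [Group G] [Finite G] {p m : ℕ}

/-- A homomorphism from a group of prime order `p` to `CmG m p` with prescribed value on a
generator. -/
theorem exists_theta (hp : p.Prime) (hcard : Nat.card G = p) (σ : G) (hσ : σ ≠ 1)
    (τ : CmG m p) (hτ : τ ≠ 1) :
    ∃ θ : G →* CmG m p, θ σ = τ ∧ Function.Injective θ := by
  have : Fact p.Prime := ⟨hp⟩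
  have hz : ∀ x : G, x ∈ Subgroup.zpowers σ := by
    intro x
    rw [zpowers_eq_top_of_prime_card hcard hσ]
    trivial
  have hoσ : orderOf σ = p := by
    have h1 : orderOf σ ∣ p := by
      rw [← hcard]
      exact orderOf_dvd_natCard σ
    rcases (Nat.dvd_prime hp).mp h1 with h | h
    · exact absurd (orderOf_eq_one_iff.mp h) hσ
    · exact h
  have hoτ : orderOf τ ∣ orderOf σ := by
    rw [hoσ]
    exact orderOf_dvd_of_pow_eq_one (CmG.pow_eq_one τ)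
  refine ⟨monoidHomOfForallMemZpowers hz hoτ, monoidHomOfForallMemZpowers_apply_gen hz hoτ, ?_⟩
  rw [← MonoidHom.ker_eq_bot_iff]
  have : Fact (Nat.card G).Prime := ⟨by rw [hcard]; exact hp⟩
  rcases Subgroup.eq_bot_or_eq_top_of_prime_card (monoidHomOfForallMemZpowers hz hoτ).ker with h | h
  · exact h
  · exfalso
    apply hτ
    have : σ ∈ (monoidHomOfForallMemZpowers hz hoτ).ker := by rw [h]; trivial
    rw [MonoidHom.mem_ker, monoidHomOfForallMemZpowers_apply_gen hz hoτ] at this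
    exact this

end Theta

section Generic

variable {K L M : Type*} [Field K] [NumberField K] [Field L] [NumberField L]
  [Field M] [NumberField M] [Algebra K L] [Algebra L M] [Algebra K M] [IsScalarTower K L M]
  [IsGalois K L] [IsGalois K M] [IsMulCommutative (L ≃ₐ[K] L)]

open scoped IsMulCommutative in
/-- The crossing step for a generic tower `K ⊆ L ⊆ M = L(ζ_m)`. -/
theorem crossing_generic {p : ℕ} (hp : p.Prime) (hp2 : p ≠ 2) (hdeg : Module.finrank K L = p)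
    (hunr : UnramifiedEverywhere K L) (ζp : K) (hζp : IsPrimitiveRoot ζp p)
    (σ : L ≃ₐ[K] L) (hσ : σ ≠ 1)
    (𝔞 𝔟 : Ideal (𝓞 K)) [𝔞.IsPrime] [𝔟.IsPrime] (h𝔞 : 𝔞 ≠ ⊥) (h𝔟 : 𝔟 ≠ ⊥)
    (a b : ℕ) (ha : a.Prime) (hb : b.Prime)
    (hNa : Ideal.absNorm 𝔞 = a) (hNb : Ideal.absNorm 𝔟 = b)
    (i k : ℕ) (hi : ¬ p ∣ i) (hFa : frobAt K L 𝔞 = σ ^ i) (hFb : frobAt K L 𝔟 = σ ^ k)
    (m : ℕ) (hm : m.Prime) [NeZero m] [IsCyclotomicExtension {m} L M]
    (hmp : m % p = 1) (hma : m ≠ a) (hmb : m ≠ b)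
    (hanp : ¬ ∃ y : ZMod m, y ^ p = (a : ZMod m))
    (hab : ∃ y : ZMod m, (a : ZMod m) ^ k = (b : ZMod m) ^ i * y ^ p) :
    ClassGroup.mk0 ⟨𝔞, mem_nonZeroDivisors_of_ne_zero h𝔞⟩ ^ k *
      (ClassGroup.mk0 ⟨𝔟, mem_nonZeroDivisors_of_ne_zero h𝔟⟩ ^ i)⁻¹ ∈ normClasses K L := by
  classical
  have hcard : Nat.card (L ≃ₐ[K] L) = p := by rw [IsGalois.card_aut_eq_finrank, hdeg]
  -- units `a`, `b` mod `m`
  have hcopa : a.Coprime m := (Nat.coprime_primes ha hm).mpr (Ne.symm hma)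
  have hcopb : b.Coprime m := (Nat.coprime_primes hb hm).mpr (Ne.symm hmb)
  set ua : (ZMod m)ˣ := ZMod.unitOfCoprime a hcopa with hua
  set ub : (ZMod m)ˣ := ZMod.unitOfCoprime b hcopb with hub
  have huaa : (ua : ZMod m) = a := ZMod.coe_unitOfCoprime a hcopa
  have hubb : (ub : ZMod m) = b := ZMod.coe_unitOfCoprime b hcopb
  obtain ⟨τ, hτ1, hτi, hτk⟩ := exists_tauG hm hp hmp a b i k ua ub huaa hubb hi hanp hab
  obtain ⟨θ, hθσ, hθinj⟩ := exists_theta (G := L ≃ₐ[K] L) hp hcard σ hσ τ hτ1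
  -- the primitive root
  obtain ⟨ζ, hζ⟩ := IsCyclotomicExtension.exists_isPrimitiveRoot L M (Set.mem_singleton m)
    (NeZero.ne m)
  -- the fields
  set H := galH (K := K) hζ θ with hH
  have hab' : IsAbelianGalois (galF H) (galOmega L H) := isAbelianGalois_galOmega H
  have hunrΩ : UnramifiedEverywhere (galF H) (galOmega L H) := unramifiedEverywhere_galOmega H hunr
  -- the primes
  have hθa : θ (frobAt K L 𝔞) = CmG.mk m p ua := by rw [hFa, map_pow, hθσ, hτi]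
  have hθb : θ (frobAt K L 𝔟) = CmG.mk m p ub := by rw [hFb, map_pow, hθσ, hτk]
  obtain ⟨𝔄, h𝔄p, h𝔄0, h𝔄N, h𝔄rel, h𝔄F⟩ := galPrime hζ θ hunr 𝔞 h𝔞 ua (by rw [huaa, hNa]) hθa
  obtain ⟨𝔅, h𝔅p, h𝔅0, h𝔅N, h𝔅rel, h𝔅F⟩ := galPrime hζ θ hunr 𝔟 h𝔟 ub (by rw [hubb, hNb]) hθb
  haveI := h𝔄p
  haveI := h𝔅p
  -- `σ ^ i ≠ 1`
  have hσi : σ ^ i ≠ 1 := by
    intro h1
    have hoσ : orderOf σ = p := by
      have h2 : orderOf σ ∣ p := by
        rw [← hcard]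
        exact orderOf_dvd_natCard σ
      rcases (Nat.dvd_prime hp).mp h2 with h | h
      · exact absurd (orderOf_eq_one_iff.mp h) hσ
      · exact h
    exact hi (hoσ ▸ orderOf_dvd_of_pow_eq_one h1)
  have hne : frobAt (galF H) (galOmega L H) 𝔄 ≠ 1 := by
    intro h1
    apply hσi
    rw [← hFa, ← h𝔄F, h1, map_one]
  have hdegΩ : Module.finrank (galF H) (galOmega L H) = p :=
    finrank_galOmega H hp hdeg (frobAt (galF H) (galOmega L H) 𝔄) (by rw [h𝔄F, hFa]; exact hσi)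
  have hki : frobAt (galF H) (galOmega L H) 𝔄 ^ k = frobAt (galF H) (galOmega L H) 𝔅 ^ i := by
    apply galRhoBar_injective H
    rw [map_pow, map_pow, h𝔄F, h𝔅F, hFa, hFb, ← pow_mul, ← pow_mul, mul_comm]
  -- `ζ_p ∈ F`
  have hζF : IsPrimitiveRoot (algebraMap K (galF H) ζp) p :=
    hζp.map_of_injective (algebraMap K (galF H)).injective
  -- ramification above `m`
  have hram : ∀ 𝔐 : Ideal (𝓞 (galF H)), 𝔐.IsPrime → (m : 𝓞 (galF H)) ∈ 𝔐 →
      p ∣ 𝔐.ramificationIdx ℤ := by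
    intro 𝔐 h𝔐 hm𝔐
    haveI := h𝔐
    exact dvd_ramificationIdx_of_forall_card_inertia hm ζ hζ
      (fun 𝔔 h𝔔 hm𝔔 => by haveI := h𝔔; exact galRam hζ θ hm hp hmp hunr 𝔔 hm𝔔) 𝔐 hm𝔐
  -- principal ideals prime to `m`
  have hpodd : Odd p := hp.odd_of_ne_two hp2
  have h𝔪 : Ideal.span {(m : 𝓞 (galF H))} ≠ ⊥ := by
    rw [Ne, Ideal.span_singleton_eq_bot]
    exact_mod_cast hm.ne_zero
  have hprin : ∀ (x : 𝓞 (galF H)) (hx : Ideal.span {x} ∈ (Ideal (𝓞 (galF H)))⁰),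
      IsCoprime (Ideal.span {x}) (Ideal.span {(m : 𝓞 (galF H))}) →
      artinMap (galF H) (galOmega L H) ⟨Ideal.span {x}, hx⟩ = 1 := by
    intro x hx hxm
    exact artinMap_span_eq_one_of_isPow hm hpodd hram
      (fun I hI hpow => galKappa hζ θ hunr hθinj I hI hpow) x hx hxm
  have h𝔄m : IsCoprime 𝔄 (Ideal.span {(m : 𝓞 (galF H))}) :=
    isCoprime_span_natCast_of_coprime_absNorm (by rw [h𝔄N, hNa]; exact hcopa)
  have h𝔅m : IsCoprime 𝔅 (Ideal.span {(m : 𝓞 (galF H))}) :=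
    isCoprime_span_natCast_of_coprime_absNorm (by rw [h𝔅N, hNb]; exact hcopb)
  have hmain := mk0_pow_mul_inv_mem_normClasses hp hp2 hdegΩ _ hζF hunrΩ _ h𝔪 hprin 𝔄 𝔅 h𝔄0 h𝔅0
    h𝔄m h𝔅m hne k i hki
  -- push down to `K`
  have hdown := classNorm_mem_normClasses K (galF H) L (galOmega L H) hmain
  rw [map_mul, map_inv, map_pow, map_pow, classNorm_mk0, classNorm_mk0] at hdown
  have e1 : relNorm0 K (galF H) ⟨𝔄, mem_nonZeroDivisors_of_ne_zero h𝔄0⟩ =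
      ⟨𝔞, mem_nonZeroDivisors_of_ne_zero h𝔞⟩ := Subtype.ext h𝔄rel
  have e2 : relNorm0 K (galF H) ⟨𝔅, mem_nonZeroDivisors_of_ne_zero h𝔅0⟩ =
      ⟨𝔟, mem_nonZeroDivisors_of_ne_zero h𝔟⟩ := Subtype.ext h𝔅rel
  rw [e1, e2] at hdown
  exact hdown

end Generic

section Main

variable {p : ℕ} {L : Type} [Field L] [NumberField L] {K : IntermediateField ℚ L}

/-- The crossing step (statement of `Fermat.Agent.S14.crossing_step`). -/
theorem crossing_step_main (h : CATSetting p L K) [IsGalois K L] (σ : L ≃ₐ[K] L) (hσ : σ ≠ 1)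
    (𝔞 𝔟 : Ideal (𝓞 K)) [𝔞.IsPrime] [𝔟.IsPrime] (h𝔞 : 𝔞 ≠ ⊥) (h𝔟 : 𝔟 ≠ ⊥)
    (a b : ℕ) (ha : a.Prime) (hb : b.Prime) (hap : a ≠ p) (hbp : b ≠ p)
    (hNa : Ideal.absNorm 𝔞 = a) (hNb : Ideal.absNorm 𝔟 = b)
    (i k : ℕ) (hi : ¬ p ∣ i) (hFa : frobAt K L 𝔞 = σ ^ i) (hFb : frobAt K L 𝔟 = σ ^ k)
    (m : ℕ) (hm : m.Prime) (hmp : m % p = 1) (hma : m ≠ a) (hmb : m ≠ b)
    (hanp : ¬ ∃ y : ZMod m, y ^ p = (a : ZMod m))
    (hab : ∃ y : ZMod m, (a : ZMod m) ^ k = (b : ZMod m) ^ i * y ^ p) :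
    ClassGroup.mk0 ⟨𝔞, mem_nonZeroDivisors_of_ne_zero h𝔞⟩ ^ k *
      (ClassGroup.mk0 ⟨𝔟, mem_nonZeroDivisors_of_ne_zero h𝔟⟩ ^ i)⁻¹ ∈ normClasses K L := by
  have hp : p.Prime := h.prime
  have hp2 : p ≠ 2 := by have := h.three_le; omega
  haveI : NeZero m := ⟨hm.ne_zero⟩
  haveI : IsAbelianGalois K L := RC.isAbelianGalois h
  haveI : IsGalois K (CyclotomicField m L) :=
    isGalois_of_isCyclotomicExtension_tower K L (CyclotomicField m L) m
  haveI := h.cyclo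
  obtain ⟨ζp, hζp⟩ := IsCyclotomicExtension.exists_isPrimitiveRoot ℚ K (Set.mem_singleton p)
    hp.ne_zero
  exact crossing_generic (M := CyclotomicField m L) hp hp2 h.deg h.unram ζp hζp σ hσ 𝔞 𝔟 h𝔞 h𝔟
    a b ha hb hNa hNb i k hi hFa hFb m hm hmp hma hmb hanp hab

end Main

end Fermat.Agent.S14.CR
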