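/-
T14 package CR (helper22): the ABSTRACT crossing lemma.

`Ω/F` abelian of prime degree `p`, unramified everywhere, `μ_p ⊆ F`.  Assume the Artin symbol of
`Ω/F` is trivial on principal ideals of norm prime to `m` (cyclotomic-lift reciprocity) and on norms
from `Ω`.  Then the Artin symbol is well defined on `Cl(F)`, it is onto as soon as one symbol is
nontrivial, and by the second inequality its kernel is exactly `N Cl(Ω)`.
-/
import Fermat.Agent.S14.Defs
import Fermat.Agent.S14.SecondInequality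
import Fermat.Agent.S14.CR.Coprime
import Fermat.Agent.S14.CR.NormTower

set_option autoImplicit false

open NumberField nonZeroDivisors

namespace Fermat.Agent.S14.CR

section

variable (F Ω : Type*) [Field F] [NumberField F] [Field Ω] [NumberField Ω] [Algebra F Ω]
  [IsAbelianGalois F Ω]

/-- The hypotheses of the abstract crossing lemma. -/
structure CrossHyp (p m : ℕ) : Prop where
  hp : p.Prime
  hp2 : p ≠ 2
  hm : m ≠ 0
  deg : Module.finrank F Ω = p
  unr : UnramifiedEverywhere F Ω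
  zeta : ∃ ζ : F, IsPrimitiveRoot ζ p
  prin : ∀ (x : 𝓞 F) (hx : x ≠ 0), (Ideal.absNorm (Ideal.span {x})).Coprime m →
    artinMap F Ω ⟨Ideal.span {x}, mem_nonZeroDivisors_of_ne_zero
      (by simpa [Ideal.zero_eq_bot, Ideal.span_singleton_eq_bot] using hx)⟩ = 1
  norm : ∀ I : (Ideal (𝓞 Ω))⁰, artinMap F Ω (relNorm0 F Ω I) = 1

variable {F Ω} {p m : ℕ}

/-- Key lemma W: on ideals of norm prime to `m` the Artin symbol only depends on the class. -/
theorem CrossHyp.artinMap_eq_of_mk0_eq (h : CrossHyp F Ω p m) {I J : (Ideal (𝓞 F))⁰}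
    (hI : (Ideal.absNorm (I : Ideal (𝓞 F))).Coprime m)
    (hJ : (Ideal.absNorm (J : Ideal (𝓞 F))).Coprime m)
    (hIJ : ClassGroup.mk0 I = ClassGroup.mk0 J) : artinMap F Ω I = artinMap F Ω J := by
  have hI0 : (I : Ideal (𝓞 F)) ≠ ⊥ := nonZeroDivisors.ne_zero I.2
  have h𝔪 : Ideal.span {(m : 𝓞 F)} ≠ ⊥ := by
    rw [Ne, Ideal.span_singleton_eq_bot]
    exact_mod_cast h.hm
  obtain ⟨a, I', ha, haI, hI'⟩ :=
    exists_span_singleton_eq_mul_coprime (I : Ideal (𝓞 F)) (Ideal.span {(m : 𝓞 F)}) hI0 h𝔪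
  have hI'0 : I' ≠ ⊥ := by
    rintro rfl
    apply ha
    have : Ideal.span {a} = ⊥ := by rw [haI]; simp
    simpa [Ideal.span_singleton_eq_bot] using this
  have hI'c : (Ideal.absNorm I').Coprime m := coprime_absNorm_of_isCoprime_span_natCast hI'0 hI'
  set I'' : (Ideal (𝓞 F))⁰ := ⟨I', mem_nonZeroDivisors_of_ne_zero hI'0⟩ with hI''
  -- `I * I'` is principal
  have hA : artinMap F Ω (I * I'') = 1 := by
    have hx := h.prin a ha (by rw [haI, map_mul]; exact Nat.Coprime.mul_left hI hI'c)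
    have : (⟨Ideal.span {a}, mem_nonZeroDivisors_of_ne_zero
      (by simpa [Ideal.zero_eq_bot, Ideal.span_singleton_eq_bot] using ha)⟩ : (Ideal (𝓞 F))⁰)
        = I * I'' := Subtype.ext haI
    rw [← this]
    exact hx
  -- `J * I'` is principal too
  have hcl : ClassGroup.mk0 (J * I'') = 1 := by
    rw [map_mul, ← hIJ, ← map_mul, ClassGroup.mk0_eq_one_iff]
    show (((I : Ideal (𝓞 F)) * I' : Ideal (𝓞 F))).IsPrincipal
    rw [← haI]
    exact ⟨⟨a, rfl⟩⟩
  rw [ClassGroup.mk0_eq_one_iff] at hcl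
  obtain ⟨b, hb⟩ := hcl.principal
  have hb' : ((J : Ideal (𝓞 F)) * I') = Ideal.span {b} := by
    rw [← Ideal.submodule_span_eq]
    exact hb
  have hb0 : b ≠ 0 := by
    rintro rfl
    have hJ0 : (J : Ideal (𝓞 F)) ≠ ⊥ := nonZeroDivisors.ne_zero J.2
    have : (J : Ideal (𝓞 F)) * I' = ⊥ := by rw [hb']; simp
    rcases mul_eq_zero.mp this with h1 | h1
    · exact hJ0 h1
    · exact hI'0 h1
  have hB : artinMap F Ω (J * I'') = 1 := by
    have hx := h.prin b hb0 (by rw [← hb', map_mul]; exact Nat.Coprime.mul_left hJ hI'c)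
    have : (⟨Ideal.span {b}, mem_nonZeroDivisors_of_ne_zero
      (by simpa [Ideal.zero_eq_bot, Ideal.span_singleton_eq_bot] using hb0)⟩ : (Ideal (𝓞 F))⁰)
        = J * I'' := Subtype.ext hb'.symm
    rw [← this]
    exact hx
  rw [map_mul] at hA hB
  exact mul_right_cancel (hA.trans hB.symm)

/-- A representative of norm prime to `m` of an ideal class. -/
noncomputable def CrossHyp.rep (h : CrossHyp F Ω p m) (c : ClassGroup (𝓞 F)) : (Ideal (𝓞 F))⁰ :=
  (exists_mk0_eq_coprime_absNorm h.hm c).choose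

theorem CrossHyp.mk0_rep (h : CrossHyp F Ω p m) (c : ClassGroup (𝓞 F)) :
    ClassGroup.mk0 (h.rep c) = c :=
  (exists_mk0_eq_coprime_absNorm h.hm c).choose_spec.1

theorem CrossHyp.coprime_rep (h : CrossHyp F Ω p m) (c : ClassGroup (𝓞 F)) :
    (Ideal.absNorm ((h.rep c : (Ideal (𝓞 F))⁰) : Ideal (𝓞 F))).Coprime m :=
  (exists_mk0_eq_coprime_absNorm h.hm c).choose_spec.2

/-- The Artin symbol as a homomorphism on the class group. -/
noncomputable def CrossHyp.artinCl (h : CrossHyp F Ω p m) : ClassGroup (𝓞 F) →* (Ω ≃ₐ[F] Ω) :=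
  MonoidHom.mk' (fun c => artinMap F Ω (h.rep c)) (by
    intro c c'
    rw [← map_mul]
    apply h.artinMap_eq_of_mk0_eq (h.coprime_rep _)
    · rw [Submonoid.coe_mul, map_mul]
      exact Nat.Coprime.mul_left (h.coprime_rep c) (h.coprime_rep c')
    · rw [map_mul, h.mk0_rep, h.mk0_rep, h.mk0_rep])

theorem CrossHyp.artinCl_mk0 (h : CrossHyp F Ω p m) (I : (Ideal (𝓞 F))⁰)
    (hI : (Ideal.absNorm (I : Ideal (𝓞 F))).Coprime m) :
    h.artinCl (ClassGroup.mk0 I) = artinMap F Ω I := by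
  show artinMap F Ω (h.rep (ClassGroup.mk0 I)) = artinMap F Ω I
  exact h.artinMap_eq_of_mk0_eq (h.coprime_rep _) hI (h.mk0_rep _)

theorem CrossHyp.normClasses_le_ker (h : CrossHyp F Ω p m) :
    normClasses F Ω ≤ h.artinCl.ker := by
  rw [normClasses, Subgroup.closure_le]
  rintro _ ⟨𝔇, rfl⟩
  obtain ⟨𝔇', h𝔇', hc⟩ := exists_mk0_eq_coprime_absNorm (F := Ω) h.hm (ClassGroup.mk0 𝔇)
  have hcl : ClassGroup.mk0 (relNorm0 F Ω 𝔇) = ClassGroup.mk0 (relNorm0 F Ω 𝔇') :=
    mk0_relNorm0_eq_of_mk0_eq F Ω h𝔇'.symm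
  have hcop : (Ideal.absNorm ((relNorm0 F Ω 𝔇' : (Ideal (𝓞 F))⁰) : Ideal (𝓞 F))).Coprime m := by
    rw [coe_relNorm0, Ideal.absNorm_relNorm]
    exact hc
  rw [SetLike.mem_coe, MonoidHom.mem_ker, MonoidHom.comp_apply, hcl, h.artinCl_mk0 _ hcop, h.norm]

/-- If one Artin symbol (of an ideal of norm prime to `m`) is nontrivial, the kernel of the Artin
symbol on the class group is exactly `N Cl(Ω)` (second inequality). -/
theorem CrossHyp.ker_artinCl_eq (h : CrossHyp F Ω p m) (𝔄 : (Ideal (𝓞 F))⁰)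
    (h𝔄 : (Ideal.absNorm (𝔄 : Ideal (𝓞 F))).Coprime m) (hne : artinMap F Ω 𝔄 ≠ 1) :
    h.artinCl.ker = normClasses F Ω := by
  have hcard : Nat.card (Ω ≃ₐ[F] Ω) = p := by
    rw [IsGalois.card_aut_eq_finrank, h.deg]
  have : Fact (Nat.card (Ω ≃ₐ[F] Ω)).Prime := ⟨by rw [hcard]; exact h.hp⟩
  have hrange : h.artinCl.range = ⊤ := by
    rcases Subgroup.eq_bot_or_eq_top_of_prime_card (h.artinCl.range) with hb | ht
    · exfalso
      apply hne
      have hmem : artinMap F Ω 𝔄 ∈ h.artinCl.range := ⟨ClassGroup.mk0 𝔄, h.artinCl_mk0 𝔄 h𝔄⟩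
      rw [hb, Subgroup.mem_bot] at hmem
      exact hmem
    · exact ht
  have hidx : h.artinCl.ker.index = p := by
    rw [Subgroup.index_ker, hrange, Subgroup.card_top, hcard]
  obtain ⟨ζ, hζ⟩ := h.zeta
  have hle : (normClasses F Ω).index ≤ p :=
    index_normClasses_le F Ω h.hp h.hp2 h.deg ζ hζ h.unr
  have hdvd : h.artinCl.ker.index ∣ (normClasses F Ω).index :=
    Subgroup.index_dvd_of_le h.normClasses_le_ker
  have hne0 : (normClasses F Ω).index ≠ 0 := Subgroup.index_ne_zero_of_finite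
  have heq : (normClasses F Ω).index = p := by
    rw [hidx] at hdvd
    exact le_antisymm hle (Nat.le_of_dvd (Nat.pos_of_ne_zero hne0) hdvd)
  have hrel := Subgroup.relIndex_mul_index h.normClasses_le_ker
  rw [hidx, heq] at hrel
  have hrel1 : (normClasses F Ω).relIndex h.artinCl.ker = 1 := by
    have hp0 : 0 < p := h.hp.pos
    exact Nat.eq_of_mul_eq_mul_right hp0 (by rw [hrel, one_mul])
  exact le_antisymm (Subgroup.relIndex_eq_one.mp hrel1) h.normClasses_le_ker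

/-- **Abstract crossing lemma.**  If `Frob 𝔄 ≠ 1` and `Frob 𝔄 ^ k = Frob 𝔅 ^ i`, then the class of
`𝔄 ^ k * 𝔅 ^ ((p - 1) * i)` is a norm class. -/
theorem CrossHyp.crossing (h : CrossHyp F Ω p m) (𝔄 𝔅 : (Ideal (𝓞 F))⁰)
    (h𝔄 : (Ideal.absNorm (𝔄 : Ideal (𝓞 F))).Coprime m)
    (h𝔅 : (Ideal.absNorm (𝔅 : Ideal (𝓞 F))).Coprime m)
    (hne : artinMap F Ω 𝔄 ≠ 1) (i k : ℕ)
    (hik : artinMap F Ω 𝔄 ^ k = artinMap F Ω 𝔅 ^ i) :
    ClassGroup.mk0 (𝔄 ^ k * 𝔅 ^ ((p - 1) * i)) ∈ normClasses F Ω := by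
  rw [← h.ker_artinCl_eq 𝔄 h𝔄 hne, MonoidHom.mem_ker, h.artinCl_mk0]
  · have hcard : Nat.card (Ω ≃ₐ[F] Ω) = p := by
      rw [IsGalois.card_aut_eq_finrank, h.deg]
    rw [map_mul, map_pow, map_pow, hik, ← pow_add]
    have : i + (p - 1) * i = p * i := by
      have hp1 : 1 ≤ p := h.hp.one_lt.le
      calc i + (p - 1) * i = (1 + (p - 1)) * i := by ring
        _ = p * i := by rw [Nat.add_sub_cancel' hp1]
    rw [this, pow_mul, ← hcard, pow_card_eq_one', one_pow]
  · rw [Submonoid.coe_mul, map_mul, SubmonoidClass.coe_pow, SubmonoidClass.coe_pow, map_pow,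
      map_pow]
    exact Nat.Coprime.mul_left (Nat.Coprime.pow_left _ h𝔄) (Nat.Coprime.pow_left _ h𝔅)

end

end Fermat.Agent.S14.CR
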