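/-
T14 package CR: a prime `𝔞` of `K` with `θ(Frob 𝔞) = [N𝔞]` has a prime `𝔄` of `F` above it of
degree one whose Frobenius in `Ω/F` restricts to `Frob 𝔞`.
-/
import Fermat.Agent.S14.CR.GalChar
import Fermat.Agent.S14.CR.CycFrob
import Fermat.Agent.S14.CR.CycGalois
import Fermat.Agent.S14.CR.FixedFrob

set_option autoImplicit false
set_option linter.unusedSectionVars false
set_option linter.style.haveILetI false
set_option linter.unusedVariables false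

open NumberField nonZeroDivisors

namespace Fermat.Agent.S14.CR

section

variable {K L M : Type*} [Field K] [NumberField K] [Field L] [NumberField L]
  [Field M] [NumberField M] [Algebra K L] [Algebra L M] [Algebra K M] [IsScalarTower K L M]
  [IsGalois K L] [IsGalois K M]
  {m : ℕ} [NeZero m] [IsCyclotomicExtension {m} L M] {ζ : M} (hζ : IsPrimitiveRoot ζ m)
  {p : ℕ} (θ : (L ≃ₐ[K] L) →* CmG m p)

theorem galPrime [IsMulCommutative (L ≃ₐ[K] L)] (hunr : UnramifiedEverywhere K L)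
    [IsAbelianGalois (galF (galH hζ θ)) (galOmega L (galH hζ θ))]
    (𝔞 : Ideal (𝓞 K)) [𝔞.IsPrime] (h𝔞 : 𝔞 ≠ ⊥) (ua : (ZMod m)ˣ)
    (hua : (ua : ZMod m) = (Ideal.absNorm 𝔞 : ZMod m))
    (hθa : θ (frobAt K L 𝔞) = CmG.mk m p ua) :
    ∃ 𝔄 : Ideal (𝓞 (galF (galH hζ θ))), 𝔄.IsPrime ∧ 𝔄 ≠ ⊥ ∧
      Ideal.absNorm 𝔄 = Ideal.absNorm 𝔞 ∧ Ideal.relNorm (𝓞 K) 𝔄 = 𝔞 ∧
      galRhoBar (galH hζ θ) (frobAt (galF (galH hζ θ)) (galOmega L (galH hζ θ)) 𝔄) =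
        frobAt K L 𝔞 := by
  haveI : IsAbelianGalois K L := { }
  -- a prime of `M` above `𝔞` and its Frobenius over `K`
  obtain ⟨𝔔, h𝔔p, h𝔔, hunder, hs⟩ := frobAt_spec' K M h𝔞
  haveI := h𝔔p
  set s := frobAt K M 𝔞 with hsdef
  -- `m ∉ 𝔔`
  have hcop : (Ideal.absNorm 𝔞).Coprime m := by
    rw [← ZMod.isUnit_iff_coprime, ← hua]
    exact ua.isUnit
  have hm𝔔 : (m : 𝓞 M) ∉ 𝔔 := by
    intro hmem
    have h1 : (m : 𝓞 K) ∈ 𝔞 := by
      rw [← hunder, Ideal.under_def, Ideal.mem_comap, map_natCast]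
      exact hmem
    have h2 : ((Ideal.absNorm 𝔞 : ℕ) : 𝓞 K) ∈ 𝔞 := Ideal.absNorm_mem 𝔞
    have h3 : ((1 : ℕ) : 𝓞 K) ∈ 𝔞 := by
      have hg : Nat.gcd (Ideal.absNorm 𝔞) m = 1 := hcop
      rw [← hg]
      have := Nat.gcd_eq_gcd_ab (Ideal.absNorm 𝔞) m
      have hcast : ((Nat.gcd (Ideal.absNorm 𝔞) m : ℕ) : 𝓞 K) =
          ((Ideal.absNorm 𝔞 : ℕ) : 𝓞 K) * ((Nat.gcdA (Ideal.absNorm 𝔞) m : ℤ) : 𝓞 K) +
          ((m : ℕ) : 𝓞 K) * ((Nat.gcdB (Ideal.absNorm 𝔞) m : ℤ) : 𝓞 K) := by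
        have := congrArg (fun z : ℤ => (z : 𝓞 K)) this
        push_cast at this
        exact_mod_cast this
      rw [hcast]
      exact 𝔞.add_mem (𝔞.mul_mem_right _ h2) (𝔞.mul_mem_right _ h1)
    rw [Nat.cast_one] at h3
    exact (Ideal.IsPrime.ne_top inferInstance) ((Ideal.eq_top_iff_one 𝔞).2 h3)
  -- the action of `s` on `ζ`
  have hsζ : s ζ = ζ ^ Ideal.absNorm 𝔞 := by
    have := frob_zeta K M s 𝔔 h𝔔 hs hm𝔔 ζ hζ.pow_eq_one
    rwa [hunder] at this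
  have hχ : galChi (K := K) hζ s = ua := by
    apply Units.ext
    rw [hua]
    exact autToPow_eq_of_apply K M hζ s (Ideal.absNorm 𝔞) hsζ
  -- the restriction of `s` to `L` is `Frob 𝔞`
  have hsL : s.restrictNormal L = frobAt K L 𝔞 := by
    have h1 : IsArithFrobAt (𝓞 K) (s.restrictNormal L) (𝔔.under (𝓞 L)) :=
      isArithFrobAt_restrictNormal hs
    have h𝔔L : 𝔔.under (𝓞 L) ≠ ⊥ := fun h0 => h𝔔 (Ideal.eq_bot_of_comap_eq_bot h0)
    have h2 := eq_frobAt_of_isArithFrobAt K L hunr (𝔔.under (𝓞 L)) h𝔔L _ h1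
    rw [Ideal.under_under, hunder] at h2
    exact h2
  -- `s ∈ H`
  have hsH : s ∈ galH hζ θ := by
    rw [mem_galH_iff, hχ, hsL, hθa]
  set H := galH hζ θ with hH
  -- `s` fixes `F`
  have hfix : ∀ x : galF H, s (algebraMap (galF H) M x) = algebraMap (galF H) M x := by
    intro x
    have hx := x.2
    rw [IntermediateField.mem_fixedField_iff] at hx
    exact hx s hsH
  set t := galLift H s hsH with ht
  have htF : IsArithFrobAt (𝓞 (galF H)) t 𝔔 :=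
    isArithFrobAt_of_fixes s 𝔔 h𝔔 hs hfix t (fun x => rfl)
  refine ⟨𝔔.under (𝓞 (galF H)), inferInstance, under_ne_bot_of_ne_bot 𝔔 h𝔔, ?_, ?_, ?_⟩
  · rw [absNorm_under_eq_of_fixes s 𝔔 h𝔔 hs hfix, hunder]
  · rw [relNorm_under_eq_of_fixes s 𝔔 h𝔔 hs hfix, hunder]
  · -- Frobenius of `𝔄` in `Ω/F`
    have h1 : IsArithFrobAt (𝓞 (galF H)) (t.restrictNormal (galOmega L H))
        (𝔔.under (𝓞 (galOmega L H))) := isArithFrobAt_restrictNormal htF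
    have h𝔔Ω : 𝔔.under (𝓞 (galOmega L H)) ≠ ⊥ := fun h0 => h𝔔 (Ideal.eq_bot_of_comap_eq_bot h0)
    have h2 := eq_frobAt_of_isArithFrobAt (galF H) (galOmega L H)
      (unramifiedEverywhere_galOmega H hunr) (𝔔.under (𝓞 (galOmega L H))) h𝔔Ω _ h1
    rw [Ideal.under_under] at h2
    rw [← h2, galRhoBar_restrictNormal, ht, galRho_galLift, hsL]

end

end Fermat.Agent.S14.CR
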