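/-
T14 package CR: HEDGE (helper12) of the final assembly of the crossing step, coded against the four
`CR/Gal*` statements (`galPrime`, `galKappa`, `galRam`, `GalAbelian`) + `GalSetup`/`GalChar`/`Kernel`.
-/
import Fermat.Agent.S14.CR.GalPrimes
import Fermat.Agent.S14.CR.GalKappa
import Fermat.Agent.S14.CR.GalRam
import Fermat.Agent.S14.CR.GalAbelian
import Fermat.Agent.S14.CR.Kernel
import Fermat.Agent.S14.CR.CycGalois
import Fermat.Agent.S14.CR.NormTower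
import Fermat.Agent.S14.CR.Coprime

set_option autoImplicit false

open NumberField nonZeroDivisors

namespace Fermat.Agent.S14.CR.H12

open Fermat.Agent.S14 Fermat.Agent.S14.CR

/-- (B) In a group of prime order `p`, a nontrivial element `σ` can be sent to any `τ ≠ 1` with
`τ ^ p = 1` by an injective homomorphism. -/
theorem exists_theta {G : Type*} [Group G] {p : ℕ} (hp : p.Prime) (hcard : Nat.card G = p)
    (σ : G) (hσ : σ ≠ 1) {C : Type*} [Group C] (τ : C) (hτ : τ ≠ 1) (hτp : τ ^ p = 1) :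
    ∃ θ : G →* C, θ σ = τ ∧ Function.Injective θ := by
  haveI : Fact p.Prime := ⟨hp⟩
  have hz : ∀ x : G, x ∈ Subgroup.zpowers σ := by
    intro x
    rw [zpowers_eq_top_of_prime_card hcard hσ]
    exact Subgroup.mem_top x
  have hoσ : orderOf σ = p := by
    rw [orderOf_eq_card_of_forall_mem_zpowers hz, hcard]
  have hoτ : orderOf τ ∣ orderOf σ := by
    rw [hoσ]
    exact orderOf_dvd_of_pow_eq_one hτp
  refine ⟨monoidHomOfForallMemZpowers hz hoτ, monoidHomOfForallMemZpowers_apply_gen hz hoτ, ?_⟩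
  set θ := monoidHomOfForallMemZpowers hz hoτ with hθ
  have hθσ : θ σ = τ := monoidHomOfForallMemZpowers_apply_gen hz hoτ
  haveI : Fact (Nat.card G).Prime := ⟨by rw [hcard]; exact hp⟩
  rw [← MonoidHom.ker_eq_bot_iff]
  rcases Subgroup.eq_bot_or_eq_top_of_prime_card θ.ker with hb | ht
  · exact hb
  · exfalso
    apply hτ
    have : σ ∈ θ.ker := by rw [ht]; exact Subgroup.mem_top σ
    rw [MonoidHom.mem_ker, hθσ] at this
    exact this

/-- a group of prime order is commutative. -/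
theorem isMulCommutative_of_prime_card {G : Type*} [Group G] {p : ℕ} (hp : p.Prime)
    (hcard : Nat.card G = p) : IsMulCommutative G := by
  haveI : Fact p.Prime := ⟨hp⟩
  have hc : IsCyclic G := isCyclic_of_prime_card hcard
  letI := IsCyclic.commGroup (α := G)
  exact ⟨⟨mul_comm⟩⟩

section Generic

/-- The crossing step for a generic tower `K → L → M = L(ζ_m)`. -/
theorem crossing_generic {K L : Type*} (M : Type*) [Field K] [NumberField K] [Field L]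
    [NumberField L] [Field M] [NumberField M] [Algebra K L] [Algebra L M] [Algebra K M]
    [IsScalarTower K L M] [IsGalois K L] [IsGalois K M]
    {m : ℕ} [NeZero m] [IsCyclotomicExtension {m} L M] {p : ℕ}
    (hp : p.Prime) (hp2 : p ≠ 2) (hdeg : Module.finrank K L = p)
    (hunr : UnramifiedEverywhere K L) (ζp : K) (hζp : IsPrimitiveRoot ζp p)
    (σ : L ≃ₐ[K] L) (hσ : σ ≠ 1)
    (𝔞 𝔟 : Ideal (𝓞 K)) [𝔞.IsPrime] [𝔟.IsPrime] (h𝔞 : 𝔞 ≠ ⊥) (h𝔟 : 𝔟 ≠ ⊥)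
    (a b : ℕ) (ha : a.Prime) (hb : b.Prime)
    (hNa : Ideal.absNorm 𝔞 = a) (hNb : Ideal.absNorm 𝔟 = b)
    (i k : ℕ) (hi : ¬ p ∣ i) (hFa : frobAt K L 𝔞 = σ ^ i) (hFb : frobAt K L 𝔟 = σ ^ k)
    (hm : m.Prime) (hmp : m % p = 1) (hma : m ≠ a) (hmb : m ≠ b)
    (hanp : ¬ ∃ y : ZMod m, y ^ p = (a : ZMod m))
    (hab : ∃ y : ZMod m, (a : ZMod m) ^ k = (b : ZMod m) ^ i * y ^ p) :
    ClassGroup.mk0 ⟨𝔞, mem_nonZeroDivisors_of_ne_zero h𝔞⟩ ^ k *
      (ClassGroup.mk0 ⟨𝔟, mem_nonZeroDivisors_of_ne_zero h𝔟⟩ ^ i)⁻¹ ∈ normClasses K L := by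
  classical
  have hcardG : Nat.card (L ≃ₐ[K] L) = p := by rw [IsGalois.card_aut_eq_finrank, hdeg]
  haveI : IsMulCommutative (L ≃ₐ[K] L) := isMulCommutative_of_prime_card hp hcardG
  -- the units `a`, `b` mod `m`
  have hcam : Nat.Coprime a m := (Nat.coprime_primes ha hm).mpr (Ne.symm hma)
  have hcbm : Nat.Coprime b m := (Nat.coprime_primes hb hm).mpr (Ne.symm hmb)
  set ua : (ZMod m)ˣ := ZMod.unitOfCoprime a hcam with hua_def
  set ub : (ZMod m)ˣ := ZMod.unitOfCoprime b hcbm with hub_def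
  have hua : (ua : ZMod m) = a := ZMod.coe_unitOfCoprime a hcam
  have hub : (ub : ZMod m) = b := ZMod.coe_unitOfCoprime b hcbm
  obtain ⟨τ, hτ1, hτi, hτk⟩ := exists_tauG hm hp hmp a b i k ua ub hua hub hi hanp hab
  obtain ⟨θ, hθσ, hθinj⟩ := exists_theta hp hcardG σ hσ τ hτ1 (CmG.pow_eq_one τ)
  obtain ⟨ζ, hζ⟩ := IsCyclotomicExtension.exists_isPrimitiveRoot L M (Set.mem_singleton m)
    (NeZero.ne m)
  haveI : IsAbelianGalois (galF (galH (K := K) hζ θ)) (galOmega L (galH (K := K) hζ θ)) :=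
    isAbelianGalois_galOmega (L := L) (galH (K := K) hζ θ)
  -- the two degree-one primes of `F`
  have hθa : θ (frobAt K L 𝔞) = CmG.mk m p ua := by rw [hFa, map_pow, hθσ, hτi]
  have hθb : θ (frobAt K L 𝔟) = CmG.mk m p ub := by rw [hFb, map_pow, hθσ, hτk]
  obtain ⟨𝔄, h𝔄prime, h𝔄0, hN𝔄, hrel𝔄, hρ𝔄⟩ :=
    galPrime hζ θ hunr 𝔞 h𝔞 ua (by rw [hua, hNa]) hθa
  obtain ⟨𝔅, h𝔅prime, h𝔅0, hN𝔅, hrel𝔅, hρ𝔅⟩ :=
    galPrime hζ θ hunr 𝔟 h𝔟 ub (by rw [hub, hNb]) hθb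
  haveI := h𝔄prime
  haveI := h𝔅prime
  -- `σ ^ i ≠ 1`
  haveI : Fact p.Prime := ⟨hp⟩
  have hoσ : orderOf σ = p := by
    have hz : ∀ x : L ≃ₐ[K] L, x ∈ Subgroup.zpowers σ := by
      intro x
      rw [zpowers_eq_top_of_prime_card hcardG hσ]
      exact Subgroup.mem_top x
    rw [orderOf_eq_card_of_forall_mem_zpowers hz, hcardG]
  have hσi : σ ^ i ≠ 1 := by
    intro h1
    apply hi
    rw [← hoσ]
    exact orderOf_dvd_of_pow_eq_one h1
  have hne : frobAt (galF (galH (K := K) hζ θ)) (galOmega L (galH (K := K) hζ θ)) 𝔄 ≠ 1 := by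
    intro h1
    apply hσi
    rw [← hFa, ← hρ𝔄, h1, map_one]
  have hdegΩ : Module.finrank (galF (galH (K := K) hζ θ)) (galOmega L (galH (K := K) hζ θ)) = p :=
    finrank_galOmega (galH (K := K) hζ θ) hp hdeg _ (by rw [hρ𝔄, hFa]; exact hσi)
  have hki : frobAt (galF (galH (K := K) hζ θ)) (galOmega L (galH (K := K) hζ θ)) 𝔄 ^ k =
      frobAt (galF (galH (K := K) hζ θ)) (galOmega L (galH (K := K) hζ θ)) 𝔅 ^ i := by
    apply galRhoBar_injective (L := L) (galH (K := K) hζ θ)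
    rw [map_pow, map_pow, hρ𝔄, hρ𝔅, hFa, hFb, ← pow_mul, ← pow_mul, mul_comm]
  -- `ζ_p ∈ F`
  have hζF : IsPrimitiveRoot (algebraMap K (galF (galH (K := K) hζ θ)) ζp) p :=
    hζp.map_of_injective (algebraMap K (galF (galH (K := K) hζ θ))).injective
  have hunrΩ := unramifiedEverywhere_galOmega (L := L) (galH (K := K) hζ θ) hunr
  -- the modulus
  have h𝔪 : Ideal.span {(m : 𝓞 (galF (galH (K := K) hζ θ)))} ≠ ⊥ := by
    rw [Ne, Ideal.span_singleton_eq_bot]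
    exact_mod_cast hm.ne_zero
  have hpodd : Odd p := hp.odd_of_ne_two hp2
  have hram : ∀ 𝔐 : Ideal (𝓞 (galF (galH (K := K) hζ θ))), 𝔐.IsPrime →
      (m : 𝓞 (galF (galH (K := K) hζ θ))) ∈ 𝔐 → p ∣ 𝔐.ramificationIdx ℤ := by
    intro 𝔐 h𝔐 hm𝔐
    haveI := h𝔐
    exact dvd_ramificationIdx_of_forall_card_inertia (F := galF (galH (K := K) hζ θ)) (M := M)
      hm ζ hζ (fun 𝔐' h𝔐' hmem => by
        haveI := h𝔐'
        exact galRam hζ θ hm hp hmp hunr 𝔐' hmem) 𝔐 hm𝔐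
  have hprin : ∀ (x : 𝓞 (galF (galH (K := K) hζ θ)))
      (hx : Ideal.span {x} ∈ (Ideal (𝓞 (galF (galH (K := K) hζ θ))))⁰),
      IsCoprime (Ideal.span {x}) (Ideal.span {(m : 𝓞 (galF (galH (K := K) hζ θ)))}) →
      artinMap (galF (galH (K := K) hζ θ)) (galOmega L (galH (K := K) hζ θ))
        ⟨Ideal.span {x}, hx⟩ = 1 := by
    intro x hx hxm
    exact artinMap_span_eq_one_of_isPow hm hpodd hram
      (fun I hI hpow => galKappa hζ θ hunr hθinj I hI hpow) x hx hxm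
  -- coprimality of `𝔄`, `𝔅` to `m`
  have h𝔄m : IsCoprime 𝔄 (Ideal.span {(m : 𝓞 (galF (galH (K := K) hζ θ)))}) :=
    isCoprime_span_natCast_of_coprime_absNorm (by rw [hN𝔄, hNa]; exact hcam)
  have h𝔅m : IsCoprime 𝔅 (Ideal.span {(m : 𝓞 (galF (galH (K := K) hζ θ)))}) :=
    isCoprime_span_natCast_of_coprime_absNorm (by rw [hN𝔅, hNb]; exact hcbm)
  have main := mk0_pow_mul_inv_mem_normClasses hp hp2 hdegΩ _ hζF hunrΩ _ h𝔪 hprin 𝔄 𝔅 h𝔄0 h𝔅0
    h𝔄m h𝔅m hne k i hki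
  -- push down along `N_{F/K}`
  have hdown := classNorm_mem_normClasses K (galF (galH (K := K) hζ θ)) L
    (galOmega L (galH (K := K) hζ θ)) main
  have hA : relNorm0 K (galF (galH (K := K) hζ θ)) ⟨𝔄, mem_nonZeroDivisors_of_ne_zero h𝔄0⟩ =
      ⟨𝔞, mem_nonZeroDivisors_of_ne_zero h𝔞⟩ := Subtype.ext hrel𝔄
  have hB : relNorm0 K (galF (galH (K := K) hζ θ)) ⟨𝔅, mem_nonZeroDivisors_of_ne_zero h𝔅0⟩ =
      ⟨𝔟, mem_nonZeroDivisors_of_ne_zero h𝔟⟩ := Subtype.ext hrel𝔅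
  rw [map_mul, map_inv, map_pow, map_pow, classNorm_mk0, classNorm_mk0, hA, hB] at hdown
  exact hdown

end Generic

section Final

variable {p : ℕ} {L : Type} [Field L] [NumberField L] {K : IntermediateField ℚ L}

/-- **Crossing step** (same statement as `Fermat.Agent.S14.crossing_step`). -/
theorem crossing_step' (h : CATSetting p L K) [IsGalois K L] (σ : L ≃ₐ[K] L) (hσ : σ ≠ 1)
    (𝔞 𝔟 : Ideal (𝓞 K)) [𝔞.IsPrime] [𝔟.IsPrime] (h𝔞 : 𝔞 ≠ ⊥) (h𝔟 : 𝔟 ≠ ⊥)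
    (a b : ℕ) (ha : a.Prime) (hb : b.Prime) (hap : a ≠ p) (hbp : b ≠ p)
    (hNa : Ideal.absNorm 𝔞 = a) (hNb : Ideal.absNorm 𝔟 = b)
    (i k : ℕ) (hi : ¬ p ∣ i) (hFa : frobAt K L 𝔞 = σ ^ i) (hFb : frobAt K L 𝔟 = σ ^ k)
    (m : ℕ) (hm : m.Prime) (hmp : m % p = 1) (hma : m ≠ a) (hmb : m ≠ b)
    (hanp : ¬ ∃ y : ZMod m, y ^ p = (a : ZMod m))
    (hab : ∃ y : ZMod m, (a : ZMod m) ^ k = (b : ZMod m) ^ i * y ^ p) :
    ClassGroup.mk0 ⟨𝔞, mem_nonZeroDivisors_of_ne_zero h𝔞⟩ ^ k *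
      (ClassGroup.mk0 ⟨𝔟, mem_nonZeroDivisors_of_ne_zero h𝔟⟩ ^ i)⁻¹ ∈ normClasses K L := by
  haveI : NeZero m := ⟨hm.ne_zero⟩
  haveI : IsGalois K (CyclotomicField m L) :=
    isGalois_of_isCyclotomicExtension_tower K L (CyclotomicField m L) m
  have hp2 : p ≠ 2 := by
    have := h.three_le
    omega
  haveI := h.cyclo
  obtain ⟨ζp, hζp⟩ := IsCyclotomicExtension.exists_isPrimitiveRoot ℚ K (Set.mem_singleton p)
    h.prime.ne_zero
  have hunr : UnramifiedEverywhere K L := by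
    convert h.unram
  exact crossing_generic (CyclotomicField m L) h.prime hp2 h.deg hunr ζp hζp σ hσ 𝔞 𝔟 h𝔞 h𝔟 a b
    ha hb hNa hNb i k hi hFa hFb hm hmp hma hmb hanp hab

end Final

end Fermat.Agent.S14.CR.H12
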