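/-
T14 package CR, hedge for `CR/GalPrimes.lean` (helper19): same statement as the skeleton `galPrime`,
under the primed name `galPrime'`.

A prime `𝔞` of `K` with `θ(Frob 𝔞) = [N𝔞]` has a prime `𝔄` of `F = M^H` above it of degree one whose
Frobenius in `Ω/F` restricts to `Frob 𝔞`.
-/
import Fermat.Agent.S14.CR.GalChar
import Fermat.Agent.S14.CR.CycFrob
import Fermat.Agent.S14.CR.CycGalois
import Fermat.Agent.S14.CR.FrobTower

set_option autoImplicit false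

open NumberField nonZeroDivisors

namespace Fermat.Agent.S14.CR

section

variable {K L M : Type*} [Field K] [NumberField K] [Field L] [NumberField L]
  [Field M] [NumberField M] [Algebra K L] [Algebra L M] [Algebra K M] [IsScalarTower K L M]
  [IsGalois K L] [IsGalois K M]
  {m : ℕ} [NeZero m] [IsCyclotomicExtension {m} L M] {ζ : M} (hζ : IsPrimitiveRoot ζ m)
  {p : ℕ} (θ : (L ≃ₐ[K] L) →* CmG m p)

omit [NumberField K] in
/-- If `N` is a unit mod `m` and `N ∈ 𝔞 ≠ ⊤`, then `m ∉ 𝔞`. -/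
lemma natCast_not_mem_of_isUnit {R : Type*} [CommRing R] (𝔞 : Ideal R) (h𝔞 : 𝔞 ≠ ⊤) {N m : ℕ}
    (hN : (N : R) ∈ 𝔞) (hu : IsUnit (N : ZMod m)) : (m : R) ∉ 𝔞 := by
  intro hm
  apply h𝔞
  rw [Ideal.eq_top_iff_one]
  have hcop : Nat.Coprime N m := (ZMod.isUnit_iff_coprime N m).1 hu
  have h1 : (1 : ℤ) = N * Nat.gcdA N m + m * Nat.gcdB N m := by
    have := Nat.gcd_eq_gcd_ab N m
    rw [hcop.gcd_eq_one] at this
    exact_mod_cast this
  have h2 : (1 : R) = (N : R) * ((Nat.gcdA N m : ℤ) : R) + (m : R) * ((Nat.gcdB N m : ℤ) : R) := by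
    have := congrArg (fun z : ℤ => (z : R)) h1
    simpa using this
  rw [h2]
  exact add_mem (Ideal.mul_mem_right _ _ hN) (Ideal.mul_mem_right _ _ hm)

theorem galPrime' [IsMulCommutative (L ≃ₐ[K] L)] (hunr : UnramifiedEverywhere K L)
    [IsAbelianGalois (galF (galH hζ θ)) (galOmega L (galH hζ θ))]
    (𝔞 : Ideal (𝓞 K)) [𝔞.IsPrime] (h𝔞 : 𝔞 ≠ ⊥) (ua : (ZMod m)ˣ)
    (hua : (ua : ZMod m) = (Ideal.absNorm 𝔞 : ZMod m))
    (hθa : θ (frobAt K L 𝔞) = CmG.mk m p ua) :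
    ∃ 𝔄 : Ideal (𝓞 (galF (galH hζ θ))), 𝔄.IsPrime ∧ 𝔄 ≠ ⊥ ∧
      Ideal.absNorm 𝔄 = Ideal.absNorm 𝔞 ∧ Ideal.relNorm (𝓞 K) 𝔄 = 𝔞 ∧
      galRhoBar (galH hζ θ) (frobAt (galF (galH hζ θ)) (galOmega L (galH hζ θ)) 𝔄) =
        frobAt K L 𝔞 := by
  classical
  have hKL : IsAbelianGalois K L :=
    { toIsGalois := inferInstance, toIsMulCommutative := inferInstance }
  -- a prime `𝔔` of `M` above `𝔞` and a Frobenius element `s` at `𝔔`
  obtain ⟨𝔔, h𝔔prime, h𝔔0, h𝔔u⟩ := exists_prime_over K M h𝔞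
  have : Finite (𝓞 M ⧸ 𝔔) := Ideal.finiteQuotientOfFreeOfNeBot 𝔔 h𝔔0
  set s : M ≃ₐ[K] M := arithFrobAt (𝓞 K) (M ≃ₐ[K] M) 𝔔 with hsdef
  have hs : IsArithFrobAt (𝓞 K) s 𝔔 := IsArithFrobAt.arithFrobAt (𝓞 K) (M ≃ₐ[K] M) 𝔔
  -- `m ∉ 𝔔`
  have hm𝔞 : (m : 𝓞 K) ∉ 𝔞 := by
    refine natCast_not_mem_of_isUnit 𝔞 (Ideal.IsPrime.ne_top inferInstance)
      (Ideal.absNorm_mem 𝔞) ?_
    rw [← hua]
    exact ua.isUnit
  have hm𝔔 : (m : 𝓞 M) ∉ 𝔔 := by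
    rw [← CRCyc.natCast_mem_under_iff (K := K), h𝔔u]
    exact hm𝔞
  -- the cyclotomic character of `s`
  have hsζ : s ζ = ζ ^ Ideal.absNorm 𝔞 := by
    rw [CRCyc.isArithFrobAt_apply_zeta hs hζ.pow_eq_one hm𝔔, h𝔔u]
  have hχ : galChi (K := K) hζ s = ua := by
    apply Units.ext
    rw [hua]
    exact autToPow_eq_of_apply K M hζ s _ hsζ
  -- the restriction of `s` to `L`
  have hsL : s.restrictNormal L = frobAt K L 𝔞 := by
    have h1 : IsArithFrobAt (𝓞 K) (s.restrictNormal L) (𝔔.under (𝓞 L)) :=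
      isArithFrobAt_restrictNormal (Ω := L) hs
    have hu : (𝔔.under (𝓞 L)).under (𝓞 K) = 𝔞 := by rw [Ideal.under_under, h𝔔u]
    have h0 : 𝔔.under (𝓞 L) ≠ ⊥ := by
      intro h
      apply h𝔞
      rw [← hu, h]
      exact Ideal.under_bot (𝓞 K) (𝓞 L)
    have h2 := frobAt_eq_of_isArithFrobAt h0 (hunr.inertia_eq_bot _ h0) h1
    rw [hu] at h2
    exact h2.symm
  -- `s ∈ H`
  have hsH : s ∈ galH hζ θ := by
    rw [mem_galH_iff, hχ, hsL, hθa]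
  set s' : M ≃ₐ[galF (galH hζ θ)] M := galLift (galH hζ θ) s hsH with hs'def
  have hs'K : IsArithFrobAt (𝓞 K) (s'.restrictScalars K) 𝔔 := by
    rw [hs'def, galLift_restrictScalars]
    exact hs
  -- the prime `𝔄` of `F`
  have h𝔄u : (𝔔.under (𝓞 (galF (galH hζ θ)))).under (𝓞 K) = 𝔞 := by
    rw [Ideal.under_under, h𝔔u]
  have h𝔄0 : 𝔔.under (𝓞 (galF (galH hζ θ))) ≠ ⊥ := by
    intro h
    apply h𝔞
    rw [← h𝔄u, h]
    exact Ideal.under_bot (𝓞 K) (𝓞 (galF (galH hζ θ)))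
  have hN : Ideal.absNorm (𝔔.under (𝓞 (galF (galH hζ θ)))) = Ideal.absNorm 𝔞 := by
    rw [absNorm_under_eq_of_isArithFrobAt_restrictScalars h𝔔0 hs'K, h𝔔u]
  have hs'F : IsArithFrobAt (𝓞 (galF (galH hζ θ))) s' 𝔔 :=
    isArithFrobAt_of_restrictScalars h𝔔0 hs'K
  refine ⟨𝔔.under (𝓞 (galF (galH hζ θ))), inferInstance, h𝔄0, hN, ?_, ?_⟩
  · rw [relNorm_eq_under_of_absNorm_eq (K := K) _ h𝔄0 (by rw [hN, h𝔄u]), h𝔄u]
  · -- the Frobenius of `Ω/F` at `𝔄`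
    have h1 : IsArithFrobAt (𝓞 (galF (galH hζ θ))) (s'.restrictNormal (galOmega L (galH hζ θ)))
        (𝔔.under (𝓞 (galOmega L (galH hζ θ)))) :=
      isArithFrobAt_restrictNormal (Ω := galOmega L (galH hζ θ)) hs'F
    have hu : (𝔔.under (𝓞 (galOmega L (galH hζ θ)))).under (𝓞 (galF (galH hζ θ))) =
        𝔔.under (𝓞 (galF (galH hζ θ))) := Ideal.under_under _
    have h0 : 𝔔.under (𝓞 (galOmega L (galH hζ θ))) ≠ ⊥ := by
      intro h
      apply h𝔄0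
      rw [← hu, h]
      exact Ideal.under_bot (𝓞 (galF (galH hζ θ))) (𝓞 (galOmega L (galH hζ θ)))
    have hΩ := unramifiedEverywhere_galOmega (L := L) (galH hζ θ) hunr
    have h2 := frobAt_eq_of_isArithFrobAt h0 (hΩ.inertia_eq_bot _ h0) h1
    rw [hu] at h2
    rw [h2, galRhoBar_restrictNormal, galRho_galLift, hsL]

end

end Fermat.Agent.S14.CR
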