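/-
T14 / CR (inertia order bound; helper90): `K ⊆ L ⊆ M = L(ζ_m)` number fields, `L/K` Galois and
unramified everywhere, `K ⊆ F ⊆ M`.

* An inertia element of `M/K` restricts to the identity of `L`.
* If every `t ∈ Gal(M/F)` restricting to the identity of `L` acts on `ζ_m` through a `p`-th power
  (`χ(t) ∈ Pm m p`), then every inertia group of `M/F` embeds into `Pm m p`; hence
  `p * #I ∣ m - 1` and (helper97's `RamDiv`) `p ∣ e(P | m)` for every prime `P` of `F` above `m`.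
  This is exactly the hypothesis `hram` of `Kernel.artinMap_span_eq_one_of_isPow`.
-/
import Fermat.Agent.S14.Artin
import Fermat.Agent.S14.CR.FrobTower
import Fermat.Agent.S14.CR.CycGalois
import Fermat.Agent.S14.CR.ZModPow
import Fermat.Agent.S14.CR.RamDiv

set_option autoImplicit false

open NumberField

namespace Fermat.Agent.S14.CR

section

variable {K L M : Type*} [Field K] [NumberField K] [Field L] [NumberField L] [Field M]
  [NumberField M] [Algebra K L] [Algebra L M] [Algebra K M] [IsScalarTower K L M] [IsGalois K L]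

/-- An inertia element of `M/K` restricts to the identity on an everywhere unramified `L/K`. -/
theorem restrictNormal_eq_one_of_inertia (hunr : UnramifiedEverywhere K L)
    (𝔐 : Ideal (𝓞 M)) [𝔐.IsPrime] (h0 : 𝔐 ≠ ⊥) (s : M ≃ₐ[K] M)
    (hs : ∀ x : 𝓞 M, s • x - x ∈ 𝔐) : s.restrictNormal L = 1 := by
  have hP : (𝔐.under (𝓞 L)).IsPrime := Ideal.IsPrime.under (𝓞 L) 𝔐
  have hP0 : 𝔐.under (𝓞 L) ≠ ⊥ := fun h => h0 (Ideal.eq_bot_of_comap_eq_bot h)
  refine hunr _ hP hP0 _ fun x => ?_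
  rw [Ideal.under_def, Ideal.mem_comap, map_sub, algebraMap_restrictNormal_smul]
  exact hs _

variable {F : Type*} [Field F] [NumberField F] [Algebra K F] [Algebra F M] [IsScalarTower K F M]

omit [NumberField K] [NumberField F] [NumberField M] in
lemma restrictScalars_smul (t : M ≃ₐ[F] M) (x : 𝓞 M) : (t.restrictScalars K) • x = t • x := rfl

/-- The inertia groups of `M/F` embed into the `p`-th powers of `(ℤ/m)ˣ`. -/
theorem card_inertia_dvd_card_Pm (hunr : UnramifiedEverywhere K L) {m p : ℕ} [NeZero m]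
    [IsCyclotomicExtension {m} L M] {ζ : M} (hζ : IsPrimitiveRoot ζ m)
    (hF : ∀ t : M ≃ₐ[F] M, (t.restrictScalars K).restrictNormal L = 1 →
      hζ.autToPow K (t.restrictScalars K) ∈ Pm m p)
    (𝔐 : Ideal (𝓞 M)) [𝔐.IsPrime] (h0 : 𝔐 ≠ ⊥) :
    Nat.card (𝔐.inertia (M ≃ₐ[F] M)) ∣ Nat.card (Pm m p) := by
  have hres : ∀ t : 𝔐.inertia (M ≃ₐ[F] M),
      ((t : M ≃ₐ[F] M).restrictScalars K).restrictNormal L = 1 := fun t =>
    restrictNormal_eq_one_of_inertia hunr 𝔐 h0 _ fun x => by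
      rw [restrictScalars_smul]; exact t.2 x
  let f0 : 𝔐.inertia (M ≃ₐ[F] M) →* (ZMod m)ˣ :=
    (hζ.autToPow K).comp ((AlgEquiv.restrictScalarsHom K).comp (Subgroup.subtype _))
  let f : 𝔐.inertia (M ≃ₐ[F] M) →* Pm m p :=
    f0.codRestrict (Pm m p) fun t => hF t.1 (hres t)
  have hinj : Function.Injective f := by
    rw [injective_iff_map_eq_one]
    intro t ht
    have h1 : hζ.autToPow K ((t : M ≃ₐ[F] M).restrictScalars K) = 1 :=
      congrArg Subtype.val ht
    have h2 := eq_one_of_restrictNormal_of_autToPow K L M hζ _ (hres t) h1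
    apply Subtype.ext
    apply AlgEquiv.restrictScalars_injective K
    rw [h2]
    rfl
  exact Subgroup.card_dvd_of_injective f hinj

theorem p_mul_card_inertia_dvd (hunr : UnramifiedEverywhere K L) {m p : ℕ} [NeZero m]
    (hm : m.Prime) (hp : p.Prime) (hmp : m % p = 1)
    [IsCyclotomicExtension {m} L M] {ζ : M} (hζ : IsPrimitiveRoot ζ m)
    (hF : ∀ t : M ≃ₐ[F] M, (t.restrictScalars K).restrictNormal L = 1 →
      hζ.autToPow K (t.restrictScalars K) ∈ Pm m p)
    (𝔐 : Ideal (𝓞 M)) [𝔐.IsPrime] (h0 : 𝔐 ≠ ⊥) :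
    p * Nat.card (𝔐.inertia (M ≃ₐ[F] M)) ∣ m - 1 := by
  rw [← p_mul_card_Pm hm hp hmp]
  exact mul_dvd_mul_left p (card_inertia_dvd_card_Pm hunr hζ hF 𝔐 h0)

/-- **`hram`**: every prime of `F` above `m` has ramification index over `ℤ` divisible by `p`. -/
theorem dvd_ramificationIdx_of_autToPow_mem [IsGalois F M] (hunr : UnramifiedEverywhere K L)
    {m p : ℕ} [NeZero m] (hm : m.Prime) (hp : p.Prime) (hmp : m % p = 1)
    [IsCyclotomicExtension {m} L M] {ζ : M} (hζ : IsPrimitiveRoot ζ m)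
    (hF : ∀ t : M ≃ₐ[F] M, (t.restrictScalars K).restrictNormal L = 1 →
      hζ.autToPow K (t.restrictScalars K) ∈ Pm m p)
    (P : Ideal (𝓞 F)) (hPp : P.IsPrime) (hP : (m : 𝓞 F) ∈ P) :
    p ∣ P.ramificationIdx ℤ := by
  refine dvd_ramificationIdx_of_forall_card_inertia hm ζ hζ (fun 𝔐 h𝔐 hm𝔐 => ?_) P hP
  have h0 : 𝔐 ≠ ⊥ := by
    rintro rfl
    have h1 : (m : 𝓞 M) = 0 := by simpa using hm𝔐
    have h2 : (m : 𝓞 M) ≠ 0 := by exact_mod_cast hm.ne_zero
    exact h2 h1
  exact p_mul_card_inertia_dvd hunr hm hp hmp hζ hF 𝔐 h0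

end

end Fermat.Agent.S14.CR
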